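/-
Programme DS (S48), chapter G-X0 (helper16): generic twin of `X0/Analytic.lean` (lines 366-505) and
`X0/RealizeData.lean`.

From the per-generator analytic facts `A : AnalyticGens L Lc ι` (with `ι` injective) we build the
analytic realisation `realizeDataL A hι : RealizeDataL L Lc ι` of `Rsubc L Lc = Lc[generators]`:
an injective ring hom into the holomorphic functions on `ℍ`, `L.Gam`-invariant, whose values have
the formal element as `q`-expansion; on the generators it is `A.gFun`.
-/
import Mathlib
import Fermat.Agent.DS.G.Level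
import Fermat.Agent.X0.RealizeData

set_option autoImplicit false
set_option linter.unusedSectionVars false

open UpperHalfPlane ModularCurve
open scoped MatrixGroups

noncomputable section

namespace Fermat.Agent.DS.G.X0.Realize

open Fermat.Agent.X0 Fermat.Agent.X0.Analytic Fermat.Agent.DS.G.Level

variable {Lc : Type} [Field Lc] [Algebra ℚ Lc] (ι : Lc →+* ℂ)

/-! ### from `Lc((q))` to `ℂ((q))` -/

/-- complexification of a Laurent series over `Lc` (via `ι`). -/
def toCι : LaurentSeries Lc →+* LaurentSeries ℂ := ModularCurve.coeffMap ι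

theorem toCι_coeff (x : LaurentSeries Lc) (k : ℤ) : (toCι ι x).coeff k = ι (x.coeff k) := rfl

theorem toCι_injective (hι : Function.Injective ι) : Function.Injective (toCι ι) := by
  intro x y h
  ext k
  have h1 := congrArg (fun s : LaurentSeries ℂ => s.coeff k) h
  exact hι h1

theorem toCι_algebraMap (c : Lc) :
    toCι ι (algebraMap Lc (LaurentSeries Lc) c) = HahnSeries.C (ι c) := by
  rw [algebraMap_laurentSeries_eq_single, toCι, coeffMap_single]
  rfl

theorem ι_algebraMap_rat (r : ℚ) : ι (algebraMap ℚ Lc r) = algebraMap ℚ ℂ r := by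
  rw [eq_ratCast, eq_ratCast, map_ratCast]

theorem toCι_coeffEmb (x : LaurentSeries ℚ) :
    toCι ι (ModularCurve.coeffEmb Lc x) = ModularCurve.coeffEmb ℂ x := by
  ext k
  rw [toCι_coeff, coeffEmb_coeff, coeffEmb_coeff, ι_algebraMap_rat]

/-- A Laurent series over `Lc` whose complexification is `laurentOf m Q` is itself of the form
`laurentOf m P` with `P.map ι = Q`. -/
theorem exists_laurentOf_of_toCι (hι : Function.Injective ι) {x : LaurentSeries Lc} {m : ℕ}
    {Q : PowerSeries ℂ} (h : toCι ι x = laurentOf m Q) :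
    ∃ P : PowerSeries Lc, x = laurentOf m P ∧ P.map ι = Q := by
  let P : PowerSeries Lc := PowerSeries.mk fun n => x.coeff ((n : ℤ) - m)
  have hx : x = laurentOf m P := by
    ext k
    rw [coeff_laurentOf]
    split_ifs with hk
    · rw [PowerSeries.coeff_mk]
      congr 1
      rw [Int.toNat_of_nonneg hk]
      ring
    · have h1 := congrArg (fun s : LaurentSeries ℂ => s.coeff k) h
      simp only [toCι_coeff, coeff_laurentOf, if_neg hk] at h1
      exact (map_eq_zero_iff ι hι).mp h1
  refine ⟨P, hx, ?_⟩
  have h2 : laurentOf m (P.map ι) = laurentOf m Q := by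
    rw [← coeffMap_laurentOf, ← hx]
    exact h
  exact lau_injective m h2

/-! ### the realisation -/

variable (L : LevelData) (A : AnalyticGens L Lc ι)

include A in
theorem exists_hasQExp_of_mem {x : FFc L Lc} (hx : x ∈ Rsubc L Lc) :
    ∃ g : ℍ → ℂ, HasQExp (toCι ι (x : LaurentSeries Lc)) g := by
  unfold Rsubc at hx
  induction hx using Algebra.adjoin_induction with
  | mem y hy =>
      obtain ⟨g, rfl⟩ := hy
      refine ⟨A.gFun g, ?_⟩
      rw [coe_genc, toCι_coeffEmb]
      exact A.hasQExp g
  | algebraMap c =>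
      refine ⟨fun _ => ι c, ?_⟩
      have : ((algebraMap Lc (FFc L Lc) c : FFc L Lc) : LaurentSeries Lc)
          = algebraMap Lc (LaurentSeries Lc) c := rfl
      rw [this, toCι_algebraMap]
      exact HasQExp.const _
  | add y z _ _ hy hz =>
      obtain ⟨g₁, h₁⟩ := hy
      obtain ⟨g₂, h₂⟩ := hz
      refine ⟨g₁ + g₂, ?_⟩
      have : ((y + z : FFc L Lc) : LaurentSeries Lc) = (y : LaurentSeries Lc) + z := rfl
      rw [this, map_add]
      exact h₁.add h₂
  | mul y z _ _ hy hz =>
      obtain ⟨g₁, h₁⟩ := hy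
      obtain ⟨g₂, h₂⟩ := hz
      refine ⟨g₁ * g₂, ?_⟩
      have : ((y * z : FFc L Lc) : LaurentSeries Lc) = (y : LaurentSeries Lc) * z := rfl
      rw [this, map_mul]
      exact h₁.mul h₂

/-- the holomorphic function attached to an element of `R`. -/
def anFun (u : Rsubc L Lc) : ℍ → ℂ := (exists_hasQExp_of_mem ι L A u.2).choose

theorem hasQExp_anFun (u : Rsubc L Lc) :
    HasQExp (toCι ι (((u : FFc L Lc)) : LaurentSeries Lc)) (anFun ι L A u) :=
  (exists_hasQExp_of_mem ι L A u.2).choose_spec

theorem anFun_eq {u : Rsubc L Lc} {g : ℍ → ℂ}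
    (h : HasQExp (toCι ι (((u : FFc L Lc)) : LaurentSeries Lc)) g) : anFun ι L A u = g :=
  (hasQExp_anFun ι L A u).unique_right h

/-- the analytic realisation, as a ring hom. -/
def realizeHom : Rsubc L Lc →+* (ℍ → ℂ) where
  toFun := anFun ι L A
  map_one' := by
    apply anFun_eq
    have : (((1 : Rsubc L Lc) : FFc L Lc) : LaurentSeries Lc) = 1 := rfl
    rw [this, map_one]
    have h := HasQExp.const 1
    rw [map_one] at h
    exact h
  map_mul' u w := by
    apply anFun_eq
    have : (((u * w : Rsubc L Lc) : FFc L Lc) : LaurentSeries Lc)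
        = ((u : FFc L Lc) : LaurentSeries Lc) * ((w : FFc L Lc) : LaurentSeries Lc) := rfl
    rw [this, map_mul]
    exact (hasQExp_anFun ι L A u).mul (hasQExp_anFun ι L A w)
  map_zero' := by
    apply anFun_eq
    have : (((0 : Rsubc L Lc) : FFc L Lc) : LaurentSeries Lc) = 0 := rfl
    rw [this, map_zero]
    have h := HasQExp.const 0
    rw [map_zero] at h
    exact h
  map_add' u w := by
    apply anFun_eq
    have : (((u + w : Rsubc L Lc) : FFc L Lc) : LaurentSeries Lc)
        = ((u : FFc L Lc) : LaurentSeries Lc) + ((w : FFc L Lc) : LaurentSeries Lc) := rfl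
    rw [this, map_add]
    exact (hasQExp_anFun ι L A u).add (hasQExp_anFun ι L A w)

theorem realizeHom_apply (u : Rsubc L Lc) : realizeHom ι L A u = anFun ι L A u := rfl

theorem hasQExp_realizeHom (u : Rsubc L Lc) :
    HasQExp (toCι ι ((u : FFc L Lc) : LaurentSeries Lc)) (realizeHom ι L A u) :=
  hasQExp_anFun ι L A u

theorem realizeHom_eq_of_hasQExp {u : Rsubc L Lc} {g : ℍ → ℂ}
    (h : HasQExp (toCι ι ((u : FFc L Lc) : LaurentSeries Lc)) g) : realizeHom ι L A u = g :=
  anFun_eq ι L A h

theorem realizeHom_injective (hι : Function.Injective ι) :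
    Function.Injective (realizeHom ι L A) := by
  intro u w h
  have h1 := hasQExp_anFun ι L A u
  have h2 := hasQExp_anFun ι L A w
  rw [realizeHom_apply, realizeHom_apply] at h
  rw [h] at h1
  have h3 := toCι_injective ι hι (h1.unique_left h2)
  exact Subtype.ext (Subtype.ext h3)

theorem realizeHom_algebraMap (c : Lc) :
    realizeHom ι L A (algebraMap Lc (Rsubc L Lc) c) = fun _ => ι c := by
  apply realizeHom_eq_of_hasQExp
  have : (((algebraMap Lc (Rsubc L Lc) c : Rsubc L Lc) : FFc L Lc) : LaurentSeries Lc)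
      = algebraMap Lc (LaurentSeries Lc) c := rfl
  rw [this, toCι_algebraMap]
  exact HasQExp.const _

/-- On the generators the realisation is `A.gFun`. -/
theorem realizeHom_genR (g : L.gensQ) : realizeHom ι L A (genR L Lc g) = A.gFun g := by
  apply realizeHom_eq_of_hasQExp
  rw [coe_genR, coe_genc, toCι_coeffEmb]
  exact A.hasQExp g

theorem realizeHom_jR : realizeHom ι L A (jR L Lc) = jFun := by
  rw [jR, realizeHom_genR, A.j_eq]

theorem realizeHom_mem_HolH (u : Rsubc L Lc) : realizeHom ι L A u ∈ HolH :=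
  (hasQExp_realizeHom ι L A u).mdifferentiable

theorem realizeHom_isQExp (hι : Function.Injective ι) (u : Rsubc L Lc) :
    ∃ (m : ℕ) (P : PowerSeries Lc), IsQExp 1 (realizeHom ι L A u) m (P.map ι) ∧
      (((u : FFc L Lc) : LaurentSeries Lc)) = laurentOf m P := by
  obtain ⟨m, Q, hQ, hu⟩ := (hasQExp_realizeHom ι L A u).exists_isQExp
  obtain ⟨P, hP, hPQ⟩ :=
    exists_laurentOf_of_toCι ι hι (x := ((u : FFc L Lc) : LaurentSeries Lc)) hu
  exact ⟨m, P, hPQ ▸ hQ, hP⟩

theorem realizeHom_invariant (u : Rsubc L Lc) (γ : SL(2, ℤ)) (hγ : γ ∈ L.Gam) :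
    compSL (realizeHom ι L A u) γ = realizeHom ι L A u := by
  refine Rsubc_induction L Lc
    (p := fun u => compSL (realizeHom ι L A u) γ = realizeHom ι L A u) ?_ ?_ ?_ ?_ u
  · intro g
    rw [realizeHom_genR]
    exact A.invariant g γ hγ
  · intro c
    rw [realizeHom_algebraMap]
    rfl
  · intro u v hu hv
    rw [map_add]
    show compSL (realizeHom ι L A u) γ + compSL (realizeHom ι L A v) γ = _
    rw [hu, hv]
  · intro u v hu hv
    rw [map_mul]
    show compSL (realizeHom ι L A u) γ * compSL (realizeHom ι L A v) γ = _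
    rw [hu, hv]

/-- **The analytic realisation data** built from the per-generator facts. -/
def realizeDataL (hι : Function.Injective ι) : RealizeDataL L Lc ι where
  Θ := realizeHom ι L A
  injective := realizeHom_injective ι L A hι
  algebraMap_eq := realizeHom_algebraMap ι L A
  j_eq := realizeHom_jR ι L A
  mem_HolH := realizeHom_mem_HolH ι L A
  isQExp := realizeHom_isQExp ι L A hι
  invariant := realizeHom_invariant ι L A

@[simp] theorem realizeDataL_Θ (hι : Function.Injective ι) :
    (realizeDataL ι L A hι).Θ = realizeHom ι L A := rfl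

theorem realizeDataL_genR (hι : Function.Injective ι) (g : L.gensQ) :
    (realizeDataL ι L A hι).Θ (genR L Lc g) = A.gFun g :=
  realizeHom_genR ι L A g

/-! ### consequences valid for ANY `D : RealizeDataL L Lc ι` -/

variable {L ι}

/-- `Θ u` has the complexified formal element as convergent `q`-expansion. -/
theorem hasQExp_of_realizeData (D : RealizeDataL L Lc ι) (u : Rsubc L Lc) :
    ∃ (m : ℕ) (P : PowerSeries Lc), IsQExp 1 (D.Θ u) m (P.map ι) ∧
      toCι ι ((u : FFc L Lc) : LaurentSeries Lc) = laurentOf m (P.map ι) := by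
  obtain ⟨m, P, hP, hu⟩ := D.isQExp u
  refine ⟨m, P, hP, ?_⟩
  rw [hu, toCι, coeffMap_laurentOf]

end Fermat.Agent.DS.G.X0.Realize
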