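/-
Generic twin of `X0/CuspEquiv` (DS programme, chapter G-X0/G-DIM, helper26): equivariance
properties of the cusp expansions `C.T γ : FFc L Lc →+* LaurentSeries Lc` of a
`C : CuspDataL L Lc ι D`:

* `T_mul_left` : `T (δ γ) = T γ` for `δ ∈ L.Gam`;
* `T_mul_T`, `T_mul_T_coeff`, `T_mul_T_pow_coeff` : `T (γ T)` is `T γ` twisted by `q ↦ ζ_w q`
  (`w = L.w`).  DIFFERENCE with the original (helper29): the coefficient field `Lc` need not
  contain `ζ_w`, so the twist is stated AFTER the embedding `ι : Lc →+* ℂ`, with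
  `zetaC w = exp(2πi/w) ∈ ℂ`;
* `dvd_mul_of_coeff_ne_zero`, `width` : the width lemma (same statements as the original).

The level-free sections of the original (`Uniq`, `CoeffMap`, `Twist`) are imported, not copied.
-/
import Fermat.Agent.DS.G.Level
import Fermat.Agent.X0.CuspEquiv

set_option autoImplicit false
set_option linter.deprecated false
set_option linter.unnecessarySimpa false
set_option linter.unusedSectionVars false

open UpperHalfPlane
open scoped MatrixGroups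

noncomputable section

namespace Fermat.Agent.DS.G.X0.CuspEquiv

open Fermat.Agent.X0 Fermat.Agent.DS.G.Level
open Fermat.Agent.X0.CuspEquiv (laurentOf_eq_of_isQExp laurentOf_inj_of_map coeffMap_laurentOf
  twist twist_coeff twist_laurentOf)

/-! ### The root of unity `ζ_w ∈ ℂ` -/

section Zeta

variable (w : ℕ) [NeZero w]

/-- `exp (2 π i / w)`. -/
def zetaC : ℂ := Complex.exp (2 * Real.pi * Complex.I / w)

theorem zetaC_isPrimitiveRoot : IsPrimitiveRoot (zetaC w) w :=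
  Complex.isPrimitiveRoot_exp w (NeZero.ne w)

theorem zetaC_ne_zero : zetaC w ≠ 0 :=
  (zetaC_isPrimitiveRoot w).ne_zero (NeZero.ne w)

theorem zetaC_zpow_eq_one_iff (l : ℤ) : zetaC w ^ l = 1 ↔ (w : ℤ) ∣ l :=
  (zetaC_isPrimitiveRoot w).zpow_eq_one_iff_dvd l

theorem qh_T_smul (z : ℍ) : qh w (ModularGroup.T • z) = zetaC w * qh w z := by
  rw [zetaC, qh, qh, Function.Periodic.qParam, Function.Periodic.qParam,
    UpperHalfPlane.modular_T_smul, ← Complex.exp_add]
  congr 1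
  rw [UpperHalfPlane.coe_vadd]
  push_cast
  ring

/-- The `q_w`-expansion of `z ↦ g (z + 1)`. -/
theorem isQExp_comp_T {g : ℍ → ℂ} {m : ℕ} {P : PowerSeries ℂ} (hP : IsQExp w g m P) :
    IsQExp w (fun z => g (ModularGroup.T • z)) m
      (PowerSeries.mk fun n => zetaC w ^ ((n : ℤ) - m) * PowerSeries.coeff n P) := by
  intro z
  have hζ : zetaC w ≠ 0 := zetaC_ne_zero w
  have h := (hP (ModularGroup.T • z)).mul_left ((zetaC w)⁻¹ ^ m)
  rw [qh_T_smul] at h
  have hval : (zetaC w)⁻¹ ^ m * (g (ModularGroup.T • z) * (zetaC w * qh w z) ^ m)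
      = g (ModularGroup.T • z) * qh w z ^ m := by
    rw [mul_pow, inv_pow]
    field_simp
  rw [hval] at h
  refine h.congr_fun fun n => ?_
  rw [PowerSeries.coeff_mk, zpow_sub₀ hζ, zpow_natCast, zpow_natCast, mul_pow, inv_pow]
  field_simp

end Zeta

/-! ### Main results: equivariance properties of the cusp expansions -/

section Main

variable {L : LevelData} {Lc : Type} [Field Lc] [Algebra ℚ Lc] {ι : Lc →+* ℂ}
  [IsFractionRing (Rsubc L Lc) (FFc L Lc)]

/-- Every element of `FFc L Lc` is a quotient of elements of `Rsubc L Lc`. -/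
theorem exists_div (y : FFc L Lc) :
    ∃ r s : Rsubc L Lc, y = (r : FFc L Lc) / (s : FFc L Lc) := by
  obtain ⟨r, s, _, rfl⟩ := IsFractionRing.div_surjective (A := Rsubc L Lc) y
  exact ⟨r, s, rfl⟩

/-- Two ring homs out of `FFc L Lc` into a field which agree on `Rsubc L Lc` are equal. -/
theorem ringHom_ext_Rsub {M : Type*} [Field M] {φ ψ : FFc L Lc →+* M}
    (h : ∀ u : Rsubc L Lc, φ (u : FFc L Lc) = ψ (u : FFc L Lc)) : φ = ψ := by
  ext y
  obtain ⟨r, s, rfl⟩ := exists_div y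
  rw [map_div₀, map_div₀, h r, h s]

variable {D : RealizeDataL L Lc ι} (C : CuspDataL L Lc ι D)

/-- The value of `T γ` on `u ∈ R` is determined by any `q_w`-expansion datum of `Θ u ∘ γ`. -/
theorem T_eq_of_isQExp (γ : SL(2, ℤ)) (u : Rsubc L Lc) {m : ℕ} {P : PowerSeries Lc}
    (hP : IsQExp L.w (compSL (D.Θ u) γ) m (P.map ι)) :
    C.T γ (u : FFc L Lc) = laurentOf m P := by
  obtain ⟨m', P', hP', hT⟩ := C.spec γ u
  rw [hT]
  exact laurentOf_inj_of_map ι ι.injective (laurentOf_eq_of_isQExp hP' hP)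

/-- (4a) `T (δ γ) = T γ` for `δ ∈ L.Gam`. -/
theorem T_mul_left (δ γ : SL(2, ℤ)) (hδ : δ ∈ L.Gam) :
    C.T (δ * γ) = C.T γ := by
  apply ringHom_ext_Rsub
  intro u
  obtain ⟨m, P, hP, hT⟩ := C.spec γ u
  rw [hT]
  apply T_eq_of_isQExp
  have hfun : compSL (D.Θ u) (δ * γ) = compSL (D.Θ u) γ := by
    funext z
    simp only [compSL]
    rw [mul_smul]
    exact congrFun (D.invariant u δ hδ) (γ • z)
  rw [hfun]
  exact hP

/-- (4b) `ι ∘ T (γ T) = twist ζ_w ∘ ι ∘ T γ`. -/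
theorem T_mul_T (γ : SL(2, ℤ)) :
    (ModularCurve.coeffMap ι).comp (C.T (γ * ModularGroup.T)) =
      (twist (zetaC L.w) (zetaC_ne_zero L.w)).comp ((ModularCurve.coeffMap ι).comp (C.T γ)) := by
  apply ringHom_ext_Rsub
  intro u
  obtain ⟨m, P, hP, hT⟩ := C.spec γ u
  obtain ⟨m', P', hP', hT'⟩ := C.spec (γ * ModularGroup.T) u
  rw [RingHom.comp_apply, RingHom.comp_apply, RingHom.comp_apply, hT, hT', coeffMap_laurentOf,
    coeffMap_laurentOf, twist_laurentOf]
  have hfun : compSL (D.Θ u) (γ * ModularGroup.T)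
      = fun z => compSL (D.Θ u) γ (ModularGroup.T • z) := by
    funext z
    simp only [compSL]
    rw [mul_smul]
  rw [hfun] at hP'
  exact laurentOf_eq_of_isQExp hP' (isQExp_comp_T L.w hP)

/-- (4b), coefficientwise. -/
theorem T_mul_T_coeff (γ : SL(2, ℤ)) (f : FFc L Lc) (n : ℤ) :
    ι ((C.T (γ * ModularGroup.T) f).coeff n) = zetaC L.w ^ n * ι ((C.T γ f).coeff n) := by
  have h := congrArg (fun φ : FFc L Lc →+* LaurentSeries ℂ => (φ f).coeff n) (T_mul_T C γ)
  simpa only [RingHom.comp_apply, ModularCurve.coeffMap_coeff, twist_coeff] using h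

/-- (4b) for powers of `T`. -/
theorem T_mul_T_pow_coeff (γ : SL(2, ℤ)) (k : ℕ) (f : FFc L Lc) (n : ℤ) :
    ι ((C.T (γ * ModularGroup.T ^ k) f).coeff n)
      = (zetaC L.w ^ n) ^ k * ι ((C.T γ f).coeff n) := by
  induction k with
  | zero => simp
  | succ k ih =>
    rw [pow_succ, ← mul_assoc, T_mul_T_coeff, ih, pow_succ]
    ring

/-- (5) WIDTH, general form: if `γ T^w' γ⁻¹ ∈ L.Gam` then the nonzero coefficients of `T γ f` sit
in degrees `n` with `L.w ∣ n * w'`. -/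
theorem dvd_mul_of_coeff_ne_zero (γ : SL(2, ℤ)) (w : ℕ)
    (h : γ * ModularGroup.T ^ w * γ⁻¹ ∈ L.Gam) (f : FFc L Lc) (n : ℤ)
    (hn : (C.T γ f).coeff n ≠ 0) : (L.w : ℤ) ∣ n * w := by
  have h1 : C.T (γ * ModularGroup.T ^ w) = C.T γ := by
    have := T_mul_left C (γ * ModularGroup.T ^ w * γ⁻¹) γ h
    rwa [inv_mul_cancel_right] at this
  have h2 := T_mul_T_pow_coeff C γ w f n
  rw [h1] at h2
  have hn' : ι ((C.T γ f).coeff n) ≠ 0 := (map_ne_zero ι).mpr hn
  have h3 : (zetaC L.w ^ n) ^ w = 1 := by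
    have : ((zetaC L.w ^ n) ^ w - 1) * ι ((C.T γ f).coeff n) = 0 := by
      rw [sub_mul, one_mul, ← h2, sub_self]
    rcases mul_eq_zero.mp this with h' | h'
    · exact sub_eq_zero.mp h'
    · exact absurd h' hn'
  rw [← zpow_natCast, ← zpow_mul] at h3
  exact (zetaC_zpow_eq_one_iff L.w _).mp h3

/-- (5) WIDTH: if `γ T^w' γ⁻¹ ∈ L.Gam` with `0 < w' ∣ L.w`, then `T γ f` is a series in
`q_w^{w/w'}`. -/
theorem width (γ : SL(2, ℤ)) (w : ℕ) (hw : 0 < w) (hwN : w ∣ L.w)
    (h : γ * ModularGroup.T ^ w * γ⁻¹ ∈ L.Gam) (f : FFc L Lc) (n : ℤ)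
    (hn : (C.T γ f).coeff n ≠ 0) : ((L.w / w : ℕ) : ℤ) ∣ n := by
  have h1 := dvd_mul_of_coeff_ne_zero C γ w h f n hn
  obtain ⟨e, he⟩ := hwN
  have hNw : L.w / w = e := by rw [he, Nat.mul_div_cancel_left e hw]
  rw [hNw]
  rw [he] at h1
  push_cast at h1
  have hw' : (w : ℤ) ≠ 0 := by exact_mod_cast hw.ne'
  rw [mul_comm n] at h1
  exact (mul_dvd_mul_iff_left hw').mp h1

end Main

end Fermat.Agent.DS.G.X0.CuspEquiv
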