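/-
Generic twin of `X0/CuspGood` (DS programme, chapter G-X0/G-DIM, helper26): for ARBITRARY
`(D : RealizeDataL L Lc ι) (C : CuspDataL L Lc ι D)` the cusp expansions satisfy
`CuspPlaces.Good C`: values on constants and on `j`, invariance under `L.Gam` on the left,
rotation of coefficients under `γ ↦ γ T`, width lemma.  Everything is derived from `C.spec`,
`D.algebraMap_eq`, `D.j_eq`, `D.invariant`.  (Original: helper29, input (3) of S24.)
-/
import Fermat.Agent.DS.G.X0.CuspEquiv
import Fermat.Agent.DS.G.X0.CuspPlaces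
import Fermat.Agent.X0.CuspGood
import Fermat.Agent.X0.JBasic

set_option autoImplicit false
set_option linter.unusedSectionVars false

open UpperHalfPlane
open scoped MatrixGroups

noncomputable section

namespace Fermat.Agent.DS.G.X0.CuspGood

open Fermat.Agent.X0 Fermat.Agent.DS.G.Level Fermat.Agent.DS.G.X0.CuspEquiv
open Fermat.Agent.DS.G.X0.CuspPlaces
open Fermat.Agent.X0.CuspEquiv (coeffMap_laurentOf)
open Fermat.Agent.X0.CuspGood (isQExp_level coeffMap_qExpand coeffMap_injective)

/-- Two Hahn series with the same support have the same order. -/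
theorem order_eq_of_coeff_ne_zero_iff {R S : Type*} [Zero R] [Zero S]
    {x : HahnSeries ℤ R} {y : HahnSeries ℤ S}
    (hsupp : ∀ n, x.coeff n ≠ 0 ↔ y.coeff n ≠ 0) : x.order = y.order := by
  by_cases hx : x = 0
  · have hy : y = 0 := by
      ext n
      have := (hsupp n).not
      simp only [not_not] at this
      simpa using this.mp (by rw [hx]; simp)
    rw [hx, hy, HahnSeries.order_zero, HahnSeries.order_zero]
  · have hy : y ≠ 0 := by
      intro hy
      apply hx
      ext n
      have := (hsupp n).not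
      simp only [not_not] at this
      simpa using this.mpr (by rw [hy]; simp)
    apply le_antisymm
    · exact HahnSeries.order_le_of_coeff_ne_zero
        ((hsupp _).mpr (fun h0 => hy (HahnSeries.coeff_order_eq_zero.mp h0)))
    · exact HahnSeries.order_le_of_coeff_ne_zero
        ((hsupp _).mp (fun h0 => hx (HahnSeries.coeff_order_eq_zero.mp h0)))

section Coeff

variable (Lc : Type) [Field Lc] [Algebra ℚ Lc] (ι : Lc →+* ℂ)

theorem iota_comp_algebraMap : ι.comp (algebraMap ℚ Lc) = algebraMap ℚ ℂ :=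
  Subsingleton.elim _ _

/-- `ι` applied coefficientwise to a rational Laurent series. -/
theorem coeffMap_coeffEmb (x : LaurentSeries ℚ) :
    ModularCurve.coeffMap ι (ModularCurve.coeffEmb Lc x) = ModularCurve.coeffEmb ℂ x := by
  ext k
  rw [ModularCurve.coeffMap_coeff, ModularCurve.coeffEmb_coeff, ModularCurve.coeffEmb_coeff,
    ← RingHom.comp_apply, iota_comp_algebraMap]

/-- The `q`-series of `q j`, over `Lc`. -/
def jNumc : PowerSeries Lc := ModularCurve.jNumQ.map (algebraMap ℚ Lc)

theorem jNumc_map : (jNumc Lc).map ι = jNumC := by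
  unfold jNumc jNumC
  ext n
  rw [PowerSeries.coeff_map, PowerSeries.coeff_map, PowerSeries.coeff_map, ← RingHom.comp_apply,
    iota_comp_algebraMap]

/-- `j(q^w)` over `ℂ` as the Laurent series of the expansion datum of `j` at width `w`. -/
theorem qExpand_coeffEmb_jq (w : ℕ) [NeZero w] :
    ModularCurve.qExpand ℂ w (ModularCurve.coeffEmb ℂ ModularCurve.jq)
      = laurentOf w (jNumC.expand w (NeZero.ne w)) := by
  have h2 := coeffMap_iotaK_jdF w w dvd_rfl
  have hjN : ((jdF w w dvd_rfl : FF w) : LaurentSeries Kbar)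
      = ModularCurve.coeffEmb Kbar (ModularCurve.qExpand ℚ w ModularCurve.jq) := rfl
  rw [hjN, coeffMap_coeffEmb Kbar iotaK] at h2
  rw [← h2]
  unfold ModularCurve.coeffEmb
  rw [coeffMap_qExpand]

end Coeff

variable {L : LevelData} {Lc : Type} [Field Lc] [Algebra ℚ Lc] {ι : Lc →+* ℂ}
  [IsFractionRing (Rsubc L Lc) (FFc L Lc)]
variable {D : RealizeDataL L Lc ι} (C : CuspDataL L Lc ι D)

/-- Value of `T γ` on constants. -/
theorem map_const (γ : SL(2, ℤ)) (c : Lc) :
    C.T γ (algebraMap Lc (FFc L Lc) c) = HahnSeries.C c := by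
  have hcoe : algebraMap Lc (FFc L Lc) c
      = ((algebraMap Lc (Rsubc L Lc) c : Rsubc L Lc) : FFc L Lc) := rfl
  rw [hcoe]
  have hP : IsQExp L.w (compSL (D.Θ (algebraMap Lc (Rsubc L Lc) c)) γ) 0
      ((PowerSeries.C c).map ι) := by
    intro z
    rw [D.algebraMap_eq c]
    simp only [compSL, pow_zero, mul_one]
    have h := hasSum_single (f := fun n : ℕ =>
      PowerSeries.coeff n ((PowerSeries.C c).map ι) * qh L.w z ^ n) 0 (fun n hn => by
        rw [PowerSeries.map_C, PowerSeries.coeff_C, if_neg hn, zero_mul])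
    simpa [PowerSeries.map_C, PowerSeries.coeff_C] using h
  rw [T_eq_of_isQExp C γ _ hP, laurentOf]
  simp

/-- Value of `T γ` on `j`. -/
theorem map_jF (γ : SL(2, ℤ)) :
    C.T γ (jFc L Lc) = ModularCurve.qExpand Lc L.w (jqc Lc) := by
  have hcoe : jFc L Lc = ((jR L Lc : Rsubc L Lc) : FFc L Lc) := rfl
  rw [hcoe]
  have hfun : compSL (D.Θ (jR L Lc)) γ = jFun := by
    rw [D.j_eq]
    funext z
    exact jFun_smul γ z
  have hP : IsQExp L.w (compSL (D.Θ (jR L Lc)) γ) (L.w * 1)
      (((jNumc Lc).expand L.w (NeZero.ne L.w)).map ι) := by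
    rw [hfun, PowerSeries.map_expand, jNumc_map]
    exact isQExp_level isQExp_jFun_C
  rw [T_eq_of_isQExp C γ _ hP]
  apply coeffMap_injective ι ι.injective
  rw [coeffMap_laurentOf, PowerSeries.map_expand, jNumc_map, mul_one, coeffMap_qExpand]
  unfold jqc
  rw [coeffMap_coeffEmb, qExpand_coeffEmb_jq]

/-- `Good` from the coefficient forms of the rotation (after `ι`) and width lemmas. -/
theorem good_of_coeff_map
    (map_const : ∀ (γ : SL(2, ℤ)) (c : Lc), C.T γ (algebraMap Lc (FFc L Lc) c) = HahnSeries.C c)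
    (map_jF : ∀ γ : SL(2, ℤ), C.T γ (jFc L Lc) = ModularCurve.qExpand Lc L.w (jqc Lc))
    (mul_left : ∀ δ : SL(2, ℤ), δ ∈ L.Gam → ∀ γ : SL(2, ℤ), C.T (δ * γ) = C.T γ)
    (ζ : ℂ) (hζ : ζ ≠ 0)
    (mul_T : ∀ (γ : SL(2, ℤ)) (f : FFc L Lc) (n : ℤ),
      ι ((C.T (γ * ModularGroup.T) f).coeff n) = ζ ^ n * ι ((C.T γ f).coeff n))
    (width : ∀ (γ : SL(2, ℤ)) (w : ℕ), 0 < w → w ∣ L.w →
      γ * ModularGroup.T ^ w * γ⁻¹ ∈ L.Gam → ∀ (f : FFc L Lc) (n : ℤ),
      ¬ ((L.w / w : ℕ) : ℤ) ∣ n → (C.T γ f).coeff n = 0) : Good C where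
  map_const := map_const
  map_jF := map_jF
  mul_left := mul_left
  order_mul_T γ f := by
    apply order_eq_of_coeff_ne_zero_iff
    intro n
    rw [← map_ne_zero ι, mul_T γ f n, ← map_ne_zero ι (a := (C.T γ f).coeff n)]
    simp [zpow_ne_zero n hζ]
  width γ w hw hwN hmem f hf := by
    by_contra hnd
    have h0 := width γ w hw hwN hmem f _ hnd
    rw [HahnSeries.coeff_order_eq_zero] at h0
    exact (LaurentPlace.emb_ne_zero (C.T γ) hf) h0

/-- **Input (3) of S24, generic level**: the cusp expansions of any `CuspDataL` are `Good`. -/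
theorem good : Good C :=
  good_of_coeff_map C (map_const C) (map_jF C)
    (fun δ hδ γ => T_mul_left C δ γ hδ) (zetaC L.w) (zetaC_ne_zero L.w)
    (fun γ f n => T_mul_T_coeff C γ f n)
    (fun γ w hw hwN h f n hn => by
      by_contra hne
      exact hn (width C γ w hw hwN h f n hne))

end Fermat.Agent.DS.G.X0.CuspGood
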