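/-
DS programme, chapter G-X0 / G-DIM (helper26): the action of `SL(2, ℤ)` on the coset space
`SL(2, ℤ) ⧸ L.Gam` of an abstract level.  Generic replacement of the part of `X0/G1Elliptic`
used by the places files: `-1`, `S ^ 2`, `(S T) ^ 3` and `T ^ L.w` act trivially (the last one
because `Γ(L.w) ≤ L.Gam` is normal in `SL(2, ℤ)`), hence `⟨T⟩`-orbits have size dividing `L.w`.
-/
import Mathlib
import Fermat.Agent.DS.G.Level
import Fermat.Agent.X0.OrbitCount

set_option autoImplicit false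

open Matrix MatrixGroups ModularGroup MulAction Subgroup CongruenceSubgroup

namespace Fermat.Agent.DS.G.X0.CosetAction

open Fermat.Agent.DS.G.Level Fermat.Agent.X0.OrbitCount

variable (L : LevelData)

/-- `σ` fixes the coset `g L.Gam` iff `g⁻¹ σ g ∈ L.Gam`. -/
theorem smul_mk_eq_iff (σ g : SL(2, ℤ)) :
    σ • (QuotientGroup.mk g : SL(2, ℤ) ⧸ L.Gam) = QuotientGroup.mk g ↔
      g⁻¹ * σ * g ∈ L.Gam := by
  rw [MulAction.Quotient.smul_mk, QuotientGroup.eq]
  constructor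
  · intro h
    have := inv_mem h
    simpa [mul_assoc] using this
  · intro h
    have := inv_mem h
    simpa [mul_assoc] using this

/-- An element all of whose conjugates lie in `L.Gam` acts trivially on the coset space. -/
theorem smul_eq_self_of_conj_mem {σ : SL(2, ℤ)} (h : ∀ g : SL(2, ℤ), g⁻¹ * σ * g ∈ L.Gam)
    (x : SL(2, ℤ) ⧸ L.Gam) : σ • x = x := by
  induction x using QuotientGroup.induction_on with
  | H g => exact (smul_mk_eq_iff L σ g).mpr (h g)

theorem neg_one_smul' (x : SL(2, ℤ) ⧸ L.Gam) : (-1 : SL(2, ℤ)) • x = x := by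
  refine smul_eq_self_of_conj_mem L (fun g => ?_) x
  have : g⁻¹ * (-1 : SL(2, ℤ)) * g = -1 := by
    rw [mul_neg, mul_one, neg_mul, inv_mul_cancel]
  rw [this]
  exact L.neg_one_mem

theorem S_sq_eq : (S : SL(2, ℤ)) ^ 2 = -1 := by
  rw [sq]
  ext i j
  fin_cases i <;> fin_cases j <;>
    simp [Matrix.SpecialLinearGroup.coe_mul, coe_S, Matrix.mul_apply, Fin.sum_univ_two]

theorem ST_cube_eq : (S * T : SL(2, ℤ)) ^ 3 = -1 := by
  rw [pow_succ, sq]
  ext i j
  fin_cases i <;> fin_cases j <;>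
    simp [Matrix.SpecialLinearGroup.coe_mul, coe_S, coe_T, Matrix.mul_apply, Fin.sum_univ_two]

theorem S_sq_smul (x : SL(2, ℤ) ⧸ L.Gam) : (S : SL(2, ℤ)) ^ 2 • x = x := by
  rw [S_sq_eq]
  exact neg_one_smul' L x

theorem ST_cube_smul (x : SL(2, ℤ) ⧸ L.Gam) : (S * T : SL(2, ℤ)) ^ 3 • x = x := by
  rw [ST_cube_eq]
  exact neg_one_smul' L x

theorem T_pow_mem_Gamma (w : ℕ) : (T : SL(2, ℤ)) ^ w ∈ Gamma w := by
  have h := ModularGroup.coe_T_zpow (w : ℤ)
  rw [zpow_natCast] at h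
  rw [Gamma_mem]
  have h00 : ((T : SL(2, ℤ)) ^ w) 0 0 = 1 := by
    have := congrFun (congrFun h 0) 0
    simpa using this
  have h01 : ((T : SL(2, ℤ)) ^ w) 0 1 = (w : ℤ) := by
    have := congrFun (congrFun h 0) 1
    simpa using this
  have h10 : ((T : SL(2, ℤ)) ^ w) 1 0 = 0 := by
    have := congrFun (congrFun h 1) 0
    simpa using this
  have h11 : ((T : SL(2, ℤ)) ^ w) 1 1 = 1 := by
    have := congrFun (congrFun h 1) 1
    simpa using this
  rw [h00, h01, h10, h11]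
  simp

theorem T_pow_smul (x : SL(2, ℤ) ⧸ L.Gam) : (T : SL(2, ℤ)) ^ L.w • x = x := by
  refine smul_eq_self_of_conj_mem L (fun g => ?_) x
  apply L.gamma_le
  have hn : (Gamma L.w).Normal := Gamma_normal L.w
  have := hn.conj_mem _ (T_pow_mem_Gamma L.w) g⁻¹
  rwa [inv_inv] at this

/-- Conjugates of an element acting trivially act trivially. -/
theorem conj_pow_smul {g : SL(2, ℤ)} {n : ℕ}
    (h : ∀ x : SL(2, ℤ) ⧸ L.Gam, g ^ n • x = x) (γ : SL(2, ℤ))
    (x : SL(2, ℤ) ⧸ L.Gam) : (γ * g * γ⁻¹) ^ n • x = x := by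
  rw [conj_pow, mul_smul, mul_smul, h, smul_inv_smul]

/-- The width of a cusp divides `L.w`. -/
theorem card_orbit_T_dvd (x : SL(2, ℤ) ⧸ L.Gam) :
    Nat.card (orbit (zpowers (T : SL(2, ℤ))) x) ∣ L.w :=
  card_orbit_zpowers_dvd (T_pow_smul L x)

end Fermat.Agent.DS.G.X0.CosetAction
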