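/-
Generic twin of `X0/CuspPlaces` (DS programme, chapter G-X0/G-DIM, helper26): the places of
`F = FFc L Lc` over `j = ∞`, attached to the cusp expansions `C.T γ : F →+* Lc((q_w))` of a
`C : CuspDataL L Lc ι D` (`w = L.w`).  The level `N` of the original (helper7, C-P1b) is replaced by
`L.w`, `Γ₀(N)` by `L.Gam`, `ℚbar` by `Lc`; the width lemma `g1_card_orbit_T_dvd` by
`CosetAction.card_orbit_T_dvd`.  `CuspData.Good` becomes `CuspPlaces.Good C`.
-/
import Fermat.Agent.DS.G.Level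
import Fermat.Agent.DS.G.X0.CosetAction
import Fermat.Agent.X0.LaurentPlace
set_option autoImplicit false

open AlgebraicCurve UpperHalfPlane
open scoped MatrixGroups
open MulAction Subgroup CongruenceSubgroup

noncomputable section

namespace Fermat.Agent.DS.G.X0.CuspPlaces

open Fermat.Agent.X0 Fermat.Agent.DS.G.Level

/-! ### The order of `j(q^N)` -/

/-- The formal `j` over `Lc`. -/
def jqc (Lc : Type) [Field Lc] [Algebra ℚ Lc] : LaurentSeries Lc :=
  ModularCurve.coeffEmb Lc ModularCurve.jq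

theorem jqc_coeff_neg_one (Lc : Type) [Field Lc] [Algebra ℚ Lc] : (jqc Lc).coeff (-1) = 1 := by
  unfold jqc
  rw [ModularCurve.coeffEmb_coeff, ModularCurve.coeff_jq_neg_one, map_one]

theorem jqc_coeff_of_lt (Lc : Type) [Field Lc] [Algebra ℚ Lc] {k : ℤ} (hk : k < -1) :
    (jqc Lc).coeff k = 0 := by
  unfold jqc
  rw [ModularCurve.coeffEmb_coeff, ModularCurve.coeff_jq_of_lt hk, map_zero]

theorem order_qExpand_jqc (Lc : Type) [Field Lc] [Algebra ℚ Lc] (N : ℕ) [NeZero N] :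
    (ModularCurve.qExpand Lc N (jqc Lc)).order = -(N : ℤ) := by
  have hN : (0 : ℤ) < N := by exact_mod_cast Nat.pos_of_ne_zero (NeZero.ne N)
  have h1 : (ModularCurve.qExpand Lc N (jqc Lc)).coeff (-(N : ℤ)) = 1 := by
    have := ModularCurve.qExpand_coeff_mul (R := Lc) N (jqc Lc) (-1)
    rw [mul_neg_one] at this
    rw [this, jqc_coeff_neg_one]
  have hne : ModularCurve.qExpand Lc N (jqc Lc) ≠ 0 := by
    intro h
    rw [h] at h1
    simp at h1
  apply le_antisymm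
  · exact HahnSeries.order_le_of_coeff_ne_zero (by rw [h1]; exact one_ne_zero)
  · rw [HahnSeries.le_order_iff_forall hne]
    intro k hk
    by_cases hd : (N : ℤ) ∣ k
    · obtain ⟨m, rfl⟩ := hd
      rw [ModularCurve.qExpand_coeff_mul]
      apply jqc_coeff_of_lt
      by_contra hm
      have : -1 ≤ m := not_lt.mp hm
      nlinarith
    · exact ModularCurve.qExpand_coeff_of_not_dvd N _ hd

variable {L : LevelData} {Lc : Type} [Field Lc] [Algebra ℚ Lc] {ι : Lc →+* ℂ} {D : RealizeDataL L Lc ι}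

/-- The properties of the cusp expansions `C.T γ` used for the places over `∞`
(all derived from `C.spec` in `CuspEquiv.lean`). -/
structure Good (C : CuspDataL L Lc ι D) : Prop where
  map_const : ∀ (γ : SL(2, ℤ)) (c : Lc), C.T γ (algebraMap Lc (FFc L Lc) c) = HahnSeries.C c
  map_jF : ∀ γ : SL(2, ℤ), C.T γ (jFc L Lc) = ModularCurve.qExpand Lc L.w (jqc Lc)
  mul_left : ∀ δ : SL(2, ℤ), δ ∈ L.Gam → ∀ γ : SL(2, ℤ), C.T (δ * γ) = C.T γ
  order_mul_T : ∀ (γ : SL(2, ℤ)) (f : FFc L Lc),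
    (C.T (γ * ModularGroup.T) f).order = (C.T γ f).order
  width : ∀ (γ : SL(2, ℤ)) (w : ℕ), 0 < w → w ∣ L.w → γ * ModularGroup.T ^ w * γ⁻¹ ∈ L.Gam →
    ∀ f : FFc L Lc, f ≠ 0 → ((L.w / w : ℕ) : ℤ) ∣ (C.T γ f).order

namespace Good

variable {C : CuspDataL L Lc ι D} (hC : Good C)
include hC

theorem order_jF (γ : SL(2, ℤ)) : (C.T γ (jFc L Lc)).order = -(L.w : ℤ) := by
  rw [hC.map_jF, order_qExpand_jqc]

theorem jF_ne_zero : jFc L Lc ≠ 0 := by
  intro h
  have h1 := hC.order_jF 1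
  rw [h, map_zero, HahnSeries.order_zero] at h1
  have hN : (0 : ℤ) < L.w := by exact_mod_cast Nat.pos_of_ne_zero (NeZero.ne L.w)
  omega

theorem nontrivial (γ : SL(2, ℤ)) : ∃ f : FFc L Lc, f ≠ 0 ∧ (C.T γ f).order ≠ 0 := by
  refine ⟨jFc L Lc, hC.jF_ne_zero, ?_⟩
  rw [hC.order_jF]
  have hN : (0 : ℤ) < L.w := by exact_mod_cast Nat.pos_of_ne_zero (NeZero.ne L.w)
  omega

theorem order_mul_T_zpow (γ : SL(2, ℤ)) (k : ℤ) (f : FFc L Lc) :
    (C.T (γ * ModularGroup.T ^ k) f).order = (C.T γ f).order := by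
  induction k using Int.induction_on generalizing γ with
  | zero => simp
  | succ n ih =>
    rw [zpow_add_one, ← mul_assoc, hC.order_mul_T, ih]
  | pred n ih =>
    have := hC.order_mul_T (γ * ModularGroup.T ^ (-(n : ℤ) - 1)) f
    rw [mul_assoc, ← zpow_add_one, sub_add_cancel, ih] at this
    exact this.symm

end Good

/-- `CuspData.Good` from the coefficient forms of the rotation and width lemmas
(shapes of C-F2d (4), (5)). -/
theorem Good.of_coeff (C : CuspDataL L Lc ι D)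
    (map_const : ∀ (γ : SL(2, ℤ)) (c : Lc), C.T γ (algebraMap Lc (FFc L Lc) c) = HahnSeries.C c)
    (map_jF : ∀ γ : SL(2, ℤ), C.T γ (jFc L Lc) = ModularCurve.qExpand Lc L.w (jqc Lc))
    (mul_left : ∀ δ : SL(2, ℤ), δ ∈ L.Gam → ∀ γ : SL(2, ℤ), C.T (δ * γ) = C.T γ)
    (ζ : Lc) (hζ : ζ ≠ 0)
    (mul_T : ∀ (γ : SL(2, ℤ)) (f : FFc L Lc) (n : ℤ),
      (C.T (γ * ModularGroup.T) f).coeff n = ζ ^ n * (C.T γ f).coeff n)
    (width : ∀ (γ : SL(2, ℤ)) (w : ℕ), 0 < w → w ∣ L.w →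
      γ * ModularGroup.T ^ w * γ⁻¹ ∈ L.Gam → ∀ (f : FFc L Lc) (n : ℤ),
      ¬ ((L.w / w : ℕ) : ℤ) ∣ n → (C.T γ f).coeff n = 0) : Good C where
  map_const := map_const
  map_jF := map_jF
  mul_left := mul_left
  order_mul_T γ f :=
    LaurentPlace.order_eq_of_coeff_eq_mul (fun n => ζ ^ n) (fun n => zpow_ne_zero n hζ)
      (mul_T γ f)
  width γ w hw hwN hmem f hf := by
    by_contra hnd
    have h0 := width γ w hw hwN hmem f _ hnd
    rw [HahnSeries.coeff_order_eq_zero] at h0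
    exact (LaurentPlace.emb_ne_zero (C.T γ) hf) h0

/-! ### The places over `∞` -/

section Places

variable {C : CuspDataL L Lc ι D} (hC : Good C)

/-- The place of `F` attached to `g : SL(2, ℤ)`: the order function is `f ↦ (C.T g⁻¹ f).order`. -/
def cuspPlace (g : SL(2, ℤ)) : Place Lc (FFc L Lc) :=
  LaurentPlace.embPlace (C.T g⁻¹) (hC.map_const g⁻¹) (hC.nontrivial g⁻¹)

theorem mem_cuspPlace_iff (g : SL(2, ℤ)) {f : FFc L Lc} (hf : f ≠ 0) :
    f ∈ (cuspPlace hC g).toValuationSubring ↔ 0 ≤ (C.T g⁻¹ f).order :=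
  LaurentPlace.mem_embPlace_iff _ _ _ hf

/-- The multiplicity relation: `ord_{q_N} (f ∘ g⁻¹) = m * ord_v f`, and `m * ord_v j = -L.w`. -/
theorem cuspPlace_spec (g : SL(2, ℤ)) :
    ∃ m : ℕ, 0 < m ∧ (∀ f : FFc L Lc, f ≠ 0 → (C.T g⁻¹ f).order = m * (cuspPlace hC g).ord f) ∧
      (m : ℤ) * (cuspPlace hC g).ord (jFc L Lc) = -(L.w : ℤ) := by
  obtain ⟨m, hm, h⟩ := LaurentPlace.embPlace_spec (C.T g⁻¹) (hC.map_const g⁻¹) (hC.nontrivial g⁻¹)
  refine ⟨m, hm, h, ?_⟩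
  have := h (jFc L Lc) hC.jF_ne_zero
  rw [hC.order_jF] at this
  exact this.symm

theorem eq_cuspPlace_of_spec (g : SL(2, ℤ)) (v : Place Lc (FFc L Lc)) {m : ℕ} (hm : 0 < m)
    (h : ∀ f : FFc L Lc, f ≠ 0 → (C.T g⁻¹ f).order = m * v.ord f) : v = cuspPlace hC g :=
  LaurentPlace.eq_embPlace_of_spec _ _ _ v hm h

/-- The places `cuspPlace g` lie over `∞`. -/
theorem cuspPlace_ord_jF_neg (g : SL(2, ℤ)) : (cuspPlace hC g).ord (jFc L Lc) < 0 := by
  obtain ⟨m, hm, -, h⟩ := cuspPlace_spec hC g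
  have hN : (0 : ℤ) < L.w := by exact_mod_cast Nat.pos_of_ne_zero (NeZero.ne L.w)
  have hm' : (0 : ℤ) < m := by exact_mod_cast hm
  by_contra hneg
  have h0 : 0 ≤ (cuspPlace hC g).ord (jFc L Lc) := not_lt.mp hneg
  nlinarith

/-- `cuspPlace` only depends on the coset `g L.Gam`. -/
theorem cuspPlace_mul_right (g δ : SL(2, ℤ)) (hδ : δ ∈ L.Gam) :
    cuspPlace hC (g * δ) = cuspPlace hC g := by
  unfold cuspPlace
  apply LaurentPlace.embPlace_eq_of_order_eq
  intro f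
  rw [mul_inv_rev, hC.mul_left δ⁻¹ (inv_mem hδ)]

/-- `cuspPlace` is invariant under `g ↦ T ^ k * g`. -/
theorem cuspPlace_T_zpow_mul (g : SL(2, ℤ)) (k : ℤ) :
    cuspPlace hC (ModularGroup.T ^ k * g) = cuspPlace hC g := by
  unfold cuspPlace
  apply LaurentPlace.embPlace_eq_of_order_eq
  intro f
  rw [mul_inv_rev, ← zpow_neg, hC.order_mul_T_zpow]

theorem cuspPlace_T_mul (g : SL(2, ℤ)) :
    cuspPlace hC (ModularGroup.T * g) = cuspPlace hC g := by
  have := cuspPlace_T_zpow_mul hC g 1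
  rwa [zpow_one] at this

/-- `cuspPlace` on the coset space `SL(2, ℤ) ⧸ L.Gam`. -/
def cuspPlaceX (x : SL(2, ℤ) ⧸ L.Gam) : Place Lc (FFc L Lc) :=
  Quotient.liftOn' x (cuspPlace hC) (by
    intro a b hab
    rw [QuotientGroup.leftRel_apply] at hab
    have := cuspPlace_mul_right hC a (a⁻¹ * b) hab
    rw [mul_inv_cancel_left] at this
    exact this.symm)

@[simp] theorem cuspPlaceX_mk (g : SL(2, ℤ)) :
    cuspPlaceX hC (QuotientGroup.mk g : SL(2, ℤ) ⧸ L.Gam) = cuspPlace hC g := rfl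

theorem cuspPlaceX_smul_zpowers_T (h : zpowers ModularGroup.T) (x : SL(2, ℤ) ⧸ L.Gam) :
    cuspPlaceX hC (h • x) = cuspPlaceX hC x := by
  obtain ⟨h, k, rfl⟩ := h
  induction x using QuotientGroup.induction_on with
  | H g =>
    show cuspPlaceX hC ((ModularGroup.T ^ k) • (QuotientGroup.mk g : SL(2, ℤ) ⧸ L.Gam)) = _
    rw [MulAction.Quotient.smul_mk, cuspPlaceX_mk, cuspPlaceX_mk, smul_eq_mul,
      cuspPlace_T_zpow_mul]

theorem cuspPlaceX_ord_jF_neg (x : SL(2, ℤ) ⧸ L.Gam) : (cuspPlaceX hC x).ord (jFc L Lc) < 0 := by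
  induction x using QuotientGroup.induction_on with
  | H g => exact cuspPlace_ord_jF_neg hC g

/-- WIDTH: the ramification index `-ord_v j` of `cuspPlaceX x` divides the size of the
`⟨T⟩`-orbit of `x`. -/
theorem cuspPlaceX_neg_ord_jF_dvd (x : SL(2, ℤ) ⧸ L.Gam) :
    -(cuspPlaceX hC x).ord (jFc L Lc) ∣ (Nat.card (orbit (zpowers ModularGroup.T) x) : ℤ) := by
  induction x using QuotientGroup.induction_on with
  | H g =>
    set x : SL(2, ℤ) ⧸ L.Gam := QuotientGroup.mk g with hx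
    set w : ℕ := Nat.card (orbit (zpowers ModularGroup.T) x) with hw
    have hwN : w ∣ L.w := CosetAction.card_orbit_T_dvd L x
    have hN0 : L.w ≠ 0 := NeZero.ne L.w
    have hw0 : 0 < w := Nat.pos_of_ne_zero (fun h => hN0 (by rw [h] at hwN; exact zero_dvd_iff.mp hwN))
    have hper : ModularGroup.T ^ w • x = x := by
      rw [pow_smul_eq_iff_minimalPeriod_dvd, ← OrbitCount.card_orbit_zpowers]
      exact dvd_of_eq hw.symm
    have hmem : g⁻¹ * ModularGroup.T ^ w * g⁻¹⁻¹ ∈ L.Gam := by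
      rw [hx, MulAction.Quotient.smul_mk, smul_eq_mul] at hper
      have := QuotientGroup.eq.mp hper.symm
      rw [inv_inv, mul_assoc]
      exact this
    obtain ⟨m, hm, hspec, hj⟩ := cuspPlace_spec hC g
    have hdiv : ((L.w / w : ℕ) : ℤ) ∣ (m : ℤ) :=
      LaurentPlace.dvd_of_forall_dvd (w := fun f => (C.T g⁻¹ f).order) (cuspPlace hC g) hspec
        (fun f hf => hC.width g⁻¹ w hw0 hwN hmem f hf)
    obtain ⟨t, ht⟩ := hdiv
    have hNw : ((L.w / w : ℕ) : ℤ) * w = L.w := by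
      exact_mod_cast Nat.div_mul_cancel hwN
    have hNw0 : ((L.w / w : ℕ) : ℤ) ≠ 0 := by
      intro h
      rw [h, zero_mul] at hNw
      exact hN0 (by exact_mod_cast hNw.symm)
    rw [cuspPlaceX_mk]
    refine ⟨t, ?_⟩
    have : ((L.w / w : ℕ) : ℤ) * (w : ℤ) =
        ((L.w / w : ℕ) : ℤ) * (-(cuspPlace hC g).ord (jFc L Lc) * t) := by
      rw [hNw]
      have h1 : (m : ℤ) * (cuspPlace hC g).ord (jFc L Lc) = -(L.w : ℤ) := hj
      rw [ht] at h1
      linear_combination h1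
    exact mul_left_cancel₀ hNw0 this

theorem cuspPlaceX_neg_ord_jF_le (x : SL(2, ℤ) ⧸ L.Gam) :
    -(cuspPlaceX hC x).ord (jFc L Lc) ≤ (Nat.card (orbit (zpowers ModularGroup.T) x) : ℤ) := by
  have hpos : (0 : ℤ) < (Nat.card (orbit (zpowers ModularGroup.T) x) : ℤ) := by
    have hwN : Nat.card (orbit (zpowers ModularGroup.T) x) ∣ L.w := CosetAction.card_orbit_T_dvd L x
    have hN0 : L.w ≠ 0 := NeZero.ne L.w
    have : Nat.card (orbit (zpowers ModularGroup.T) x) ≠ 0 := fun h =>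
      hN0 (by rw [h] at hwN; exact zero_dvd_iff.mp hwN)
    exact_mod_cast Nat.pos_of_ne_zero this
  exact Int.le_of_dvd hpos (cuspPlaceX_neg_ord_jF_dvd hC x)

/-- The form used by the counting lemma `Count.card_eq_card_orbits`. -/
theorem cuspPlaceX_toNat_le (x : SL(2, ℤ) ⧸ L.Gam) :
    (-(cuspPlaceX hC x).ord (jFc L Lc)).toNat ≤ Nat.card (orbit (zpowers ModularGroup.T) x) := by
  have := cuspPlaceX_neg_ord_jF_le hC x
  omega

end Places

end Fermat.Agent.DS.G.X0.CuspPlaces
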