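/-
DS / GEO, chapter G-X0 (written by helper95 for helper16): generic twin of `X0/FracR`.

For a level `L : LevelData` and ANY coefficient field `Lc ⊇ ℚ`, the function field
`FFc L Lc = Lc · L.F₀ ⊆ Lc((q))` is generated over `Lc` by the generators `genc L Lc g`
(`g ∈ L.gensQ`) and is the fraction field of `Rsubc L Lc = Lc[generators]`.
Same names as in the original file (pure algebra).
-/
import Fermat.Agent.DS.G.Level

set_option autoImplicit false
set_option linter.unusedSectionVars false

noncomputable section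

namespace Fermat.Agent.DS.G.X0.FracR

open Fermat.Agent.X0 Fermat.Agent.DS.G.Level IntermediateField

variable (L : LevelData) (Lc : Type) [Field Lc] [Algebra ℚ Lc]

/-- `coeffEmb` of the algebra map. -/
theorem coeffEmb_algebraMap (r : ℚ) :
    ModularCurve.coeffEmb Lc (algebraMap ℚ (LaurentSeries ℚ) r) =
      algebraMap Lc (LaurentSeries Lc) (algebraMap ℚ Lc r) := by
  rw [ModularCurve.coeffEmb, ModularCurve.algebraMap_laurentSeries_eq_single,
    ModularCurve.algebraMap_laurentSeries_eq_single, ModularCurve.coeffMap_single]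

/-- Every element of the rational function field `L.F₀ = ℚ(generators)` lands, after extending the
coefficients, in the image of `Lc(generators) ⊆ FFc L Lc`. -/
theorem coeffEmb_mem_map {x : LaurentSeries ℚ} (hx : x ∈ L.F₀) :
    ModularCurve.coeffEmb Lc x ∈
      (IntermediateField.adjoin Lc (genSetc L Lc)).map
        (ModularCurve.laurentBaseChange Lc L.F₀).val := by
  rw [← L.adjoin_eq] at hx
  induction hx using IntermediateField.adjoin_induction with
  | mem y hy =>
      exact ⟨genc L Lc ⟨y, hy⟩,
        IntermediateField.subset_adjoin _ _ (genc_mem_genSetc L Lc ⟨y, hy⟩), rfl⟩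
  | algebraMap r =>
      rw [coeffEmb_algebraMap]
      exact IntermediateField.algebraMap_mem _ _
  | add x y _ _ hx hy => rw [map_add]; exact add_mem hx hy
  | inv x _ hx => rw [map_inv₀]; exact inv_mem hx
  | mul x y _ _ hx hy => rw [map_mul]; exact mul_mem hx hy

/-- `FFc L Lc = Lc(generators)`. -/
theorem FFc_eq_adjoin :
    (⊤ : IntermediateField Lc (FFc L Lc)) = IntermediateField.adjoin Lc (genSetc L Lc) := by
  symm
  rw [eq_top_iff]
  intro y _
  have hle : ModularCurve.laurentBaseChange Lc L.F₀ ≤
      (IntermediateField.adjoin Lc (genSetc L Lc)).map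
        (ModularCurve.laurentBaseChange Lc L.F₀).val := by
    unfold ModularCurve.laurentBaseChange
    rw [IntermediateField.adjoin_le_iff]
    rintro _ ⟨x, hx, rfl⟩
    exact coeffEmb_mem_map L Lc hx
  obtain ⟨a, ha, hay⟩ := hle y.2
  have : a = y := Subtype.ext hay
  rw [← this]
  exact ha

theorem mem_adjoin_genSetc (y : FFc L Lc) :
    y ∈ IntermediateField.adjoin Lc (genSetc L Lc) := by
  rw [← FFc_eq_adjoin]
  exact IntermediateField.mem_top

/-- Every element of `FFc L Lc` is a quotient of two elements of `Rsubc L Lc`. -/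
theorem exists_div (y : FFc L Lc) : ∃ r s : Rsubc L Lc, y = (r : FFc L Lc) / (s : FFc L Lc) := by
  obtain ⟨r, hr, s, hs, h⟩ :=
    IntermediateField.mem_adjoin_iff_div.mp (mem_adjoin_genSetc L Lc y)
  exact ⟨⟨r, hr⟩, ⟨s, hs⟩, h⟩

/-- `FFc L Lc` is the fraction field of `Rsubc L Lc = Lc[generators]`. -/
instance isFractionRing : IsFractionRing (Rsubc L Lc) (FFc L Lc) :=
  IsFractionRing.of_field _ _ fun y => by
    obtain ⟨r, s, h⟩ := exists_div L Lc y
    exact ⟨r, s, h⟩

/-- Variant with a nonzero denominator. -/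
theorem exists_div_ne_zero (y : FFc L Lc) :
    ∃ r s : Rsubc L Lc, s ≠ 0 ∧ y = (r : FFc L Lc) / (s : FFc L Lc) := by
  obtain ⟨r, s, h⟩ := exists_div L Lc y
  by_cases hs : s = 0
  · refine ⟨0, 1, one_ne_zero, ?_⟩
    rw [h, hs]
    simp
  · exact ⟨r, s, hs, h⟩

/-- `Rsubc L Lc` is a domain (as a subalgebra of a field). -/
example : IsDomain (Rsubc L Lc) := inferInstance

end Fermat.Agent.DS.G.X0.FracR
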