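import Fermat.Agent.DS.G.X0.PointPlaces
import Fermat.Agent.X0.PointPlacesD
import Fermat.Agent.X0.FFOrderPlace
import Fermat.Agent.X0.JOrderFinal

/-!
# Generic twin of `X0/PointPlacesD` (DS programme, chapter G-X0/G-DIM, helper26)

`DS/G/X0/PointPlaces` with its hypotheses plugged in, for `D : RealizeDataL L Lc ι`:
* `OrdFunPlace` := `X0.PointPlacesD.ordFunPlace` (generic, imported),
* `JInj` := `JOrderFinal.jInj`,
* `IsRealize ι D.Θ` from the fields of `D`,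
* `IsFractionRing (Rsubc L Lc) (FFc L Lc)` is an instance ARGUMENT (provided by `DS/G/X0/FracR`).
-/

set_option autoImplicit false
set_option linter.unusedSectionVars false

open UpperHalfPlane hiding I
open Complex Filter Function
open scoped Manifold MatrixGroups Topology

namespace Fermat.Agent.DS.G.X0.PointPlacesD

open Fermat.Agent.X0 Fermat.Agent.X0.JOrderMain AlgebraicCurve Fermat.Agent.DS.G.Level
open Fermat.Agent.DS.G.X0.PointPlaces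
open Fermat.Agent.X0.PointPlaces (OrdFunPlace)
open Fermat.Agent.X0.PointPlacesD (ordFunPlace)

noncomputable section

variable {L : LevelData} {Lc : Type} [Field Lc] [Algebra ℚ Lc] {ι : Lc →+* ℂ}
  [IsFractionRing (Rsubc L Lc) (FFc L Lc)]

theorem isRealize (D : RealizeDataL L Lc ι) : IsRealize ι D.Θ where
  inj := D.injective
  map_algebraMap := D.algebraMap_eq
  map_jF := D.j_eq
  hol := D.mem_HolH
  inv := D.invariant

variable (D : RealizeDataL L Lc ι)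

/-- The order function of `(g, z₀)` on `R`. -/
abbrev ptOrdD (g : SL(2, ℤ)) (z₀ : ℍ) (u : Rsubc L Lc) : ℕ∞ := ptOrd D.Θ g z₀ u

theorem ptOrdD_def (g : SL(2, ℤ)) (z₀ : ℍ) (u : Rsubc L Lc) :
    ptOrdD D g z₀ u = ordH (compSL (D.Θ u) g⁻¹) z₀ := rfl

variable (z₀ : ℍ) (c : Lc) (hc : jFun z₀ = ι c)

/-- The place of `F` attached to `g ∈ SL(2, ℤ)` and a point `z₀` with `j(z₀) = ι(c)`. -/
def pointPlaceD (g : SL(2, ℤ)) : Place Lc (FFc L Lc) :=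
  pointPlace (ordFunPlace _ _) (isRealize D) JOrderFinal.jInj z₀ c hc g

/-- Its multiplicity: `ord_{z₀} (Θ u ∘ g⁻¹) = m * ord_v u`. -/
def pointMultD (g : SL(2, ℤ)) : ℕ :=
  pointMult (ordFunPlace _ _) (isRealize D) JOrderFinal.jInj z₀ c hc g

theorem isPointPlace_pointPlaceD (g : SL(2, ℤ)) :
    IsPointPlace D.Θ g z₀ (pointPlaceD D z₀ c hc g) (pointMultD D z₀ c hc g) :=
  isPointPlace_pointPlace _ _ _ z₀ c hc g

theorem pointMultD_pos (g : SL(2, ℤ)) : 0 < pointMultD D z₀ c hc g :=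
  (isPointPlace_pointPlaceD D z₀ c hc g).1

/-- SPEC: `ord_{z₀} (Θ u ∘ g⁻¹) = m * ord_v u` for `u ∈ R`, `u ≠ 0`. -/
theorem pointPlaceD_spec (g : SL(2, ℤ)) (u : Rsubc L Lc) (hu : u ≠ 0) :
    ((ordH (compSL (D.Θ u) g⁻¹) z₀).toNat : ℤ) =
      pointMultD D z₀ c hc g * (pointPlaceD D z₀ c hc g).ord (u : FFc L Lc) :=
  (isPointPlace_pointPlaceD D z₀ c hc g).2 u hu

theorem ordH_ne_top_D (g : SL(2, ℤ)) (u : Rsubc L Lc) (hu : u ≠ 0) :
    ordH (compSL (D.Θ u) g⁻¹) z₀ ≠ ⊤ :=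
  ptOrd_ne_top (isRealize D) g z₀ hu

/-- To show `v = pointPlaceD g` it suffices to show the order relation on `R`. -/
theorem eq_pointPlaceD_of_spec (g : SL(2, ℤ)) (v : Place Lc (FFc L Lc)) (m : ℕ) (hm : 0 < m)
    (h : ∀ u : Rsubc L Lc, u ≠ 0 →
      ((ordH (compSL (D.Θ u) g⁻¹) z₀).toNat : ℤ) = m * v.ord (u : FFc L Lc)) :
    v = pointPlaceD D z₀ c hc g :=
  (pointPlace_eq_of_isPointPlace _ _ _ z₀ c hc (g := g) (v := v) (m := m) ⟨hm, h⟩).symm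

theorem pointMultD_mul_ord (g : SL(2, ℤ)) :
    (pointMultD D z₀ c hc g : ℤ) *
      (pointPlaceD D z₀ c hc g).ord (jFc L Lc - algebraMap Lc (FFc L Lc) c) = ellOrder z₀ :=
  (isPointPlace_pointPlaceD D z₀ c hc g).ord_jSub (isRealize D) JOrderFinal.jInj c hc

theorem pointPlaceD_ord_pos (g : SL(2, ℤ)) :
    0 < (pointPlaceD D z₀ c hc g).ord (jFc L Lc - algebraMap Lc (FFc L Lc) c) :=
  ord_pointPlace_pos _ _ _ z₀ c hc g

theorem pointPlaceD_ord_le (g : SL(2, ℤ)) :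
    (pointPlaceD D z₀ c hc g).ord (jFc L Lc - algebraMap Lc (FFc L Lc) c) ≤ ellOrder z₀ :=
  ord_pointPlace_le _ _ _ z₀ c hc g

theorem pointPlaceD_mul_Gamma0 (g γ : SL(2, ℤ)) (hγ : γ ∈ L.Gam) :
    pointPlaceD D z₀ c hc (g * γ) = pointPlaceD D z₀ c hc g :=
  pointPlace_mul_Gamma0 _ _ _ z₀ c hc g γ hγ

theorem pointPlaceD_mul_of_fixed (σ g : SL(2, ℤ)) (hσ : σ • z₀ = z₀) :
    pointPlaceD D z₀ c hc (σ * g) = pointPlaceD D z₀ c hc g :=
  pointPlace_mul_of_fixed _ _ _ z₀ c hc σ g hσ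

/-- The map `SL(2, ℤ) ⧸ Γ₀(N) → {places over c}`. -/
def pointPlaceDX (x : SL(2, ℤ) ⧸ L.Gam) : PlacesOver L Lc c :=
  pointPlaceX (ordFunPlace _ _) (isRealize D) JOrderFinal.jInj z₀ c hc x

@[simp] theorem pointPlaceDX_mk (g : SL(2, ℤ)) :
    (pointPlaceDX D z₀ c hc (QuotientGroup.mk g)).1 = pointPlaceD D z₀ c hc g := rfl

/-- `hinv` of `Count.card_eq_card_orbits` for the stabiliser of `z₀`. -/
theorem pointPlaceDX_smul_of_fixed (σ : SL(2, ℤ)) (hσ : σ • z₀ = z₀)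
    (x : SL(2, ℤ) ⧸ L.Gam) :
    pointPlaceDX D z₀ c hc (σ • x) = pointPlaceDX D z₀ c hc x :=
  pointPlaceX_smul_of_fixed _ _ _ z₀ c hc σ hσ x

theorem pointPlaceDX_ord_le (x : SL(2, ℤ) ⧸ L.Gam) :
    (pointPlaceDX D z₀ c hc x).1.ord (jFc L Lc - algebraMap Lc (FFc L Lc) c) ≤ ellOrder z₀ :=
  ord_pointPlaceX_le _ _ _ z₀ c hc x

theorem pointPlaceDX_ord_of_ellOrder_eq_one (h1 : ellOrder z₀ = 1)
    (x : SL(2, ℤ) ⧸ L.Gam) :
    (pointPlaceDX D z₀ c hc x).1.ord (jFc L Lc - algebraMap Lc (FFc L Lc) c) = 1 :=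
  ord_pointPlaceX_of_ellOrder_eq_one _ _ _ c z₀ hc h1 x

omit z₀ hc in
theorem pointPlaceDX_ord_of_fixed_S (hh : SL(2, ℤ)) (hc : jFun (hh • ptI) = ι c)
    (x : SL(2, ℤ) ⧸ L.Gam)
    (hx : (hh * ModularGroup.S * hh⁻¹) • x = x) :
    (pointPlaceDX D (hh • ptI) c hc x).1.ord (jFc L Lc - algebraMap Lc (FFc L Lc) c) = 1 :=
  ord_pointPlaceX_of_fixed_S _ _ _ c hh hc x hx

omit z₀ hc in
theorem pointPlaceDX_ord_of_fixed_ST (hh : SL(2, ℤ)) (hc : jFun (hh • ptRho) = ι c)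
    (x : SL(2, ℤ) ⧸ L.Gam)
    (hx : (hh * (ModularGroup.S * ModularGroup.T) * hh⁻¹) • x = x) :
    (pointPlaceDX D (hh • ptRho) c hc x).1.ord (jFc L Lc - algebraMap Lc (FFc L Lc) c) = 1 :=
  ord_pointPlaceX_of_fixed_ST _ _ _ c hh hc x hx

end

end Fermat.Agent.DS.G.X0.PointPlacesD
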