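/-
DS/G (generic twins), chapter G-X0, helper77 (for helper16).  Twin of `X0/CuspExpand`
(helper19's C-F2d (2)+(3)): cusp expansions at an abstract level.

For `L : LevelData`, a coefficient field `Lc` with an injective `ι : Lc →+* ℂ`, a realisation
`D : RealizeDataL L Lc ι` and `γ ∈ SL(2, ℤ)`: if every GENERATOR `Θ g ∘ γ` has a `q_w`-expansion
with coefficients in `ι Lc` (hypothesis `hgen`, supplied by `AnalyticGens.cusp`), then so has every
`Θ u ∘ γ`, `u ∈ R = Lc[generators]`; the resulting map `R → Lc((q_w))` is an injective ring hom and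
extends to the fraction field `F = FFc L Lc` (instance argument `IsFractionRing R F`, supplied by
`DS/G/X0/FracR`).  Final products: `cuspDataOf : CuspDataL L Lc ι D` and `distinct_of`
(`CuspDataL.Distinct` from the distinctness of the generators, `AnalyticGens.distinct`).

Same names as in the original file.
-/
import Mathlib
import Fermat.Agent.DS.G.Level
import Fermat.Agent.X0.QExpRing
import Fermat.Agent.X0.HolOrder

set_option autoImplicit false

noncomputable section

namespace Fermat.Agent.DS.G.X0.CuspExpand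

open Fermat.Agent.X0 Fermat.Agent.DS.G.Level
open UpperHalfPlane
open scoped MatrixGroups

variable {L : LevelData} {Lc : Type} [Field Lc] [Algebra ℚ Lc] {ι : Lc →+* ℂ}

/-- The hypothesis on the generators: every `Θ g ∘ γ` has a `q_w`-expansion over `ι Lc`. -/
def GenCusp (D : RealizeDataL L Lc ι) : Prop :=
  ∀ (g : L.gensQ) (γ : SL(2, ℤ)), ∃ (m : ℕ) (P : PowerSeries Lc),
    IsQExp L.w (compSL (D.Θ (genR L Lc g)) γ) m (P.map ι)

variable (D : RealizeDataL L Lc ι) (hgen : GenCusp D) (γ : SL(2, ℤ))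

include hgen in
/-- (2) Every `Θ u ∘ γ` has a `q_w`-expansion with coefficients in `Lc`. -/
theorem exists_cuspExp (u : Rsubc L Lc) :
    ∃ (m : ℕ) (P : PowerSeries Lc), IsQExp L.w (compSL (D.Θ u) γ) m (P.map ι) := by
  induction u using Rsubc_induction with
  | hgen g => exact hgen g γ
  | hconst c =>
      refine ⟨0, PowerSeries.C c, ?_⟩
      rw [D.algebraMap_eq c, compSL_const, PowerSeries.map_C]
      exact isQExp_const L.w (ι c)
  | hadd u v hu hv =>
      obtain ⟨m, P, hP⟩ := hu
      obtain ⟨m', Q, hQ⟩ := hv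
      refine ⟨m + m', PowerSeries.X ^ m' * P + PowerSeries.X ^ m * Q, ?_⟩
      rw [map_add, compSL_add_fun]
      have := hP.add hQ
      simpa only [map_add, map_mul, map_pow, PowerSeries.map_X] using this
  | hmul u v hu hv =>
      obtain ⟨m, P, hP⟩ := hu
      obtain ⟨m', Q, hQ⟩ := hv
      refine ⟨m + m', P * Q, ?_⟩
      rw [map_mul, compSL_mul_fun]
      have := hP.mul hQ
      simpa only [map_mul] using this

/-- The pole order bound chosen for `u`. -/
def expM (u : Rsubc L Lc) : ℕ := (exists_cuspExp D hgen γ u).choose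

/-- The power series chosen for `u`. -/
def expP (u : Rsubc L Lc) : PowerSeries Lc := (exists_cuspExp D hgen γ u).choose_spec.choose

theorem isQExp_exp (u : Rsubc L Lc) :
    IsQExp L.w (compSL (D.Θ u) γ) (expM D hgen γ u) ((expP D hgen γ u).map ι) :=
  (exists_cuspExp D hgen γ u).choose_spec.choose_spec

/-- The `q_w`-expansion of `Θ u ∘ γ` as a Laurent series over `Lc`. -/
def cuspR (u : Rsubc L Lc) : LaurentSeries Lc := laurentOf (expM D hgen γ u) (expP D hgen γ u)

omit [Algebra ℚ Lc] in
theorem coeffMap_injective (hι : Function.Injective ι) :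
    Function.Injective (ModularCurve.coeffMap ι : LaurentSeries Lc → LaurentSeries ℂ) := by
  intro x y h
  ext k
  have h1 := congrArg (fun s : LaurentSeries ℂ => s.coeff k) h
  exact hι h1

variable (hι : Function.Injective ι)

include hι in
/-- Characterisation of `cuspR`: any expansion datum with `Lc` coefficients computes it. -/
theorem cuspR_eq (u : Rsubc L Lc) {m : ℕ} {P : PowerSeries Lc}
    (h : IsQExp L.w (compSL (D.Θ u) γ) m (P.map ι)) : cuspR D hgen γ u = laurentOf m P := by
  apply coeffMap_injective hι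
  rw [cuspR, coeffMap_laurentOf, coeffMap_laurentOf]
  exact (isQExp_exp D hgen γ u).unique h

theorem cuspR_spec (u : Rsubc L Lc) :
    ∃ (m : ℕ) (P : PowerSeries Lc),
      IsQExp L.w (compSL (D.Θ u) γ) m (P.map ι) ∧ cuspR D hgen γ u = laurentOf m P :=
  ⟨_, _, isQExp_exp D hgen γ u, rfl⟩

include hι in
theorem cuspR_add (u v : Rsubc L Lc) :
    cuspR D hgen γ (u + v) = cuspR D hgen γ u + cuspR D hgen γ v := by
  have hP := isQExp_exp D hgen γ u
  have hQ := isQExp_exp D hgen γ v
  have h := hP.add hQ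
  rw [← compSL_add_fun, ← map_add] at h
  have h' : IsQExp L.w (compSL (D.Θ (u + v)) γ) (expM D hgen γ u + expM D hgen γ v)
      ((PowerSeries.X ^ expM D hgen γ v * expP D hgen γ u
        + PowerSeries.X ^ expM D hgen γ u * expP D hgen γ v).map ι) := by
    simpa only [map_add, map_mul, map_pow, PowerSeries.map_X] using h
  rw [cuspR_eq D hgen γ hι (u + v) h', cuspR, cuspR]
  rw [laurentOf_add, laurentOf_shift]
  conv_lhs => rw [add_comm (expM D hgen γ u) (expM D hgen γ v), laurentOf_shift]

include hι in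
theorem cuspR_mul (u v : Rsubc L Lc) :
    cuspR D hgen γ (u * v) = cuspR D hgen γ u * cuspR D hgen γ v := by
  have hP := isQExp_exp D hgen γ u
  have hQ := isQExp_exp D hgen γ v
  have h := hP.mul hQ
  rw [← compSL_mul_fun, ← map_mul] at h
  have h' : IsQExp L.w (compSL (D.Θ (u * v)) γ) (expM D hgen γ u + expM D hgen γ v)
      ((expP D hgen γ u * expP D hgen γ v).map ι) := by
    simpa only [map_mul] using h
  rw [cuspR_eq D hgen γ hι (u * v) h', cuspR, cuspR, laurentOf_mul]

include hι in
theorem cuspR_algebraMap (c : Lc) :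
    cuspR D hgen γ (algebraMap Lc (Rsubc L Lc) c) = HahnSeries.C c := by
  have h : IsQExp L.w (compSL (D.Θ (algebraMap Lc (Rsubc L Lc) c)) γ) 0
      ((PowerSeries.C c).map ι) := by
    rw [D.algebraMap_eq c, compSL_const, PowerSeries.map_C]
    exact isQExp_const L.w (ι c)
  rw [cuspR_eq D hgen γ hι _ h, laurentOf_zero_left, HahnSeries.ofPowerSeries_C]

include hι in
theorem cuspR_one : cuspR D hgen γ 1 = 1 := by
  have := cuspR_algebraMap D hgen γ hι 1
  rwa [map_one, map_one] at this

include hι in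
theorem cuspR_zero : cuspR D hgen γ 0 = 0 := by
  have := cuspR_algebraMap D hgen γ hι 0
  rwa [map_zero, map_zero] at this

/-- The expansion map on `R` as a ring hom. -/
def cuspRHom : Rsubc L Lc →+* LaurentSeries Lc where
  toFun := cuspR D hgen γ
  map_one' := cuspR_one D hgen γ hι
  map_mul' := cuspR_mul D hgen γ hι
  map_zero' := cuspR_zero D hgen γ hι
  map_add' := cuspR_add D hgen γ hι

@[simp] theorem cuspRHom_apply (u : Rsubc L Lc) :
    cuspRHom D hgen γ hι u = cuspR D hgen γ u := rfl

omit [Algebra ℚ Lc] in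
theorem compSL_eq_zero {f : ℍ → ℂ} (h : compSL f γ = 0) : f = 0 := by
  funext z
  have := congrFun h (γ⁻¹ • z)
  simpa [compSL] using this

theorem cuspRHom_injective : Function.Injective (cuspRHom D hgen γ hι) := by
  rw [injective_iff_map_eq_zero]
  intro u hu
  have hP := isQExp_exp D hgen γ u
  have h0 : (expP D hgen γ u).map ι = 0 := by
    have h1 : laurentOf (expM D hgen γ u) (expP D hgen γ u) = 0 := hu
    rw [laurentOf_eq_zero_iff] at h1
    rw [h1, map_zero]
  have h2 : compSL (D.Θ u) γ = 0 := hP.eq_zero_iff.mpr h0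
  have h3 : D.Θ u = 0 := compSL_eq_zero γ h2
  exact D.injective (by rw [h3, map_zero])

section Frac

variable [IsFractionRing (Rsubc L Lc) (FFc L Lc)]

/-- (3) The cusp expansion `T_γ : F → Lc((q_w))`. -/
def cuspEmb : FFc L Lc →+* LaurentSeries Lc :=
  IsFractionRing.lift (A := Rsubc L Lc) (K := FFc L Lc) (g := cuspRHom D hgen γ hι)
    (cuspRHom_injective D hgen γ hι)

theorem cuspEmb_coe (u : Rsubc L Lc) :
    cuspEmb D hgen γ hι (u : FFc L Lc) = cuspR D hgen γ u := by
  have := IsFractionRing.lift_algebraMap (A := Rsubc L Lc) (K := FFc L Lc)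
    (cuspRHom_injective D hgen γ hι) u
  exact this

theorem cuspEmb_spec (u : Rsubc L Lc) :
    ∃ (m : ℕ) (P : PowerSeries Lc),
      IsQExp L.w (compSL (D.Θ u) γ) m (P.map ι) ∧
        cuspEmb D hgen γ hι (u : FFc L Lc) = laurentOf m P := by
  obtain ⟨m, P, h1, h2⟩ := cuspR_spec D hgen γ u
  exact ⟨m, P, h1, by rw [cuspEmb_coe, h2]⟩

theorem cuspEmb_algebraMap (c : Lc) :
    cuspEmb D hgen γ hι (algebraMap Lc (FFc L Lc) c) = HahnSeries.C c := by
  have : algebraMap Lc (FFc L Lc) c = ((algebraMap Lc (Rsubc L Lc) c : Rsubc L Lc) : FFc L Lc) :=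
    rfl
  rw [this, cuspEmb_coe, cuspR_algebraMap D hgen γ hι]

/-- The cusp data attached to a realisation. -/
def cuspDataOf : CuspDataL L Lc ι D where
  T := fun γ => cuspEmb D hgen γ hι
  spec := fun γ u => cuspEmb_spec D hgen γ hι u

@[simp] theorem cuspDataOf_T (γ : SL(2, ℤ)) :
    (cuspDataOf D hgen hι).T γ = cuspEmb D hgen γ hι := rfl

end Frac

/-- If two cusp expansion maps of a `CuspDataL` agree on `u ∈ R`, the functions `Θ u ∘ γ`,
`Θ u ∘ γ'` agree. -/
theorem compSL_eq_of_T_eq (C : CuspDataL L Lc ι D) {γ γ' : SL(2, ℤ)} (u : Rsubc L Lc)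
    (h : C.T γ (u : FFc L Lc) = C.T γ' (u : FFc L Lc)) :
    compSL (D.Θ u) γ = compSL (D.Θ u) γ' := by
  obtain ⟨m, P, hP, hT⟩ := C.spec γ u
  obtain ⟨m', P', hP', hT'⟩ := C.spec γ' u
  have hl : laurentOf m (P.map ι) = laurentOf m' (P'.map ι) := by
    rw [← coeffMap_laurentOf, ← coeffMap_laurentOf, ← hT, ← hT', h]
  -- the difference has the zero expansion
  have hsub : IsQExp L.w (compSL (D.Θ u) γ - compSL (D.Θ u) γ') (m + m')
      (PowerSeries.X ^ m' * P.map ι + PowerSeries.X ^ m * (-(P'.map ι))) := hP.add hP'.neg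
  have hz : PowerSeries.X ^ m' * P.map ι + PowerSeries.X ^ m * (-(P'.map ι)) = 0 := by
    have h1 : laurentOf (m + m') (PowerSeries.X ^ m' * P.map ι + PowerSeries.X ^ m * (-(P'.map ι)))
        = 0 := by
      rw [laurentOf_add, laurentOf_shift]
      conv_lhs => rw [add_comm m m', laurentOf_shift]
      rw [hl, ← laurentOf_add, add_neg_cancel]
      exact (laurentOf_eq_zero_iff _ _).mpr rfl
    exact (laurentOf_eq_zero_iff _ _).mp h1
  have h0 := hsub.eq_zero_iff.mpr hz
  exact sub_eq_zero.mp h0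

/-- **HYP3 / DISTINCT** from the distinctness of the generators. -/
theorem distinct_of (C : CuspDataL L Lc ι D)
    (hdist : ∀ γ γ' : SL(2, ℤ),
      (∀ g : L.gensQ, compSL (D.Θ (genR L Lc g)) γ = compSL (D.Θ (genR L Lc g)) γ') →
        γ' * γ⁻¹ ∈ L.Gam) : C.Distinct := by
  intro γ γ' h
  refine hdist γ γ' fun g => compSL_eq_of_T_eq D C (genR L Lc g) ?_
  rw [h]

end Fermat.Agent.DS.G.X0.CuspExpand
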