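/-
Programme DS (S48), chapter G-X0 / G-DIM (helper46): generic twin of `X0/HasCanDiv` (section
Concrete) for `(L : LevelData)`, a coefficient field `Lc` (algebraically closed, char. 0) with an
injective `ι : Lc →+* ℂ`, and `D : RealizeDataL L Lc ι`.

The degree fact `hx : IsGen Lc (jFc L Lc)` (twin of `Degree.isGen_jF`) and the surjectivity of the
point places `hsurjP` (twin of `PointSurjT.exists_pointPlaceD_eq`) are HYPOTHESES.

* `unramified_of_surj`     : `j` is unramified over every `c ∉ {0, 1728}`;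
* `hasCanonicalDivisor_FF` : the real `HasCanonicalDivisor` for `FFc L Lc`;
* `diffHyp_FF`             : `RR.Duality.DiffHyp Lc (FFc L Lc)`;
* `genusHyp_FF`            : `GenusHyp Lc (jFc L Lc)`.
-/
import Mathlib
import Fermat.Agent.X0.HasCanDiv
import Fermat.Agent.DS.G.X0.PointPlacesD

set_option autoImplicit false
set_option linter.unusedSectionVars false

namespace Fermat.Agent.DS.G.X0.HasCanDiv

open AlgebraicCurve IntermediateField UpperHalfPlane MatrixGroups KaehlerDifferential
open Fermat.Agent.X0 Fermat.Agent.X0.FF Fermat.Agent.DS.G.Level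
open Fermat.Agent.DS.G.X0.PointPlaces Fermat.Agent.DS.G.X0.PointPlacesD

variable {L : LevelData} {Lc : Type} [Field Lc] [Algebra ℚ Lc] {ι : Lc →+* ℂ}
  [IsFractionRing (Rsubc L Lc) (FFc L Lc)]

/-- The surjectivity hypothesis on point places (twin of `PointSurjT.exists_pointPlaceD_eq`). -/
def SurjP (D : RealizeDataL L Lc ι) : Prop :=
  ∀ (z₀ : ℍ) (c : Lc) (hc : jFun z₀ = ι c) (v : Place Lc (FFc L Lc)),
    0 < v.ord (jFc L Lc - algebraMap Lc (FFc L Lc) c) →
    ∃ g : SL(2, ℤ), pointPlaceD D z₀ c hc g = v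

/-- Over a value `c ∉ {0, 1728}` the function `j` is unramified, if every place over `c` is a
point place. -/
theorem unramified_of_surj (hι : Function.Injective ι) (D : RealizeDataL L Lc ι)
    (hsurjP : SurjP D) :
    ∀ c : Lc, c ≠ 0 ∧ c ≠ 1728 → ∀ v : Place Lc (FFc L Lc),
      0 < v.ord (jFc L Lc - algebraMap Lc (FFc L Lc) c) →
      v.ord (jFc L Lc - algebraMap Lc (FFc L Lc) c) = 1 := by
  intro c hc v hv
  obtain ⟨z₀, hz₀⟩ := jFun_surjective (ι c)
  have hne0 : jFun z₀ ≠ 0 := by
    rw [hz₀]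
    intro h
    exact hc.1 (hι (by rw [h, map_zero]))
  have hne1 : jFun z₀ ≠ 1728 := by
    rw [hz₀]
    intro h
    exact hc.2 (hι (by rw [h, map_ofNat]))
  obtain ⟨g, rfl⟩ := hsurjP z₀ c hz₀ v hv
  have := pointPlaceDX_ord_of_ellOrder_eq_one D z₀ c hz₀
    (JOrderFinal.ellOrder_eq_one_of_jFun_ne hne0 hne1) (QuotientGroup.mk g)
  rwa [pointPlaceDX_mk] at this

variable [IsAlgClosed Lc] [CharZero Lc]

/-- The real `HasCanonicalDivisor` for `FFc L Lc` over `Lc`. -/
theorem hasCanonicalDivisor_FF (hι : Function.Injective ι) (D : RealizeDataL L Lc ι)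
    (hx : IsGen Lc (jFc L Lc)) (hsurjP : SurjP D) :
    HasCanonicalDivisor (K := Lc) (F := FFc L Lc) := by
  classical
  refine FFCanon.hasCanonicalDivisor hx ({0, 1728} : Finset Lc) (fun c hc => ?_)
  simp only [Finset.mem_insert, Finset.mem_singleton, not_or] at hc
  exact unramified_of_surj hι D hsurjP c hc

/-- `DiffHyp` for `FFc L Lc` over `Lc`. -/
theorem diffHyp_FF (hι : Function.Injective ι) (D : RealizeDataL L Lc ι)
    (hx : IsGen Lc (jFc L Lc)) (hsurjP : SurjP D) :
    Fermat.Agent.RR.Duality.DiffHyp Lc (FFc L Lc) := by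
  classical
  refine Fermat.Agent.X0.HasCanDiv.diffHyp hx ({0, 1728} : Finset Lc) (fun c hc => ?_)
  simp only [Finset.mem_insert, Finset.mem_singleton, not_or] at hc
  exact unramified_of_surj hι D hsurjP c hc

/-- The genus hypothesis bundle for `FFc L Lc`. -/
theorem genusHyp_FF (hx : IsGen Lc (jFc L Lc)) : GenusHyp Lc (jFc L Lc) :=
  FFGenus.genusHyp hx

end Fermat.Agent.DS.G.X0.HasCanDiv
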