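/-
Programme DS (S48), chapter G-X0 (helper16): generic twin of the "Concrete" section of
`X0/Integrality.lean` (the abstract core `intg_core`, `IntgQN`, ... is reused verbatim).

For an arbitrary level `L : LevelData` and an arbitrary interface pair
`(D : RealizeDataK L) (C : CuspDataK L D)`: the coefficients of `∏_x (X - C.T (rep x)⁻¹ u)`,
`x ∈ SL(2,ℤ)/L.Gam`, `u ∈ R = ℚbar[generators]`, are polynomials in `j(q_w^w)` with coefficients in
`ℚbar`.
-/
import Mathlib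
import Fermat.Agent.DS.G.Level
import Fermat.Agent.X0.Integrality

set_option autoImplicit false
set_option linter.unusedSectionVars false

open ModularCurve UpperHalfPlane ModularForm
open scoped Topology Manifold MatrixGroups

noncomputable section

namespace Fermat.Agent.DS.G.X0.Integrality

open Fermat.Agent.X0 Fermat.Agent.X0.Analytic Fermat.Agent.X0.JQExp Polynomial
open Fermat.Agent.DS.G.Level

variable (L : LevelData) (D : RealizeDataK L) (C : CuspDataK L D)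

/-- `C.T γ u` is the `q_w`-expansion of `Θ u ∘ γ`. -/
theorem intg_T_spec (γ : SL(2, ℤ)) (u : RsubL L) :
    IntgQN L.w (compSL (D.Θ u) γ) (toC (C.T γ (u : FFL L))) := by
  obtain ⟨m, P, hP, hT⟩ := C.spec γ u
  rw [hT, toC, lor_coeffMap_laurentOf]
  exact intg_qn_of_isQExp L.w hP

/-- `C.T γ u` is determined by the `q_w`-expansion of `Θ u ∘ γ`. -/
theorem intg_T_eq_of_qn (γ : SL(2, ℤ)) (u : RsubL L) (E : LaurentSeries Kbar)
    (h : IntgQN L.w (compSL (D.Θ u) γ) (toC E)) : C.T γ (u : FFL L) = E :=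
  toC_injective (intg_qn_unique L.w (intg_T_spec L D C γ u) h)

theorem intg_T_algebraMap (γ : SL(2, ℤ)) (c : Kbar) :
    C.T γ (algebraMap Kbar (FFL L) c) = algebraMap Kbar (LaurentSeries Kbar) c := by
  have h1 : ((algebraMap Kbar (RsubL L) c : RsubL L) : FFL L) = algebraMap Kbar (FFL L) c := rfl
  rw [← h1]
  apply intg_T_eq_of_qn
  rw [D.algebraMap_eq, toC_algebraMap]
  exact intg_qn_const L.w (iotaK c)

theorem intg_compSL_jFun (γ : SL(2, ℤ)) : compSL jFun γ = jFun := by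
  funext z
  show jFun (γ • z) = jFun z
  rw [jFun_smul]

theorem intg_T_jF (γ : SL(2, ℤ)) : C.T γ (jFL L) = qExpand Kbar L.w jqK := by
  have h1 : ((jR L Kbar : RsubL L) : FFL L) = jFL L := rfl
  rw [← h1]
  apply intg_T_eq_of_qn
  rw [D.j_eq, intg_compSL_jFun, intg_toC_jN]
  exact intg_qn_jFun L.w

/-- `C.T γ` on polynomials in `j` over `ℚbar`. -/
theorem intg_T_aeval_jF (γ : SL(2, ℤ)) (p : Kbar[X]) :
    C.T γ (aeval (jFL L) p) = aeval (qExpand Kbar L.w jqK) p := by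
  rw [aeval_def, aeval_def, Polynomial.hom_eval₂, intg_T_jF]
  congr 1
  refine RingHom.ext fun c => ?_
  exact intg_T_algebraMap L D C γ c

/-- The permutation of the cosets induced by `δ ∈ SL(2,ℤ)`. -/
theorem intg_perm (rep : SL(2, ℤ) ⧸ L.Gam → SL(2, ℤ))
    (hrep : ∀ x, (rep x : SL(2, ℤ) ⧸ L.Gam) = x) (u : RsubL L)
    (δ : SL(2, ℤ)) :
    ∃ σ : Equiv.Perm (SL(2, ℤ) ⧸ L.Gam), ∀ x z,
      compSL (D.Θ u) (rep x)⁻¹ (δ • z) = compSL (D.Θ u) (rep (σ x))⁻¹ z := by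
  refine ⟨MulAction.toPerm δ⁻¹, fun x z => ?_⟩
  set a := rep x with ha
  set b := rep ((MulAction.toPerm δ⁻¹ : Equiv.Perm _) x) with hb
  have hcoset : ((b : SL(2, ℤ)) : SL(2, ℤ) ⧸ L.Gam)
      = ((δ⁻¹ * a : SL(2, ℤ)) : SL(2, ℤ) ⧸ L.Gam) := by
    rw [hb, hrep, MulAction.toPerm_apply]
    conv_lhs => rw [← hrep x]
    rfl
  have hmem : b⁻¹ * (δ⁻¹ * a) ∈ L.Gam := QuotientGroup.eq.mp hcoset
  have hmem' : (b⁻¹ * (δ⁻¹ * a))⁻¹ ∈ L.Gam := inv_mem hmem
  have hinv := D.invariant u _ hmem'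
  show D.Θ u (a⁻¹ • δ • z) = D.Θ u (b⁻¹ • z)
  have h1 : a⁻¹ • δ • z = (b⁻¹ * (δ⁻¹ * a))⁻¹ • (b⁻¹ • z) := by
    rw [← mul_smul, ← mul_smul]
    congr 1
    group
  rw [h1]
  exact congrFun hinv (b⁻¹ • z)

/-- **INTEGRALITY**. For `u ∈ R = ℚbar[generators]` the coefficients of
`∏_x (X - T_{(rep x)⁻¹} u)`, `x ∈ SL(2,ℤ)/L.Gam`, are of the form `T_1 (p(j))`, `p ∈ ℚbar[X]`;
analytically `p(j(z))` is the corresponding coefficient of `∏_x (X - (Θ u)((rep x)⁻¹ z))`. -/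
theorem integrality [Fintype (SL(2, ℤ) ⧸ L.Gam)]
    (rep : SL(2, ℤ) ⧸ L.Gam → SL(2, ℤ))
    (hrep : ∀ x, (rep x : SL(2, ℤ) ⧸ L.Gam) = x) (u : RsubL L) (k : ℕ) :
    ∃ p : Kbar[X],
      (∏ x, (X - Polynomial.C (C.T (rep x)⁻¹ (u : FFL L)))).coeff k = C.T 1 (aeval (jFL L) p) ∧
      ∀ z, (p.map iotaK).eval (jFun z)
        = (∏ x, (X - Polynomial.C (compSL (D.Θ u) (rep x)⁻¹ z))).coeff k := by
  obtain ⟨p, hp1, hp2⟩ := intg_core L.w (fun x => compSL (D.Θ u) (rep x)⁻¹)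
    (fun x => C.T (rep x)⁻¹ (u : FFL L)) (fun x => compSL_mem_HolH (D.mem_HolH u) _)
    (fun x => intg_T_spec L D C _ u) (intg_perm L D rep hrep u) k
  exact ⟨p, by rw [hp1, intg_T_aeval_jF], hp2⟩

/-- **Analytic norm formula.** If the product of the `T_{(rep x)⁻¹} u` is `T_1 (p(j))` then
`p(j(z))` is the product of the conjugates `(Θ u)((rep x)⁻¹ z)`. -/
theorem integrality_prod_of_eq [Fintype (SL(2, ℤ) ⧸ L.Gam)]
    (rep : SL(2, ℤ) ⧸ L.Gam → SL(2, ℤ)) (u : RsubL L) (p : Kbar[X])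
    (hp : ∏ x, C.T (rep x)⁻¹ (u : FFL L) = C.T 1 (aeval (jFL L) p)) (z : ℍ) :
    (p.map iotaK).eval (jFun z) = ∏ x, compSL (D.Θ u) (rep x)⁻¹ z := by
  classical
  let a : SL(2, ℤ) ⧸ L.Gam → intgPairs L.w := fun x =>
    ⟨(compSL (D.Θ u) (rep x)⁻¹, C.T (rep x)⁻¹ (u : FFL L)),
      compSL_mem_HolH (D.mem_HolH u) _, intg_T_spec L D C _ u⟩
  have hprod : ((∏ x, a x : intgPairs L.w) : (ℍ → ℂ) × LaurentSeries Kbar)
      = (∏ x, compSL (D.Θ u) (rep x)⁻¹, ∏ x, C.T (rep x)⁻¹ (u : FFL L)) := by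
    show (intgPairs L.w).subtype (∏ x, a x) = _
    rw [map_prod]
    ext1
    · rw [Prod.fst_prod]
      rfl
    · rw [Prod.snd_prod]
      rfl
  have h1 : IntgQN L.w (∏ x, compSL (D.Θ u) (rep x)⁻¹)
      (toC (∏ x, C.T (rep x)⁻¹ (u : FFL L))) := by
    have := (∏ x, a x : intgPairs L.w).2.2
    rw [hprod] at this
    exact this
  have h2 : toC (∏ x, C.T (rep x)⁻¹ (u : FFL L))
      = aeval (qExpand ℂ L.w (jqModC ℂ)) (p.map iotaK) := by
    rw [hp, intg_T_aeval_jF, toC, lor_coeffMap_aeval]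
    have := intg_toC_jN L.w
    rw [toC] at this
    rw [this]
  rw [h2] at h1
  have h3 := intg_qn_unique_right L.w (intg_qn_eval_jFun L.w (p.map iotaK)) h1
  have := congrFun h3 z
  rw [Finset.prod_apply] at this
  exact this

/-- The shape consumed by the abstract degree lemma (ABS-DEG, HYP2). -/
theorem integrality_mem_range [Fintype (SL(2, ℤ) ⧸ L.Gam)]
    (rep : SL(2, ℤ) ⧸ L.Gam → SL(2, ℤ))
    (hrep : ∀ x, (rep x : SL(2, ℤ) ⧸ L.Gam) = x) (u : RsubL L) (k : ℕ) :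
    (∏ x, (X - Polynomial.C (C.T (rep x)⁻¹ (u : FFL L)))).coeff k
      ∈ Set.range (C.T 1 ∘ algebraMap (KjL L) (FFL L)) := by
  obtain ⟨p, hp, -⟩ := integrality L D C rep hrep u k
  have hmem : aeval (jFL L) p ∈ KjL L := by
    show aeval (jFL L) p ∈ IntermediateField.adjoin Kbar {jFL L}
    rw [← IntermediateField.mem_toSubalgebra]
    have hj : jFL L ∈ (IntermediateField.adjoin Kbar {jFL L}).toSubalgebra :=
      IntermediateField.subset_adjoin Kbar {jFL L} (Set.mem_singleton _)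
    have hle : Algebra.adjoin Kbar {jFL L} ≤ (IntermediateField.adjoin Kbar {jFL L}).toSubalgebra :=
      Algebra.adjoin_le (Set.singleton_subset_iff.mpr hj)
    exact hle (Polynomial.aeval_mem_adjoin_singleton Kbar (jFL L))
  exact ⟨⟨_, hmem⟩, hp.symm⟩

end Fermat.Agent.DS.G.X0.Integrality
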