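/-
Programme DS (S48), chapter G-X0 (helper16): generic twin of `X0/Degree.lean`.

The degree `[F : ℚbar(j)] = [SL(2,ℤ) : L.Gam]`, the classification of the embeddings, and the norm
formulas, for an ARBITRARY level `L : LevelData` and an ARBITRARY interface pair
`(D : RealizeDataK L) (C : CuspDataK L D)` with `C.Distinct` (HYP3).

This instantiates the abstract lemma `AbsDegree.main` with `X = SL(2,ℤ) ⧸ L.Gam`,
`T x = C.T (rep x)⁻¹`, using
* `DS/G/X0/Integrality.lean` for HYP2,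
* the hypothesis `hC : C.Distinct` for HYP3,
* `transcendental_jF` (below) for `FF.IsGen`.
The only statement of the original file which is not twinned is `finrank_Kj` (`= ψ(N)`, which is
specific to `Γ₀(N)`): use `card_eq_finrank`.
-/
import Mathlib
import Fermat.Agent.X0.AbsDegree
import Fermat.Agent.X0.RootsK
import Fermat.Agent.X0.FFDefs
import Fermat.Agent.DS.G.X0.Integrality
import Fermat.Agent.DS.G.X0.FracR

set_option autoImplicit false
set_option linter.unusedSectionVars false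

open ModularCurve UpperHalfPlane
open scoped MatrixGroups IntermediateField

noncomputable section

namespace Fermat.Agent.DS.G.X0.Degree

open Fermat.Agent.X0 Fermat.Agent.DS.G.Level
open scoped Polynomial

variable (L : LevelData) (D : RealizeDataK L) (C : CuspDataK L D)

/-! ### Transcendence of `j` -/

theorem coe_jF : ((jFL L : FFL L) : LaurentSeries Kbar) = jqK := rfl

/-- `jFL L` is transcendental over `ℚbar`. -/
theorem transcendental_jF : Transcendental Kbar (jFL L) := by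
  intro halg
  apply transcendental_jqK
  have := halg.algHom (IntermediateField.val (ModularCurve.laurentBaseChange Kbar L.F₀))
  rw [← coe_jF L]
  exact this

/-- `jFL L - c` is nonzero for every constant `c`. -/
theorem jF_sub_algebraMap_ne_zero (c : Kbar) : jFL L - algebraMap Kbar (FFL L) c ≠ 0 := by
  intro h
  apply transcendental_jF L
  rw [sub_eq_zero] at h
  rw [h]
  exact isAlgebraic_algebraMap c

/-! ### All cusp expansion maps agree on `ℚbar(j)` -/

/-- The subfield of `F` on which two ring homs agree, as an intermediate field when they agree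
on constants. -/
def eqLocusIF {E : Type*} [Field E] (f g : FFL L →+* E)
    (h : ∀ c : Kbar, f (algebraMap Kbar (FFL L) c) = g (algebraMap Kbar (FFL L) c)) :
    IntermediateField Kbar (FFL L) :=
  { RingHom.eqLocusField f g with
    algebraMap_mem' := fun c => h c }

theorem mem_eqLocusIF {E : Type*} [Field E] (f g : FFL L →+* E)
    (h : ∀ c : Kbar, f (algebraMap Kbar (FFL L) c) = g (algebraMap Kbar (FFL L) c)) (a : FFL L) :
    a ∈ eqLocusIF L f g h ↔ f a = g a := Iff.rfl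

/-- Two cusp expansion maps agree on `ℚbar(j)`. -/
theorem T_eq_on_Kj (γ γ' : SL(2, ℤ)) (a : KjL L) : C.T γ (a : FFL L) = C.T γ' (a : FFL L) := by
  have hc : ∀ c : Kbar, C.T γ (algebraMap Kbar (FFL L) c) = C.T γ' (algebraMap Kbar (FFL L) c) :=
    fun c => by rw [Integrality.intg_T_algebraMap, Integrality.intg_T_algebraMap]
  have hle : KjL L ≤ eqLocusIF L (C.T γ) (C.T γ') hc := by
    show IntermediateField.adjoin Kbar {jFL L} ≤ _
    rw [IntermediateField.adjoin_le_iff]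
    intro x hx
    rw [Set.mem_singleton_iff] at hx
    subst hx
    show C.T γ (jFL L) = C.T γ' (jFL L)
    rw [Integrality.intg_T_jF, Integrality.intg_T_jF]
  exact hle a.2

/-! ### The hypotheses of `AbsDegree.main` -/

section Rep

variable (hC : C.Distinct) (rep : SL(2, ℤ) ⧸ L.Gam → SL(2, ℤ))
  (hrep : ∀ x, (rep x : SL(2, ℤ) ⧸ L.Gam) = x)

/-- The family of embeddings `x ↦ C.T (rep x)⁻¹`. -/
def Tx (x : SL(2, ℤ) ⧸ L.Gam) : FFL L →+* LaurentSeries Kbar :=
  C.T (rep x)⁻¹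

theorem Tx_apply (x : SL(2, ℤ) ⧸ L.Gam) (f : FFL L) :
    Tx L D C rep x f = C.T (rep x)⁻¹ f := rfl

include hC hrep in
/-- **HYP3**: the embeddings `C.T (rep x)⁻¹` are pairwise distinct. -/
theorem Tx_injective : Function.Injective (Tx L D C rep) := by
  intro x y h
  have hmem := hC (rep x)⁻¹ (rep y)⁻¹ h
  rw [inv_inv] at hmem
  have := QuotientGroup.eq.mpr hmem
  rw [hrep, hrep] at this
  exact this.symm

include hC hrep in
/-- consumer form of **HYP3**. -/
theorem T_rep_inv_injective :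
    Function.Injective (fun x : SL(2, ℤ) ⧸ L.Gam => C.T (rep x)⁻¹) :=
  Tx_injective L D C hC rep hrep

/-- **HYP1**. -/
theorem Tx_agree (x x₀ : SL(2, ℤ) ⧸ L.Gam) (a : KjL L) :
    Tx L D C rep x (a : FFL L) = Tx L D C rep x₀ (a : FFL L) :=
  T_eq_on_Kj L D C _ _ a

include hrep in
/-- **HYP2**. -/
theorem Tx_coeff [Fintype (SL(2, ℤ) ⧸ L.Gam)]
    (x₀ : SL(2, ℤ) ⧸ L.Gam) (u : RsubL L) (k : ℕ) :
    ∃ a : KjL L, Tx L D C rep x₀ (a : FFL L)
      = (∏ x, (Polynomial.X - Polynomial.C (Tx L D C rep x (u : FFL L)))).coeff k := by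
  obtain ⟨a, ha⟩ := Integrality.integrality_mem_range L D C rep hrep u k
  refine ⟨a, ?_⟩
  rw [Tx_apply, T_eq_on_Kj L D C (rep x₀)⁻¹ 1 a]
  exact ha

include hC hrep in
/-- `AbsDegree.main` instantiated (degree, norm, trace). -/
theorem main_inst [Fintype (SL(2, ℤ) ⧸ L.Gam)]
    (x₀ : SL(2, ℤ) ⧸ L.Gam) :
    FiniteDimensional (KjL L) (FFL L) ∧
      Module.finrank (KjL L) (FFL L) = Fintype.card (SL(2, ℤ) ⧸ L.Gam) ∧
      (∀ f : FFL L, Tx L D C rep x₀ (algebraMap (KjL L) (FFL L) (Algebra.norm (KjL L) f))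
        = ∏ x, Tx L D C rep x f) ∧
      (∀ f : FFL L, Tx L D C rep x₀ (algebraMap (KjL L) (FFL L)
          (Algebra.trace (KjL L) (FFL L) f))
        = ∑ x, Tx L D C rep x f) := by
  have h := AbsDegree.main.{0, 0, 0, 0, 0} (K := Kbar) (F := FFL L) (L := LaurentSeries Kbar)
    (R := RsubL L) (Kj := KjL L) (T := Tx L D C rep) (x₀ := x₀)
    (fun x a => Tx_agree L D C rep x x₀ a)
    (fun u k => Tx_coeff L D C rep hrep x₀ u k)
    (Tx_injective L D C hC rep hrep)
  exact ⟨h.1, h.2.1, h.2.2.1, h.2.2.2.1⟩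

include hC hrep in
/-- `AbsDegree.main` instantiated (classification of embeddings). -/
theorem main_classify [Fintype (SL(2, ℤ) ⧸ L.Gam)]
    (x₀ : SL(2, ℤ) ⧸ L.Gam)
    {E : Type*} [Field E] (ι : LaurentSeries Kbar →+* E) (τ : FFL L →+* E)
    (hτ : ∀ a : KjL L, τ (a : FFL L) = ι (Tx L D C rep x₀ (a : FFL L))) :
    ∃ x, ∀ f : FFL L, τ f = ι (Tx L D C rep x f) :=
  (AbsDegree.main (K := Kbar) (F := FFL L) (L := LaurentSeries Kbar) (R := RsubL L)
    (Kj := KjL L) (T := Tx L D C rep) (x₀ := x₀)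
    (fun x a => Tx_agree L D C rep x x₀ a)
    (fun u k => Tx_coeff L D C rep hrep x₀ u k)
    (Tx_injective L D C hC rep hrep)).2.2.2.2 ι τ hτ

end Rep

/-! ### Exports -/

/-- The canonical section `Quotient.out`. -/
def rep (x : SL(2, ℤ) ⧸ L.Gam) : SL(2, ℤ) := Quotient.out x

theorem rep_spec (x : SL(2, ℤ) ⧸ L.Gam) :
    (rep L x : SL(2, ℤ) ⧸ L.Gam) = x :=
  QuotientGroup.out_eq' x

section Exports

variable (hC : C.Distinct)

include D C hC in
/-- `F` is finite over `ℚbar(j)`. -/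
theorem finiteDimensional : FiniteDimensional (KjL L) (FFL L) := by
  haveI : Fintype (SL(2, ℤ) ⧸ L.Gam) := Fintype.ofFinite _
  exact (main_inst L D C hC (rep L) (rep_spec L) (1 : SL(2, ℤ))).1

include D C hC in
/-- `[F : ℚbar(j)] = #(SL(2,ℤ) ⧸ L.Gam)`. -/
theorem card_eq_finrank :
    Nat.card (SL(2, ℤ) ⧸ L.Gam) = Module.finrank (KjL L) (FFL L) := by
  haveI : Fintype (SL(2, ℤ) ⧸ L.Gam) := Fintype.ofFinite _
  rw [(main_inst L D C hC (rep L) (rep_spec L) (1 : SL(2, ℤ))).2.1, Nat.card_eq_fintype_card]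

include D C hC in
/-- `[F : ℚbar(j)] = [SL(2,ℤ) : L.Gam]`. -/
theorem finrank_eq_index : Module.finrank (KjL L) (FFL L) = L.Gam.index := by
  rw [← card_eq_finrank L D C hC]
  rfl

include D C hC in
/-- the same with the field written as `ℚbar⟮j⟯`. -/
theorem finiteDimensional_adjoin : FiniteDimensional Kbar⟮jFL L⟯ (FFL L) :=
  finiteDimensional L D C hC

include D C hC in
theorem card_eq_finrank_adjoin :
    Nat.card (SL(2, ℤ) ⧸ L.Gam) = Module.finrank Kbar⟮jFL L⟯ (FFL L) :=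
  card_eq_finrank L D C hC

include D C hC in
theorem finrank_adjoin_eq_index : Module.finrank Kbar⟮jFL L⟯ (FFL L) = L.Gam.index :=
  finrank_eq_index L D C hC

include D C hC in
/-- `j` is a transcendental generator of `F / ℚbar`. -/
theorem isGen_jF : FF.IsGen Kbar (jFL L) :=
  ⟨transcendental_jF L, finiteDimensional_adjoin L D C hC⟩

include D C hC in
/-- `F / ℚbar(j)` is separable (characteristic zero). -/
theorem isSeparable_adjoin : Algebra.IsSeparable Kbar⟮jFL L⟯ (FFL L) := by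
  haveI := finiteDimensional_adjoin L D C hC
  haveI : Algebra.IsIntegral Kbar⟮jFL L⟯ (FFL L) := Algebra.IsIntegral.of_finite _ _
  exact Algebra.IsSeparable.of_integral _ _

end Exports

include C in
/-- If all `Θ u ∘ γ = Θ u ∘ γ'` (`u ∈ R`) then `C.T γ = C.T γ'`. -/
theorem T_eq_of_compSL_eq (γ γ' : SL(2, ℤ))
    (h : ∀ u : RsubL L, compSL (D.Θ u) γ = compSL (D.Θ u) γ') : C.T γ = C.T γ' := by
  have hR : ∀ u : RsubL L, C.T γ (u : FFL L) = C.T γ' (u : FFL L) := by
    intro u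
    apply Integrality.intg_T_eq_of_qn
    rw [h]
    exact Integrality.intg_T_spec L D C γ' u
  refine RingHom.ext fun y => ?_
  obtain ⟨r, s, rfl⟩ := FracR.exists_div L Kbar y
  rw [map_div₀, map_div₀, hR, hR]

include C in
/-- DISTINCT in analytic form: if all `Θ u ∘ γ = Θ u ∘ γ'` then `γ' γ⁻¹ ∈ L.Gam`. -/
theorem mem_Gam_of_compSL_eq (hC : C.Distinct) (γ γ' : SL(2, ℤ))
    (h : ∀ u : RsubL L, compSL (D.Θ u) γ = compSL (D.Θ u) γ') :
    γ' * γ⁻¹ ∈ L.Gam :=
  hC γ γ' (T_eq_of_compSL_eq L D C γ γ' h)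

section Rep2

variable (hC : C.Distinct) (rep : SL(2, ℤ) ⧸ L.Gam → SL(2, ℤ))
  (hrep : ∀ x, (rep x : SL(2, ℤ) ⧸ L.Gam) = x)

include hC hrep in
/-- formal norm formula: `T_1 (N_{F/ℚbar(j)} f) = ∏_x T_{(rep x)⁻¹} f`. -/
theorem norm_formula [Fintype (SL(2, ℤ) ⧸ L.Gam)] (f : FFL L) :
    C.T 1 (algebraMap (KjL L) (FFL L) (Algebra.norm (KjL L) f)) = ∏ x, C.T (rep x)⁻¹ f := by
  exact (T_eq_on_Kj L D C 1 _ (Algebra.norm (KjL L) f)).trans
    ((main_inst L D C hC rep hrep (1 : SL(2, ℤ))).2.2.1 f)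

include hC hrep in
/-- formal trace formula. -/
theorem trace_formula [Fintype (SL(2, ℤ) ⧸ L.Gam)] (f : FFL L) :
    C.T 1 (algebraMap (KjL L) (FFL L) (Algebra.trace (KjL L) (FFL L) f))
      = ∑ x, C.T (rep x)⁻¹ f := by
  exact (T_eq_on_Kj L D C 1 _ (Algebra.trace (KjL L) (FFL L) f)).trans
    ((main_inst L D C hC rep hrep (1 : SL(2, ℤ))).2.2.2 f)

include hC hrep in
/-- classification of the embeddings of `F` over `ℚbar(j)`: every ring hom
`τ : F → E` which agrees with `ι ∘ T_1` on `ℚbar(j)` is `ι ∘ T_{(rep x)⁻¹}` for some `x`. -/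
theorem exists_eq_T {E : Type*} [Field E] (ι : LaurentSeries Kbar →+* E) (τ : FFL L →+* E)
    (hτ : ∀ a : KjL L, τ (a : FFL L) = ι (C.T 1 (a : FFL L))) :
    ∃ x : SL(2, ℤ) ⧸ L.Gam, ∀ f : FFL L, τ f = ι (C.T (rep x)⁻¹ f) := by
  haveI : Fintype (SL(2, ℤ) ⧸ L.Gam) := Fintype.ofFinite _
  refine main_classify L D C hC rep hrep (1 : SL(2, ℤ)) ι τ fun a => ?_
  rw [hτ a, Tx_apply, T_eq_on_Kj L D C 1 (rep ((1 : SL(2, ℤ)) :
    SL(2, ℤ) ⧸ L.Gam))⁻¹ a]

include hC hrep C in
/-- analytic norm formula: for `u ∈ R` the norm of `u` is a POLYNOMIAL `p(j)`,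
`p ∈ ℚbar[X]`, and `p(j(z)) = ∏_x (Θ u)((rep x)⁻¹ z)`. -/
theorem norm_formula_analytic [Fintype (SL(2, ℤ) ⧸ L.Gam)] (u : RsubL L) :
    ∃ p : Kbar[X],
      algebraMap (KjL L) (FFL L) (Algebra.norm (KjL L) (u : FFL L))
        = Polynomial.aeval (jFL L) p ∧
      ∀ z, (p.map iotaK).eval (jFun z) = ∏ x, compSL (D.Θ u) (rep x)⁻¹ z := by
  obtain ⟨p, hp, -⟩ := Integrality.integrality L D C rep hrep u 0
  set n := Fintype.card (SL(2, ℤ) ⧸ L.Gam) with hn
  have h0 : (∏ x, (Polynomial.X - Polynomial.C (C.T (rep x)⁻¹ (u : FFL L)))).coeff 0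
      = (-1) ^ n * ∏ x, C.T (rep x)⁻¹ (u : FFL L) := by
    rw [Polynomial.coeff_zero_eq_eval_zero, Polynomial.eval_prod]
    simp only [Polynomial.eval_sub, Polynomial.eval_X, Polynomial.eval_C, zero_sub]
    rw [Finset.prod_neg, Finset.card_univ]
  have hprod : ∏ x, C.T (rep x)⁻¹ (u : FFL L)
      = C.T 1 (Polynomial.aeval (jFL L) (Polynomial.C ((-1 : Kbar) ^ n) * p)) := by
    rw [map_mul, map_mul, Polynomial.aeval_C, ← hp, h0, map_pow, map_neg, map_one, map_pow, map_neg,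
      map_one, ← mul_assoc, ← mul_pow]
    norm_num
  refine ⟨Polynomial.C ((-1 : Kbar) ^ n) * p, ?_, fun z => ?_⟩
  · apply (C.T 1).injective
    rw [norm_formula L D C hC rep hrep, hprod]
  · exact Integrality.integrality_prod_of_eq L D C rep u _ hprod z

include hC hrep C in
/-- variant of the analytic norm formula recording `p ≠ 0` for `u ≠ 0`. -/
theorem norm_formula_analytic_ne_zero [Fintype (SL(2, ℤ) ⧸ L.Gam)]
    (u : RsubL L) (hu : u ≠ 0) :
    ∃ p : Kbar[X], p ≠ 0 ∧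
      algebraMap (KjL L) (FFL L) (Algebra.norm (KjL L) (u : FFL L))
        = Polynomial.aeval (jFL L) p ∧
      ∀ z, (p.map iotaK).eval (jFun z) = ∏ x, compSL (D.Θ u) (rep x)⁻¹ z := by
  obtain ⟨p, hp, hpz⟩ := norm_formula_analytic L D C hC rep hrep u
  refine ⟨p, ?_, hp, hpz⟩
  rintro rfl
  haveI := finiteDimensional L D C hC
  haveI : Module.Free (KjL L) (FFL L) := Module.Free.of_divisionRing _ _
  rw [map_zero] at hp
  have h0 : Algebra.norm (KjL L) (u : FFL L) = 0 := by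
    apply (algebraMap (KjL L) (FFL L)).injective
    rw [hp, map_zero]
  rw [Algebra.norm_eq_zero_iff] at h0
  exact hu (Subtype.ext h0)

end Rep2

/-! ### Non-vanishing at points with transcendental `j`-value -/

include C in
/-- If `j(z₀) ∉ ι(ℚbar)` then no nonzero element of `R` vanishes at any `SL(2,ℤ)`-translate
of `z₀`. -/
theorem compSL_Θ_ne_zero_of_transcendental (hC : C.Distinct) (s : RsubL L) (hs : s ≠ 0) (z₀ : ℍ)
    (hz : jFun z₀ ∉ Set.range iotaK) (γ : SL(2, ℤ)) : compSL (D.Θ s) γ z₀ ≠ 0 := by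
  classical
  haveI : Fintype (SL(2, ℤ) ⧸ L.Gam) := Fintype.ofFinite _
  -- a section passing through `γ⁻¹`
  let x₁ : SL(2, ℤ) ⧸ L.Gam := ((γ⁻¹ : SL(2, ℤ)) : _)
  let r : SL(2, ℤ) ⧸ L.Gam → SL(2, ℤ) :=
    Function.update (rep L) x₁ γ⁻¹
  have hr : ∀ x, (r x : SL(2, ℤ) ⧸ L.Gam) = x := by
    intro x
    by_cases hx : x = x₁
    · subst hx
      simp only [r, Function.update_self]
      rfl
    · simp only [r, Function.update_of_ne hx]
      exact rep_spec L x
  obtain ⟨p, hp0, -, hpz⟩ := norm_formula_analytic_ne_zero L D C hC r hr s hs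
  intro h0
  apply hz
  have hprod : ∏ x, compSL (D.Θ s) (r x)⁻¹ z₀ = 0 := by
    refine Finset.prod_eq_zero (Finset.mem_univ x₁) ?_
    have : r x₁ = γ⁻¹ := by simp only [r, Function.update_self]
    rw [this, inv_inv]
    exact h0
  have hroot : (p.map iotaK).IsRoot (jFun z₀) := by
    rw [Polynomial.IsRoot.def, hpz, hprod]
  exact (IsAlgClosed.splits p).mem_range_of_isRoot hp0 hroot

include C in
/-- **(LOW) (iii)**: if `j(z₀) ∉ ι(ℚbar)` then `Θ s` does not vanish at `z₀` for `s ≠ 0`. -/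
theorem Θ_ne_zero_of_transcendental (hC : C.Distinct) (s : RsubL L) (hs : s ≠ 0) (z₀ : ℍ)
    (hz : jFun z₀ ∉ Set.range iotaK) : D.Θ s z₀ ≠ 0 := by
  have h := compSL_Θ_ne_zero_of_transcendental L D C hC s hs z₀ hz 1
  have h1 : compSL (D.Θ s) 1 z₀ = D.Θ s z₀ := by
    show D.Θ s ((1 : SL(2, ℤ)) • z₀) = D.Θ s z₀
    rw [one_smul]
  rwa [h1] at h

end Fermat.Agent.DS.G.X0.Degree
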