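/-
Programme DS (S48), chapter G-X0 (helper16): ASSEMBLY.

From the per-generator analytic package `A : AnalyticGens L Lc ι` (with `ι` injective) alone we
build the full interface triple of the generic twins:

* `realizeOf ι hι L A : RealizeDataL L Lc ι`          (`Realize.realizeDataL`),
* `cuspOf ι hι L A   : CuspDataL L Lc ι (realizeOf ι hι L A)`   (`CuspExpand.cuspDataOf`),
* `distinct ι hι L A : (cuspOf ι hι L A).Distinct`     (`CuspExpand.distinct_of`).

For `Lc = ℚbar`, `ι = iotaK` this feeds `Degree.lean`: section `Kbar` below states the function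
field package of the level (`isGen_jF`, `[F : ℚbar(j)] = [SL(2,ℤ) : L.Gam]`, separability,
non-vanishing at transcendental points) with NO hypothesis other than `A`.
-/
import Mathlib
import Fermat.Agent.DS.G.Level
import Fermat.Agent.DS.G.X0.Realize
import Fermat.Agent.DS.G.X0.FracR
import Fermat.Agent.DS.G.X0.CuspExpand
import Fermat.Agent.DS.G.X0.Degree

set_option autoImplicit false
set_option linter.unusedSectionVars false

open ModularCurve UpperHalfPlane
open scoped MatrixGroups IntermediateField

noncomputable section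

namespace Fermat.Agent.DS.G.X0.OfAnalyticGens

open Fermat.Agent.X0 Fermat.Agent.DS.G.Level

section General

variable {Lc : Type} [Field Lc] [Algebra ℚ Lc] (ι : Lc →+* ℂ) (hι : Function.Injective ι)
  (L : LevelData) (A : AnalyticGens L Lc ι)

/-- The analytic realisation attached to the analytic generators. -/
def realizeOf : RealizeDataL L Lc ι := Realize.realizeDataL ι L A hι

theorem realizeOf_genR (g : L.gensQ) : (realizeOf ι hι L A).Θ (genR L Lc g) = A.gFun g :=
  Realize.realizeDataL_genR ι L A hι g

theorem realizeOf_jR : (realizeOf ι hι L A).Θ (jR L Lc) = jFun :=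
  (realizeOf ι hι L A).j_eq

/-- Every generator has `q_w`-expansions with coefficients in `ι Lc` at all cusps. -/
theorem genCusp : CuspExpand.GenCusp (realizeOf ι hι L A) := by
  intro g γ
  rw [realizeOf_genR]
  exact A.cusp g γ

/-- The cusp expansion maps attached to the analytic generators. -/
def cuspOf : CuspDataL L Lc ι (realizeOf ι hι L A) :=
  CuspExpand.cuspDataOf (realizeOf ι hι L A) (genCusp ι hι L A) hι

/-- **HYP3 / DISTINCT** for the cusp expansion maps attached to the analytic generators. -/
theorem distinct : (cuspOf ι hι L A).Distinct := by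
  refine CuspExpand.distinct_of (realizeOf ι hι L A) (cuspOf ι hι L A) fun γ γ' h => ?_
  refine A.distinct γ γ' fun g => ?_
  rw [← realizeOf_genR ι hι L A g]
  exact h g

end General

/-! ### The arithmetic case `Lc = ℚbar`, `ι = iotaK` -/

section Kbar

variable (L : LevelData) (A : AnalyticGens L Kbar iotaK)

theorem iotaK_injective : Function.Injective (iotaK : Kbar →+* ℂ) := iotaK.injective

/-- The realisation over `ℚbar`. -/
def realizeK : RealizeDataK L := realizeOf iotaK iotaK_injective L A

/-- The cusp data over `ℚbar`. -/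
def cuspK : CuspDataK L (realizeK L A) := cuspOf iotaK iotaK_injective L A

theorem distinctK : (cuspK L A).Distinct := distinct iotaK iotaK_injective L A

theorem realizeK_genR (g : L.gensQ) : (realizeK L A).Θ (genR L Kbar g) = A.gFun g :=
  realizeOf_genR iotaK iotaK_injective L A g

include A in
/-- `j` is a transcendental generator of `F / ℚbar`. -/
theorem isGen_jF : FF.IsGen Kbar (jFL L) :=
  Degree.isGen_jF L (realizeK L A) (cuspK L A) (distinctK L A)

include A in
/-- `F` is finite over `ℚbar(j)`. -/
theorem finiteDimensional : FiniteDimensional (KjL L) (FFL L) :=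
  Degree.finiteDimensional L (realizeK L A) (cuspK L A) (distinctK L A)

include A in
/-- `[F : ℚbar(j)] = [SL(2,ℤ) : L.Gam]`. -/
theorem finrank_eq_index : Module.finrank (KjL L) (FFL L) = L.Gam.index :=
  Degree.finrank_eq_index L (realizeK L A) (cuspK L A) (distinctK L A)

include A in
theorem card_eq_finrank : Nat.card (SL(2, ℤ) ⧸ L.Gam) = Module.finrank (KjL L) (FFL L) :=
  Degree.card_eq_finrank L (realizeK L A) (cuspK L A) (distinctK L A)

include A in
theorem finiteDimensional_adjoin : FiniteDimensional Kbar⟮jFL L⟯ (FFL L) :=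
  Degree.finiteDimensional_adjoin L (realizeK L A) (cuspK L A) (distinctK L A)

include A in
theorem finrank_adjoin_eq_index : Module.finrank Kbar⟮jFL L⟯ (FFL L) = L.Gam.index :=
  Degree.finrank_adjoin_eq_index L (realizeK L A) (cuspK L A) (distinctK L A)

include A in
theorem isSeparable_adjoin : Algebra.IsSeparable Kbar⟮jFL L⟯ (FFL L) :=
  Degree.isSeparable_adjoin L (realizeK L A) (cuspK L A) (distinctK L A)

/-- If `j(z₀) ∉ ι(ℚbar)` then `Θ s` does not vanish at `z₀` for `s ≠ 0`. -/
theorem Θ_ne_zero_of_transcendental (s : RsubL L) (hs : s ≠ 0) (z₀ : ℍ)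
    (hz : jFun z₀ ∉ Set.range iotaK) : (realizeK L A).Θ s z₀ ≠ 0 :=
  Degree.Θ_ne_zero_of_transcendental L (realizeK L A) (cuspK L A) (distinctK L A) s hs z₀ hz

/-- DISTINCT in analytic form. -/
theorem mem_Gam_of_compSL_eq (γ γ' : SL(2, ℤ))
    (h : ∀ u : RsubL L, compSL ((realizeK L A).Θ u) γ = compSL ((realizeK L A).Θ u) γ') :
    γ' * γ⁻¹ ∈ L.Gam :=
  Degree.mem_Gam_of_compSL_eq L (realizeK L A) (cuspK L A) (distinctK L A) γ γ' h

end Kbar

end Fermat.Agent.DS.G.X0.OfAnalyticGens
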