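import Fermat.Agent.DS.G.Level
import Fermat.Agent.X0.PointPlaces

/-!
# Generic twin of `X0/PointPlaces` (DS programme, chapter G-X0/G-DIM, helper26)

Places of `F = FFc L Lc` coming from points of the upper half plane, for an abstract level
`L : LevelData`, coefficient field `Lc` and embedding `ι : Lc →+* ℂ`.
Twin of `Fermat/Agent/X0/PointPlaces.lean` (helper23), with the level `N` replaced by `L`, the field
`ℚbar` by `Lc`, its embedding into `ℂ` by `ι`, and `Γ₀(N)` by `L.Gam`.  The level-free part of the original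
(`OrdFunPlace`, `pp_exists_place`, `pp_place_unique`, ...) is imported, not copied.
-/

set_option autoImplicit false
set_option linter.unusedSectionVars false

open UpperHalfPlane hiding I
open Complex Filter Function
open scoped Manifold MatrixGroups Topology

namespace Fermat.Agent.DS.G.X0.PointPlaces

open Fermat.Agent.X0 Fermat.Agent.X0.JOrderMain AlgebraicCurve Fermat.Agent.DS.G.Level
open Fermat.Agent.X0.PointPlaces (OrdFunPlace pp_coe_ne_zero pp_exists_div pp_exists_extension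
  pp_exists_place pp_place_unique compSL_inv_cancel compSL_jFun_sub)

noncomputable section

variable {L : LevelData} {Lc : Type} [Field Lc] [Algebra ℚ Lc] {ι : Lc →+* ℂ}

/-- `j ∈ R`. -/
theorem jF_mem_Rsub (L : LevelData) (Lc : Type) [Field Lc] [Algebra ℚ Lc] : jFc L Lc ∈ Rsubc L Lc :=
  (jR L Lc).2

/-- The properties of the analytic realisation `Θ : R → Hol(ℍ)` (piece C-F2c) that we use. -/
structure IsRealize (ι : Lc →+* ℂ) (Θ : Rsubc L Lc →+* (ℍ → ℂ)) : Prop where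
  inj : Function.Injective Θ
  map_algebraMap : ∀ c : Lc, Θ (algebraMap Lc (Rsubc L Lc) c) = fun _ => ι c
  map_jF : Θ (jR L Lc) = jFun
  hol : ∀ u, Θ u ∈ HolH
  inv : ∀ (u : Rsubc L Lc) (γ : SL(2, ℤ)), γ ∈ L.Gam → compSL (Θ u) γ = Θ u

/-- The order function on `R` attached to `g` and `z₀`. -/
def ptOrd (Θ : Rsubc L Lc →+* (ℍ → ℂ)) (g : SL(2, ℤ)) (z₀ : ℍ) (u : Rsubc L Lc) : ℕ∞ :=
  ordH (compSL (Θ u) g⁻¹) z₀

variable {Θ : Rsubc L Lc →+* (ℍ → ℂ)}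

theorem ptOrd_ne_top (hΘ : IsRealize ι Θ) (g : SL(2, ℤ)) (z₀ : ℍ) {u : Rsubc L Lc} (hu : u ≠ 0) :
    ptOrd Θ g z₀ u ≠ ⊤ := by
  intro h
  have h0 := eq_zero_of_ordH_eq_top (compSL_mem_HolH (hΘ.hol u) g⁻¹) z₀ h
  have h1 : Θ u = 0 := by
    rw [← compSL_inv_cancel (Θ u) g, h0]
    rfl
  exact hu (hΘ.inj (by rw [h1, map_zero]))

theorem ptOrd_mul (hΘ : IsRealize ι Θ) (g : SL(2, ℤ)) (z₀ : ℍ) (u s : Rsubc L Lc) :
    ptOrd Θ g z₀ (u * s) = ptOrd Θ g z₀ u + ptOrd Θ g z₀ s := by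
  unfold ptOrd
  rw [map_mul, compSL_mul_fun]
  exact ordH_mul (compSL_mem_HolH (hΘ.hol u) g⁻¹) (compSL_mem_HolH (hΘ.hol s) g⁻¹) z₀

theorem ptOrd_add (hΘ : IsRealize ι Θ) (g : SL(2, ℤ)) (z₀ : ℍ) (u s : Rsubc L Lc) :
    min (ptOrd Θ g z₀ u) (ptOrd Θ g z₀ s) ≤ ptOrd Θ g z₀ (u + s) := by
  unfold ptOrd
  rw [map_add, compSL_add_fun]
  exact le_ordH_add (compSL_mem_HolH (hΘ.hol u) g⁻¹) (compSL_mem_HolH (hΘ.hol s) g⁻¹) z₀

theorem ptOrd_algebraMap (hΘ : IsRealize ι Θ) (g : SL(2, ℤ)) (z₀ : ℍ) {c : Lc} (hc : c ≠ 0) :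
    ptOrd Θ g z₀ (algebraMap Lc (Rsubc L Lc) c) = 0 := by
  unfold ptOrd
  rw [hΘ.map_algebraMap, compSL_const]
  exact ordH_const (fun h => hc (ι.injective (by rw [h, map_zero]))) z₀

/-- The element `j - c` of `R`. -/
def jSub (L : LevelData) (Lc : Type) [Field Lc] [Algebra ℚ Lc] (c : Lc) : Rsubc L Lc :=
  jR L Lc - algebraMap Lc (Rsubc L Lc) c

theorem coe_jSub (c : Lc) : ((jSub L Lc c : Rsubc L Lc) : FFc L Lc) = jFc L Lc - algebraMap Lc (FFc L Lc) c := rfl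

theorem realize_jSub (hΘ : IsRealize ι Θ) (c : Lc) : Θ (jSub L Lc c) = fun z => jFun z - ι c := by
  unfold jSub
  rw [map_sub, hΘ.map_jF, hΘ.map_algebraMap]
  rfl

theorem ptOrd_jSub (hΘ : IsRealize ι Θ) (hinj : JInj) (g : SL(2, ℤ)) (z₀ : ℍ) (c : Lc)
    (hc : jFun z₀ = ι c) : ptOrd Θ g z₀ (jSub L Lc c) = ellOrder z₀ := by
  unfold ptOrd
  rw [realize_jSub hΘ, compSL_jFun_sub]
  exact ordH_jFun_sub_const_of_inj hinj z₀ _ hc

theorem ptOrd_jSub_of_ne (hΘ : IsRealize ι Θ) (g : SL(2, ℤ)) (z₀ : ℍ) (c : Lc)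
    (hc : jFun z₀ ≠ ι c) : ptOrd Θ g z₀ (jSub L Lc c) = 0 := by
  unfold ptOrd
  rw [realize_jSub hΘ, compSL_jFun_sub]
  exact ordH_jFun_sub_const_of_ne z₀ _ hc

/-- The order function only depends on the coset `g Γ₀(N)`. -/
theorem ptOrd_mul_Gamma0 (hΘ : IsRealize ι Θ) (g γ : SL(2, ℤ))
    (hγ : γ ∈ L.Gam) (z₀ : ℍ) (u : Rsubc L Lc) :
    ptOrd Θ (g * γ) z₀ u = ptOrd Θ g z₀ u := by
  unfold ptOrd
  rw [mul_inv_rev, compSL_mul, hΘ.inv u γ⁻¹ (inv_mem hγ)]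

/-- Moving the point by `σ` and the coset by `σ` gives the same order function. -/
theorem ptOrd_smul (hΘ : IsRealize ι Θ) (σ g : SL(2, ℤ)) (z₀ : ℍ) (u : Rsubc L Lc) :
    ptOrd Θ (σ * g) (σ • z₀) u = ptOrd Θ g z₀ u := by
  unfold ptOrd
  rw [mul_inv_rev, compSL_mul, ordH_compSL (compSL_mem_HolH (hΘ.hol u) g⁻¹), inv_smul_smul]

/-- If `σ` fixes `z₀` then the cosets `g Γ₀(N)` and `σ g Γ₀(N)` give the same order function
at `z₀`. -/
theorem ptOrd_mul_of_fixed (hΘ : IsRealize ι Θ) (σ g : SL(2, ℤ)) (z₀ : ℍ) (hσ : σ • z₀ = z₀)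
    (u : Rsubc L Lc) : ptOrd Θ (σ * g) z₀ u = ptOrd Θ g z₀ u := by
  have := ptOrd_smul hΘ σ g z₀ u
  rwa [hσ] at this



section Concrete

variable {L : LevelData} {Lc : Type} [Field Lc] [Algebra ℚ Lc] {ι : Lc →+* ℂ}
  [IsFractionRing (Rsubc L Lc) (FFc L Lc)] {Θ : Rsubc L Lc →+* (ℍ → ℂ)}

theorem ptOrd_zero (g : SL(2, ℤ)) (z₀ : ℍ) : ptOrd Θ g z₀ 0 = ⊤ := by
  unfold ptOrd ordH
  rw [map_zero, compSL_zero_fun]
  rw [analyticOrderAt_eq_top]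
  exact Eventually.of_forall fun w => rfl

/-- `v` is the place attached to `(g, z₀)`, with multiplicity `m`. -/
def IsPointPlace (Θ : Rsubc L Lc →+* (ℍ → ℂ)) (g : SL(2, ℤ)) (z₀ : ℍ) (v : Place Lc (FFc L Lc))
    (m : ℕ) : Prop :=
  0 < m ∧ ∀ u : Rsubc L Lc, u ≠ 0 → ((ptOrd Θ g z₀ u).toNat : ℤ) = m * v.ord (u : FFc L Lc)

theorem jSub_ne_zero (hΘ : IsRealize ι Θ) (hinj : JInj) (z₀ : ℍ) (c : Lc)
    (hc : jFun z₀ = ι c) : jSub L Lc c ≠ 0 := by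
  intro h
  have h1 := ptOrd_jSub hΘ hinj 1 z₀ c hc
  rw [h, ptOrd_zero] at h1
  exact ENat.top_ne_natCast _ h1

theorem toNat_ptOrd_mul (hΘ : IsRealize ι Θ) (g : SL(2, ℤ)) (z₀ : ℍ) {u s : Rsubc L Lc} (hu : u ≠ 0)
    (hs : s ≠ 0) : (ptOrd Θ g z₀ (u * s)).toNat = (ptOrd Θ g z₀ u).toNat + (ptOrd Θ g z₀ s).toNat := by
  rw [ptOrd_mul hΘ, ENat.toNat_add (ptOrd_ne_top hΘ g z₀ hu) (ptOrd_ne_top hΘ g z₀ hs)]

theorem toNat_ptOrd_add (hΘ : IsRealize ι Θ) (g : SL(2, ℤ)) (z₀ : ℍ) {u s : Rsubc L Lc} (hu : u ≠ 0)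
    (hs : s ≠ 0) (hus : u + s ≠ 0) :
    min (ptOrd Θ g z₀ u).toNat (ptOrd Θ g z₀ s).toNat ≤ (ptOrd Θ g z₀ (u + s)).toNat := by
  have h := ptOrd_add hΘ g z₀ u s
  have hu' := ptOrd_ne_top hΘ g z₀ hu
  have hs' := ptOrd_ne_top hΘ g z₀ hs
  have hus' := ptOrd_ne_top hΘ g z₀ hus
  rw [← ENat.natCast_toNat hu', ← ENat.natCast_toNat hs', ← ENat.natCast_toNat hus'] at h
  rcases min_le_iff.mp h with h | h
  · exact min_le_iff.mpr (Or.inl (by exact_mod_cast h))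
  · exact min_le_iff.mpr (Or.inr (by exact_mod_cast h))

/-- Existence of the place attached to `(g, z₀)` when `j(z₀) = ι(c)`, `c ∈ ℚbar`. -/
theorem exists_isPointPlace (hFF5 : OrdFunPlace Lc (FFc L Lc)) (hΘ : IsRealize ι Θ) (hinj : JInj)
    (g : SL(2, ℤ)) (z₀ : ℍ) (c : Lc) (hc : jFun z₀ = ι c) :
    ∃ (v : Place Lc (FFc L Lc)) (m : ℕ), IsPointPlace Θ g z₀ v m := by
  have h := pp_exists_place (R := Rsubc L Lc) hFF5 (fun u => ((ptOrd Θ g z₀ u).toNat : ℤ))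
    (fun u s hu hs => by
      rw [toNat_ptOrd_mul hΘ g z₀ hu hs]
      push_cast
      ring)
    (fun u s hu hs hus => by
      exact_mod_cast toNat_ptOrd_add hΘ g z₀ hu hs hus)
    (fun c hc => by
      rw [ptOrd_algebraMap hΘ g z₀ hc]
      simp)
    ⟨jSub L Lc c, jSub_ne_zero hΘ hinj z₀ c hc, by
      rw [ptOrd_jSub hΘ hinj g z₀ c hc]
      have := ellOrder_pos z₀
      simp only [ENat.toNat_natCast]
      exact_mod_cast this.ne'⟩
  obtain ⟨v, m, hm, hv⟩ := h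
  exact ⟨v, m, hm, hv⟩

namespace IsPointPlace

variable {g : SL(2, ℤ)} {z₀ : ℍ} {v v' : Place Lc (FFc L Lc)} {m m' : ℕ}

theorem place_unique (h : IsPointPlace Θ g z₀ v m) (h' : IsPointPlace Θ g z₀ v' m') : v = v' :=
  pp_place_unique (R := Rsubc L Lc) h.1 h'.1 fun u hu => by rw [← h.2 u hu, ← h'.2 u hu]

theorem ord_jSub (h : IsPointPlace Θ g z₀ v m) (hΘ : IsRealize ι Θ) (hinj : JInj) (c : Lc)
    (hc : jFun z₀ = ι c) :
    (m : ℤ) * v.ord (jFc L Lc - algebraMap Lc (FFc L Lc) c) = ellOrder z₀ := by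
  have := h.2 (jSub L Lc c) (jSub_ne_zero hΘ hinj z₀ c hc)
  rw [ptOrd_jSub hΘ hinj g z₀ c hc, coe_jSub] at this
  rw [← this]
  simp

theorem ord_jSub_pos (h : IsPointPlace Θ g z₀ v m) (hΘ : IsRealize ι Θ) (hinj : JInj) (c : Lc)
    (hc : jFun z₀ = ι c) : 0 < v.ord (jFc L Lc - algebraMap Lc (FFc L Lc) c) := by
  have h1 := h.ord_jSub hΘ hinj c hc
  have h2 : (0 : ℤ) < ellOrder z₀ := by exact_mod_cast ellOrder_pos z₀
  have hm : (0 : ℤ) < m := by exact_mod_cast h.1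
  rw [← h1] at h2
  exact (mul_pos_iff_of_pos_left hm).mp h2

theorem ord_jSub_le (h : IsPointPlace Θ g z₀ v m) (hΘ : IsRealize ι Θ) (hinj : JInj) (c : Lc)
    (hc : jFun z₀ = ι c) : v.ord (jFc L Lc - algebraMap Lc (FFc L Lc) c) ≤ ellOrder z₀ := by
  have h1 := h.ord_jSub hΘ hinj c hc
  have h2 := h.ord_jSub_pos hΘ hinj c hc
  have hm : (1 : ℤ) ≤ m := by exact_mod_cast h.1
  rw [← h1]
  nlinarith

theorem mul_Gamma0 (h : IsPointPlace Θ g z₀ v m) (hΘ : IsRealize ι Θ) (γ : SL(2, ℤ))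
    (hγ : γ ∈ L.Gam) : IsPointPlace Θ (g * γ) z₀ v m :=
  ⟨h.1, fun u hu => by rw [ptOrd_mul_Gamma0 hΘ g γ hγ]; exact h.2 u hu⟩

theorem smul (h : IsPointPlace Θ g z₀ v m) (hΘ : IsRealize ι Θ) (σ : SL(2, ℤ)) :
    IsPointPlace Θ (σ * g) (σ • z₀) v m :=
  ⟨h.1, fun u hu => by rw [ptOrd_smul hΘ σ g z₀]; exact h.2 u hu⟩

theorem mul_of_fixed (h : IsPointPlace Θ g z₀ v m) (hΘ : IsRealize ι Θ) (σ : SL(2, ℤ))
    (hσ : σ • z₀ = z₀) : IsPointPlace Θ (σ * g) z₀ v m := by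
  have := h.smul hΘ σ
  rwa [hσ] at this

/-- If all values of the order function are divisible by `k` then so is the multiplicity. -/
theorem dvd_mult (h : IsPointPlace Θ g z₀ v m) (k : ℕ)
    (hk : ∀ u : Rsubc L Lc, u ≠ 0 → k ∣ (ptOrd Θ g z₀ u).toNat) : k ∣ m := by
  obtain ⟨π, hπ⟩ := FF.ffp_exists_irreducible v
  have hπ1 : v.ord (π : FFc L Lc) = 1 := v.ord_coe_irreducible hπ
  have hπ0 : (π : FFc L Lc) ≠ 0 := by
    intro h0
    rw [h0] at hπ1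
    simp at hπ1
  obtain ⟨u, s, hu, hs, hus⟩ := pp_exists_div (R := Rsubc L Lc) (π : FFc L Lc) hπ0
  have huF := pp_coe_ne_zero (F := FFc L Lc) hu
  have hsF := pp_coe_ne_zero (F := FFc L Lc) hs
  have h1 : v.ord (u : FFc L Lc) - v.ord (s : FFc L Lc) = 1 := by
    rw [← hπ1, hus, div_eq_mul_inv, v.ord_mul huF (inv_ne_zero hsF), v.ord_inv]
    ring
  have h2 := h.2 u hu
  have h3 := h.2 s hs
  have h4 : (m : ℤ) = (ptOrd Θ g z₀ u).toNat - (ptOrd Θ g z₀ s).toNat := by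
    rw [h2, h3, ← mul_sub, h1, mul_one]
  have h5 : (k : ℤ) ∣ (m : ℤ) := by
    rw [h4]
    exact dvd_sub (by exact_mod_cast hk u hu) (by exact_mod_cast hk s hs)
  exact_mod_cast h5

end IsPointPlace

end Concrete

section Fixed

variable {L : LevelData} {Lc : Type} [Field Lc] [Algebra ℚ Lc] {ι : Lc →+* ℂ}
  [IsFractionRing (Rsubc L Lc) (FFc L Lc)] {Θ : Rsubc L Lc →+* (ℍ → ℂ)}

/-- If the coset `g Γ₀(N)` is fixed by `σ` then `Θ u ∘ g⁻¹` is `σ`-invariant. -/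
theorem compSL_invariant_of_fixed (hΘ : IsRealize ι Θ) (g σ : SL(2, ℤ))
    (hfix : g⁻¹ * σ * g ∈ L.Gam) (u : Rsubc L Lc) :
    compSL (compSL (Θ u) g⁻¹) σ = compSL (Θ u) g⁻¹ := by
  have h1 : g⁻¹ * σ = (g⁻¹ * σ * g) * g⁻¹ := by group
  rw [← compSL_mul, h1, compSL_mul, hΘ.inv u _ hfix]

variable {g : SL(2, ℤ)} {v : Place Lc (FFc L Lc)} {m : ℕ}

/-- FIXED cosets over `i`: multiplicity `2`, so `j - c` is a uniformizer. -/
theorem IsPointPlace.of_fixed_S {hh : SL(2, ℤ)} (h : IsPointPlace Θ g (hh • ptI) v m)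
    (hΘ : IsRealize ι Θ) (hinj : JInj)
    (hfix : g⁻¹ * (hh * ModularGroup.S * hh⁻¹) * g ∈ L.Gam)
    (c : Lc) (hc : jFun (hh • ptI) = ι c) :
    m = 2 ∧ v.ord (jFc L Lc - algebraMap Lc (FFc L Lc) c) = 1 := by
  have h2 : 2 ∣ m := by
    refine h.dvd_mult 2 fun u hu => ?_
    have hne := ptOrd_ne_top hΘ g (hh • ptI) hu
    exact two_dvd_of_invariant_S (compSL_mem_HolH (hΘ.hol u) g⁻¹) hh
      (compSL_invariant_of_fixed hΘ g _ hfix u) (ENat.natCast_toNat hne).symm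
  have h3 := h.ord_jSub hΘ hinj c hc
  have h4 := h.ord_jSub_pos hΘ hinj c hc
  rw [ellOrder_smul, ellOrder_ptI] at h3
  obtain ⟨k, rfl⟩ := h2
  have hk : 0 < k := by
    have := h.1
    omega
  push_cast at h3
  have hk' : (1 : ℤ) ≤ k := by exact_mod_cast hk
  have h5 : v.ord (jFc L Lc - algebraMap Lc (FFc L Lc) c) = 1 := by nlinarith
  refine ⟨?_, h5⟩
  rw [h5] at h3
  have : (k : ℤ) = 1 := by linarith
  have : k = 1 := by exact_mod_cast this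
  omega

/-- FIXED cosets over `ρ`: multiplicity `3`, so `j - c` is a uniformizer. -/
theorem IsPointPlace.of_fixed_ST {hh : SL(2, ℤ)} (h : IsPointPlace Θ g (hh • ptRho) v m)
    (hΘ : IsRealize ι Θ) (hinj : JInj)
    (hfix : g⁻¹ * (hh * (ModularGroup.S * ModularGroup.T) * hh⁻¹) * g ∈
      L.Gam)
    (c : Lc) (hc : jFun (hh • ptRho) = ι c) :
    m = 3 ∧ v.ord (jFc L Lc - algebraMap Lc (FFc L Lc) c) = 1 := by
  have h2 : 3 ∣ m := by
    refine h.dvd_mult 3 fun u hu => ?_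
    have hne := ptOrd_ne_top hΘ g (hh • ptRho) hu
    exact three_dvd_of_invariant_ST (compSL_mem_HolH (hΘ.hol u) g⁻¹) hh
      (compSL_invariant_of_fixed hΘ g _ hfix u) (ENat.natCast_toNat hne).symm
  have h3 := h.ord_jSub hΘ hinj c hc
  have h4 := h.ord_jSub_pos hΘ hinj c hc
  rw [ellOrder_smul, ellOrder_ptRho] at h3
  obtain ⟨k, rfl⟩ := h2
  have hk : 0 < k := by
    have := h.1
    omega
  push_cast at h3
  have hk' : (1 : ℤ) ≤ k := by exact_mod_cast hk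
  have h5 : v.ord (jFc L Lc - algebraMap Lc (FFc L Lc) c) = 1 := by nlinarith
  refine ⟨?_, h5⟩
  rw [h5] at h3
  have : (k : ℤ) = 1 := by linarith
  have : k = 1 := by exact_mod_cast this
  omega

/-- Generic points: multiplicity `1`. -/
theorem IsPointPlace.of_ellOrder_eq_one {z₀ : ℍ} (h : IsPointPlace Θ g z₀ v m)
    (hΘ : IsRealize ι Θ) (hinj : JInj) (h1 : ellOrder z₀ = 1)
    (c : Lc) (hc : jFun z₀ = ι c) :
    m = 1 ∧ v.ord (jFc L Lc - algebraMap Lc (FFc L Lc) c) = 1 := by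
  have h3 := h.ord_jSub hΘ hinj c hc
  have h4 := h.ord_jSub_pos hΘ hinj c hc
  rw [h1] at h3
  have hm : (1 : ℤ) ≤ m := by exact_mod_cast h.1
  push_cast at h3
  have h5 : v.ord (jFc L Lc - algebraMap Lc (FFc L Lc) c) = 1 := by nlinarith
  refine ⟨?_, h5⟩
  rw [h5] at h3
  have : (m : ℤ) = 1 := by linarith
  exact_mod_cast this

end Fixed

section Bundled

variable {L : LevelData} {Lc : Type} [Field Lc] [Algebra ℚ Lc] {ι : Lc →+* ℂ}
  [IsFractionRing (Rsubc L Lc) (FFc L Lc)] {Θ : Rsubc L Lc →+* (ℍ → ℂ)}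

/-- The places of `F` over `j = c`. -/
abbrev PlacesOver (L : LevelData) (Lc : Type) [Field Lc] [Algebra ℚ Lc] (c : Lc) : Type :=
  {v : Place Lc (FFc L Lc) // 0 < v.ord (jFc L Lc - algebraMap Lc (FFc L Lc) c)}

variable (hFF5 : OrdFunPlace Lc (FFc L Lc)) (hΘ : IsRealize ι Θ) (hinj : JInj) (z₀ : ℍ) (c : Lc)
  (hc : jFun z₀ = ι c)

/-- The place attached to `g ∈ SL(2, ℤ)` and the point `z₀`. -/
def pointPlace (g : SL(2, ℤ)) : Place Lc (FFc L Lc) :=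
  (exists_isPointPlace hFF5 hΘ hinj g z₀ c hc).choose

/-- The multiplicity of the place attached to `g ∈ SL(2, ℤ)` and the point `z₀`. -/
def pointMult (g : SL(2, ℤ)) : ℕ :=
  (exists_isPointPlace hFF5 hΘ hinj g z₀ c hc).choose_spec.choose

theorem isPointPlace_pointPlace (g : SL(2, ℤ)) :
    IsPointPlace Θ g z₀ (pointPlace hFF5 hΘ hinj z₀ c hc g) (pointMult hFF5 hΘ hinj z₀ c hc g) :=
  (exists_isPointPlace hFF5 hΘ hinj g z₀ c hc).choose_spec.choose_spec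

theorem pointPlace_eq_of_isPointPlace {g : SL(2, ℤ)} {v : Place Lc (FFc L Lc)} {m : ℕ}
    (h : IsPointPlace Θ g z₀ v m) : pointPlace hFF5 hΘ hinj z₀ c hc g = v :=
  (isPointPlace_pointPlace hFF5 hΘ hinj z₀ c hc g).place_unique h

theorem pointPlace_mul_Gamma0 (g γ : SL(2, ℤ)) (hγ : γ ∈ L.Gam) :
    pointPlace hFF5 hΘ hinj z₀ c hc (g * γ) = pointPlace hFF5 hΘ hinj z₀ c hc g :=
  pointPlace_eq_of_isPointPlace hFF5 hΘ hinj z₀ c hc
    ((isPointPlace_pointPlace hFF5 hΘ hinj z₀ c hc g).mul_Gamma0 hΘ γ hγ)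

theorem pointPlace_mul_of_fixed (σ g : SL(2, ℤ)) (hσ : σ • z₀ = z₀) :
    pointPlace hFF5 hΘ hinj z₀ c hc (σ * g) = pointPlace hFF5 hΘ hinj z₀ c hc g :=
  pointPlace_eq_of_isPointPlace hFF5 hΘ hinj z₀ c hc
    ((isPointPlace_pointPlace hFF5 hΘ hinj z₀ c hc g).mul_of_fixed hΘ σ hσ)

theorem ord_pointPlace_pos (g : SL(2, ℤ)) :
    0 < (pointPlace hFF5 hΘ hinj z₀ c hc g).ord (jFc L Lc - algebraMap Lc (FFc L Lc) c) :=
  (isPointPlace_pointPlace hFF5 hΘ hinj z₀ c hc g).ord_jSub_pos hΘ hinj c hc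

theorem ord_pointPlace_le (g : SL(2, ℤ)) :
    (pointPlace hFF5 hΘ hinj z₀ c hc g).ord (jFc L Lc - algebraMap Lc (FFc L Lc) c) ≤ ellOrder z₀ :=
  (isPointPlace_pointPlace hFF5 hΘ hinj z₀ c hc g).ord_jSub_le hΘ hinj c hc

/-- The map from cosets `SL(2, ℤ) ⧸ Γ₀(N)` to the places over `c`. -/
def pointPlaceX (x : SL(2, ℤ) ⧸ L.Gam) : PlacesOver L Lc c :=
  Quotient.liftOn' x
    (fun g => (⟨pointPlace hFF5 hΘ hinj z₀ c hc g, ord_pointPlace_pos hFF5 hΘ hinj z₀ c hc g⟩ :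
      PlacesOver L Lc c))
    (fun a b hab => by
      have hab' : a⁻¹ * b ∈ L.Gam := QuotientGroup.leftRel_apply.mp hab
      apply Subtype.ext
      have := pointPlace_mul_Gamma0 hFF5 hΘ hinj z₀ c hc a (a⁻¹ * b) hab'
      rw [mul_inv_cancel_left] at this
      exact this.symm)

@[simp] theorem pointPlaceX_mk (g : SL(2, ℤ)) :
    (pointPlaceX hFF5 hΘ hinj z₀ c hc (QuotientGroup.mk g)).1 =
      pointPlace hFF5 hΘ hinj z₀ c hc g := rfl

theorem pointPlaceX_smul_of_fixed (σ : SL(2, ℤ)) (hσ : σ • z₀ = z₀)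
    (x : SL(2, ℤ) ⧸ L.Gam) :
    pointPlaceX hFF5 hΘ hinj z₀ c hc (σ • x) = pointPlaceX hFF5 hΘ hinj z₀ c hc x := by
  induction x using QuotientGroup.induction_on with
  | H g =>
    apply Subtype.ext
    show (pointPlaceX hFF5 hΘ hinj z₀ c hc (QuotientGroup.mk (σ * g))).1 = _
    rw [pointPlaceX_mk, pointPlaceX_mk]
    exact pointPlace_mul_of_fixed hFF5 hΘ hinj z₀ c hc σ g hσ

theorem ord_pointPlaceX_le (x : SL(2, ℤ) ⧸ L.Gam) :
    (pointPlaceX hFF5 hΘ hinj z₀ c hc x).1.ord (jFc L Lc - algebraMap Lc (FFc L Lc) c) ≤ ellOrder z₀ := by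
  induction x using QuotientGroup.induction_on with
  | H g => exact ord_pointPlace_le hFF5 hΘ hinj z₀ c hc g

end Bundled

section BundledFixed

variable {L : LevelData} {Lc : Type} [Field Lc] [Algebra ℚ Lc] {ι : Lc →+* ℂ}
  [IsFractionRing (Rsubc L Lc) (FFc L Lc)] {Θ : Rsubc L Lc →+* (ℍ → ℂ)}

theorem smul_mk_eq_iff (σ g : SL(2, ℤ)) :
    σ • (QuotientGroup.mk g : SL(2, ℤ) ⧸ L.Gam) = QuotientGroup.mk g ↔
      g⁻¹ * σ * g ∈ L.Gam := by
  rw [MulAction.Quotient.smul_mk, QuotientGroup.eq]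
  constructor
  · intro h
    have := inv_mem h
    simpa [mul_assoc] using this
  · intro h
    have := inv_mem h
    simpa [mul_assoc] using this

variable (hFF5 : OrdFunPlace Lc (FFc L Lc)) (hΘ : IsRealize ι Θ) (hinj : JInj) (c : Lc)

theorem ord_pointPlaceX_of_fixed_S (hh : SL(2, ℤ)) (hc : jFun (hh • ptI) = ι c)
    (x : SL(2, ℤ) ⧸ L.Gam)
    (hx : (hh * ModularGroup.S * hh⁻¹) • x = x) :
    (pointPlaceX hFF5 hΘ hinj (hh • ptI) c hc x).1.ord (jFc L Lc - algebraMap Lc (FFc L Lc) c) = 1 := by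
  induction x using QuotientGroup.induction_on with
  | H g =>
    rw [smul_mk_eq_iff] at hx
    rw [pointPlaceX_mk]
    exact ((isPointPlace_pointPlace hFF5 hΘ hinj (hh • ptI) c hc g).of_fixed_S hΘ hinj hx c hc).2

theorem ord_pointPlaceX_of_fixed_ST (hh : SL(2, ℤ)) (hc : jFun (hh • ptRho) = ι c)
    (x : SL(2, ℤ) ⧸ L.Gam)
    (hx : (hh * (ModularGroup.S * ModularGroup.T) * hh⁻¹) • x = x) :
    (pointPlaceX hFF5 hΘ hinj (hh • ptRho) c hc x).1.ord (jFc L Lc - algebraMap Lc (FFc L Lc) c) = 1 := by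
  induction x using QuotientGroup.induction_on with
  | H g =>
    rw [smul_mk_eq_iff] at hx
    rw [pointPlaceX_mk]
    exact ((isPointPlace_pointPlace hFF5 hΘ hinj (hh • ptRho) c hc g).of_fixed_ST hΘ hinj hx c hc).2

theorem ord_pointPlaceX_of_ellOrder_eq_one (z₀ : ℍ) (hc : jFun z₀ = ι c) (h1 : ellOrder z₀ = 1)
    (x : SL(2, ℤ) ⧸ L.Gam) :
    (pointPlaceX hFF5 hΘ hinj z₀ c hc x).1.ord (jFc L Lc - algebraMap Lc (FFc L Lc) c) = 1 := by
  induction x using QuotientGroup.induction_on with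
  | H g =>
    rw [pointPlaceX_mk]
    exact ((isPointPlace_pointPlace hFF5 hΘ hinj z₀ c hc g).of_ellOrder_eq_one hΘ hinj h1 c hc).2

end BundledFixed

end

end Fermat.Agent.DS.G.X0.PointPlaces
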