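/-
Generic twin of `X0/PointPlacesPos` (DS programme, chapter G-X0/G-DIM, helper26), level `N`
replaced by `(L, Lc, ι)`.  Original header:
Program C (helper14): small complements to `PointPlaces.lean` (helper23):
for the place `v` attached to `(g, z₀)` with multiplicity `m`
* `R ⊆ O_v`  (`ord_coe_nonneg`),
* `0 < v.ord u ↔ Θ u (g⁻¹ • z₀) = 0` for `u ∈ R`, `u ≠ 0`  (`ord_coe_pos_iff`),
* the order of a quotient: `m * v.ord (u / s) = ord (Θ u) - ord (Θ s)`  (`ord_div`).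
-/
import Fermat.Agent.DS.G.X0.PointPlaces

set_option autoImplicit false
set_option linter.unusedSectionVars false

open UpperHalfPlane AlgebraicCurve
open scoped MatrixGroups

namespace Fermat.Agent.DS.G.X0.PointPlacesPos

open Fermat.Agent.X0 Fermat.Agent.DS.G.Level Fermat.Agent.DS.G.X0.PointPlaces
open Fermat.Agent.X0.PointPlaces (pp_coe_ne_zero)

noncomputable section

variable {L : LevelData} {Lc : Type} [Field Lc] [Algebra ℚ Lc] {ι : Lc →+* ℂ}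
  [IsFractionRing (Rsubc L Lc) (FFc L Lc)] {Θ : Rsubc L Lc →+* (ℍ → ℂ)}
variable {g : SL(2, ℤ)} {z₀ : ℍ} {v : Place Lc (FFc L Lc)} {m : ℕ}

/-- The order `ptOrd Θ g z₀ u` is the order of `Θ u` at the point `g⁻¹ • z₀`. -/
theorem ptOrd_eq_ordH (hΘ : IsRealize ι Θ) (g : SL(2, ℤ)) (z₀ : ℍ) (u : Rsubc L Lc) :
    ptOrd Θ g z₀ u = ordH (Θ u) (g⁻¹ • z₀) :=
  ordH_compSL (hΘ.hol u) g⁻¹ z₀

theorem ptOrd_eq_zero_iff (hΘ : IsRealize ι Θ) (g : SL(2, ℤ)) (z₀ : ℍ) (u : Rsubc L Lc) :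
    ptOrd Θ g z₀ u = 0 ↔ Θ u (g⁻¹ • z₀) ≠ 0 := by
  rw [ptOrd_eq_ordH hΘ, ordH_eq_zero_iff (hΘ.hol u)]

/-- `R` is contained in the valuation ring of a point place. -/
theorem ord_coe_nonneg (h : IsPointPlace Θ g z₀ v m) {u : Rsubc L Lc} (hu : u ≠ 0) :
    0 ≤ v.ord (u : FFc L Lc) := by
  have h1 := h.2 u hu
  have hm : (0 : ℤ) < m := by exact_mod_cast h.1
  by_contra hneg
  have h0 : v.ord (u : FFc L Lc) < 0 := not_le.mp hneg
  have : (m : ℤ) * v.ord (u : FFc L Lc) < 0 := mul_neg_of_pos_of_neg hm h0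
  have h2 : (0 : ℤ) ≤ ((ptOrd Θ g z₀ u).toNat : ℤ) := by positivity
  omega

theorem coe_mem_valuationSubring (h : IsPointPlace Θ g z₀ v m) (u : Rsubc L Lc) :
    (u : FFc L Lc) ∈ v.toValuationSubring := by
  by_cases hu : u = 0
  · subst hu; exact v.toValuationSubring.zero_mem
  · exact FF.ffp_mem_of_ord_nonneg v (ord_coe_nonneg h hu)

/-- `u ∈ R` is positive at the point place of `(g, z₀)` iff `Θ u` vanishes at `g⁻¹ • z₀`. -/
theorem ord_coe_pos_iff (h : IsPointPlace Θ g z₀ v m) (hΘ : IsRealize ι Θ) {u : Rsubc L Lc}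
    (hu : u ≠ 0) : 0 < v.ord (u : FFc L Lc) ↔ Θ u (g⁻¹ • z₀) = 0 := by
  have h1 := h.2 u hu
  have hm : (0 : ℤ) < m := by exact_mod_cast h.1
  have htop := ptOrd_ne_top hΘ g z₀ hu
  have h0 := ptOrd_eq_zero_iff hΘ g z₀ u
  constructor
  · intro hp
    by_contra hne
    have hz : ptOrd Θ g z₀ u = 0 := h0.mpr hne
    rw [hz] at h1
    have : (0 : ℤ) < m * v.ord (u : FFc L Lc) := mul_pos hm hp
    simp at h1
    omega
  · intro hz
    have hne : ptOrd Θ g z₀ u ≠ 0 := fun h' => (h0.mp h') hz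
    have hpos : 0 < (ptOrd Θ g z₀ u).toNat := by
      rw [Nat.pos_iff_ne_zero]
      intro h'
      rcases (ENat.toNat_eq_zero).mp h' with h'' | h''
      · exact hne h''
      · exact htop h''
    have hpos' : (0 : ℤ) < ((ptOrd Θ g z₀ u).toNat : ℤ) := by exact_mod_cast hpos
    rw [h1] at hpos'
    by_contra hneg
    have h2 : v.ord (u : FFc L Lc) ≤ 0 := not_lt.mp hneg
    have : (m : ℤ) * v.ord (u : FFc L Lc) ≤ 0 := mul_nonpos_of_nonneg_of_nonpos hm.le h2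
    omega

/-- The order at a point place of a quotient of elements of `R`. -/
theorem ord_div (h : IsPointPlace Θ g z₀ v m) {u s : Rsubc L Lc} (hu : u ≠ 0) (hs : s ≠ 0) :
    (m : ℤ) * v.ord ((u : FFc L Lc) / (s : FFc L Lc)) =
      ((ptOrd Θ g z₀ u).toNat : ℤ) - ((ptOrd Θ g z₀ s).toNat : ℤ) := by
  have huF := pp_coe_ne_zero (F := FFc L Lc) hu
  have hsF := pp_coe_ne_zero (F := FFc L Lc) hs
  rw [div_eq_mul_inv, v.ord_mul huF (inv_ne_zero hsF), v.ord_inv, h.2 u hu, h.2 s hs]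
  ring

/-- Version with the orders of `Θ u`, `Θ s` at the point `g⁻¹ • z₀`. -/
theorem ord_div' (h : IsPointPlace Θ g z₀ v m) (hΘ : IsRealize ι Θ) {u s : Rsubc L Lc} (hu : u ≠ 0)
    (hs : s ≠ 0) :
    (m : ℤ) * v.ord ((u : FFc L Lc) / (s : FFc L Lc)) =
      ((ordH (Θ u) (g⁻¹ • z₀)).toNat : ℤ) - ((ordH (Θ s) (g⁻¹ • z₀)).toNat : ℤ) := by
  rw [ord_div h hu hs, ptOrd_eq_ordH hΘ, ptOrd_eq_ordH hΘ]

end

end Fermat.Agent.DS.G.X0.PointPlacesPos
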