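/-
DS/G (generic twins), chapter G-X0 (helper53): twin of `X0/PointSurjT` (helper12's C-P1c, finite
points) at an abstract level `L : LevelData`, coefficient field `Lc` (`[CharZero Lc]`), embedding
`ι : Lc →+* ℂ` (convention of helper26's landed twins `DS/G/X0/PointPlaces*`).

Every place of `F = FFc L Lc` over `j = c` is one of the point places `pointPlaceD D z₀ c hc g`.
Input: the abstract surjectivity lemma `ValUniq.exists_eq_comap_of_sub_mem_nonunits` applied to the
`[SL(2,ℤ) : L.Gam]` Taylor embeddings `F →+* ℂ((t))`, `u ↦ Taylor series at z₀ of Θ u ∘ (rep x)⁻¹`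
(`X0/TaylorH`).

Differences with the original: the three facts which the original takes from `X0/Degree`
(`finiteDimensional_adjoin`, `card_eq_finrank_adjoin`, `mem_Gamma0_of_compSL_eq`) are HYPOTHESES
here (`[FiniteDimensional Lc⟮jFc L Lc⟯ (FFc L Lc)]`, `hcard`, `hdist`), to be discharged by the generic
`Degree` twin (`DS/G/X0/Degree`, `DegreeLc`); `IsFractionRing (Rsubc L Lc) (FFc L Lc)` is an instance
argument (generic `FracR` twin).
The level-independent first part of the original (`laurentVC`, ...) is imported, not copied.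
Same names as in the original file.
-/
import Fermat.Agent.X0.TaylorH
import Fermat.Agent.X0.ValUniq
import Fermat.Agent.X0.LaurentPlace
import Fermat.Agent.X0.PointSurjT
import Fermat.Agent.DS.G.Level
import Fermat.Agent.DS.G.X0.PointPlacesD
import Fermat.Agent.DS.G.X0.PointPlacesPos

set_option autoImplicit false
set_option linter.unusedSectionVars false

open AlgebraicCurve IntermediateField UpperHalfPlane
open scoped MatrixGroups

noncomputable section

namespace Fermat.Agent.DS.G.X0.PointSurjT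

open Fermat.Agent.X0 Fermat.Agent.DS.G.Level
open Fermat.Agent.X0.PointPlaces (compSL_inv_cancel)
open Fermat.Agent.X0.PointSurjT (laurentVC isOrderFun_orderC mem_laurentVC_of_ne_zero
  C_mem_laurentVC mem_nonunits_laurentVC)
open Fermat.Agent.DS.G.X0.PointPlaces Fermat.Agent.DS.G.X0.PointPlacesD

/-! ### The Taylor embeddings -/

variable {L : LevelData} {Lc : Type} [Field Lc] [Algebra ℚ Lc] [CharZero Lc] {ι : Lc →+* ℂ}
  [IsFractionRing (Rsubc L Lc) (FFc L Lc)] (D : RealizeDataL L Lc ι) (z₀ : ℍ)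

/-- `u ↦ Θ u ∘ g⁻¹` as a ring hom `R → HolH`. -/
def toHolH (g : SL(2, ℤ)) : Rsubc L Lc →+* HolH where
  toFun u := ⟨compSL (D.Θ u) g⁻¹, compSL_mem_HolH (D.mem_HolH u) g⁻¹⟩
  map_one' := Subtype.ext (by simp only [map_one]; rfl)
  map_mul' u v := Subtype.ext (by simp only [map_mul, compSL_mul_fun]; rfl)
  map_zero' := Subtype.ext (by simp only [map_zero]; rfl)
  map_add' u v := Subtype.ext (by simp only [map_add, compSL_add_fun]; rfl)

@[simp] theorem coe_toHolH (g : SL(2, ℤ)) (u : Rsubc L Lc) :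
    ((toHolH D g u : HolH) : ℍ → ℂ) = compSL (D.Θ u) g⁻¹ := rfl

theorem toHolH_injective (g : SL(2, ℤ)) : Function.Injective (toHolH D g) := by
  rw [injective_iff_map_eq_zero]
  intro u hu
  have h0 : compSL (D.Θ u) g⁻¹ = 0 := congrArg Subtype.val hu
  have h1 : D.Θ u = 0 := by
    rw [← compSL_inv_cancel (D.Θ u) g, h0]
    rfl
  exact (injective_iff_map_eq_zero D.Θ).mp D.injective u h1

/-- Taylor expansion at `z₀` of `Θ u ∘ g⁻¹`. -/
def rhoR (g : SL(2, ℤ)) : Rsubc L Lc →+* LaurentSeries ℂ :=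
  (TaylorH.taylorLaurent z₀).comp (toHolH D g)

theorem rhoR_injective (g : SL(2, ℤ)) : Function.Injective (rhoR D z₀ g) :=
  (TaylorH.taylorLaurent_injective z₀).comp (toHolH_injective D g)

/-- The Taylor embedding of the function field attached to `g`. -/
def sigmaF (g : SL(2, ℤ)) : FFc L Lc →+* LaurentSeries ℂ :=
  IsFractionRing.lift (rhoR_injective D z₀ g)

theorem sigmaF_coe (g : SL(2, ℤ)) (u : Rsubc L Lc) : sigmaF D z₀ g (u : FFc L Lc) = rhoR D z₀ g u :=
  IsFractionRing.lift_algebraMap (rhoR_injective D z₀ g) u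

theorem sigmaF_ne_zero (g : SL(2, ℤ)) {f : FFc L Lc} (hf : f ≠ 0) : sigmaF D z₀ g f ≠ 0 :=
  (map_ne_zero (sigmaF D z₀ g)).mpr hf

theorem order_sigmaF_coe (g : SL(2, ℤ)) {u : Rsubc L Lc} (hu : u ≠ 0) :
    (sigmaF D z₀ g (u : FFc L Lc)).order = ((ptOrd D.Θ g z₀ u).toNat : ℤ) := by
  rw [sigmaF_coe, rhoR, RingHom.comp_apply,
    TaylorH.order_taylorLaurent z₀ (fun h => hu (toHolH_injective D g (h.trans (map_zero _).symm)))]
  rfl

theorem sigmaF_const (g : SL(2, ℤ)) (c : Lc) :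
    sigmaF D z₀ g (algebraMap Lc (FFc L Lc) c) = HahnSeries.C (ι c) := by
  have h1 : algebraMap Lc (FFc L Lc) c = ((algebraMap Lc (Rsubc L Lc) c : Rsubc L Lc) : FFc L Lc) := rfl
  rw [h1, sigmaF_coe, rhoR, RingHom.comp_apply]
  have h2 : toHolH D g (algebraMap Lc (Rsubc L Lc) c) = algebraMap ℂ HolH (ι c) := by
    apply Subtype.ext
    rw [coe_toHolH, D.algebraMap_eq]
    rfl
  rw [h2, TaylorH.taylorLaurent_algebraMap]

theorem toHolH_jF (g g' : SL(2, ℤ)) :
    toHolH D g (jR L Lc) = toHolH D g' (jR L Lc) := by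
  apply Subtype.ext
  rw [coe_toHolH, coe_toHolH, (isRealize D).map_jF]
  funext z
  rw [compSL_apply, compSL_apply, jFun_smul, jFun_smul]

theorem sigmaF_jF (g g' : SL(2, ℤ)) : sigmaF D z₀ g (jFc L Lc) = sigmaF D z₀ g' (jFc L Lc) := by
  have h1 : jFc L Lc = ((jR L Lc : Rsubc L Lc) : FFc L Lc) := rfl
  rw [h1, sigmaF_coe, sigmaF_coe, rhoR, rhoR, RingHom.comp_apply, RingHom.comp_apply,
    toHolH_jF D g g']

/-- The embedding attached to a coset, via a representative. -/
def sigma (x : SL(2, ℤ) ⧸ L.Gam) : FFc L Lc →+* LaurentSeries ℂ :=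
  sigmaF D z₀ (Quotient.out x)

/-- The Taylor embeddings attached to different cosets are different (DISTINCT, analytic form, is
the hypothesis `hdist`; the original takes it from `Degree.mem_Gamma0_of_compSL_eq`). -/
theorem sigma_injective
    (hdist : ∀ γ γ' : SL(2, ℤ), (∀ u : Rsubc L Lc, compSL (D.Θ u) γ = compSL (D.Θ u) γ') →
      γ' * γ⁻¹ ∈ L.Gam) : Function.Injective (sigma D z₀) := by
  intro x y hxy
  have hu : ∀ u : Rsubc L Lc,
      compSL (D.Θ u) (Quotient.out x)⁻¹ = compSL (D.Θ u) (Quotient.out y)⁻¹ := by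
    intro u
    have h1 : sigmaF D z₀ (Quotient.out x) (u : FFc L Lc) = sigmaF D z₀ (Quotient.out y) (u : FFc L Lc) :=
      congrArg (fun φ : FFc L Lc →+* LaurentSeries ℂ => φ (u : FFc L Lc)) hxy
    rw [sigmaF_coe, sigmaF_coe, rhoR, rhoR, RingHom.comp_apply, RingHom.comp_apply] at h1
    exact congrArg Subtype.val (TaylorH.taylorLaurent_injective z₀ h1)
  have h := hdist _ _ hu
  rw [inv_inv] at h
  have h2 : (QuotientGroup.mk (Quotient.out y) : SL(2, ℤ) ⧸ L.Gam)
      = QuotientGroup.mk (Quotient.out x) := QuotientGroup.eq.mpr h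
  have hx : (QuotientGroup.mk (Quotient.out x) : SL(2, ℤ) ⧸ L.Gam) = x := Quotient.out_eq' x
  have hy : (QuotientGroup.mk (Quotient.out y) : SL(2, ℤ) ⧸ L.Gam) = y := Quotient.out_eq' y
  rw [hx, hy] at h2
  exact h2.symm

/-! ### Surjectivity -/

/-- **Surjectivity at finite points.** Every place `v` of `F` with `0 < ord_v (j - c)` is a point
place over any `z₀` with `j(z₀) = ι(c)`. -/
theorem exists_pointPlaceD_eq [FiniteDimensional Lc⟮jFc L Lc⟯ (FFc L Lc)]
    (hcard : Nat.card (SL(2, ℤ) ⧸ L.Gam) = Module.finrank Lc⟮jFc L Lc⟯ (FFc L Lc))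
    (hdist : ∀ γ γ' : SL(2, ℤ), (∀ u : Rsubc L Lc, compSL (D.Θ u) γ = compSL (D.Θ u) γ') →
      γ' * γ⁻¹ ∈ L.Gam)
    (c : Lc) (hc : jFun z₀ = ι c)
    (v : Place Lc (FFc L Lc)) (hv : 0 < v.ord (jFc L Lc - algebraMap Lc (FFc L Lc) c)) :
    ∃ g : SL(2, ℤ), pointPlaceD D z₀ c hc g = v := by
  have : Algebra.IsSeparable Lc⟮jFc L Lc⟯ (FFc L Lc) := inferInstance
  have hΘ := isRealize D
  have hjne : jFc L Lc - algebraMap Lc (FFc L Lc) c ≠ 0 := by
    intro h
    rw [h, Place.ord_zero] at hv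
    exact lt_irrefl _ hv
  have hjS : (jSub L Lc c : Rsubc L Lc) ≠ 0 := by
    intro h
    apply hjne
    rw [← coe_jSub, h]
    rfl
  have hO : jFc L Lc - algebraMap Lc (FFc L Lc) c ∈ v.toValuationSubring.nonunits := by
    rw [AbsSurj.mem_nonunits_iff_inv_notMem hjne, FF.ffp_mem_iff_ord_nonneg, Place.ord_inv]
    omega
  have hV : ∀ x : SL(2, ℤ) ⧸ L.Gam,
      sigma D z₀ x (jFc L Lc - algebraMap Lc (FFc L Lc) c) ∈ laurentVC.nonunits := by
    intro x
    show sigmaF D z₀ (Quotient.out x) _ ∈ _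
    apply mem_nonunits_laurentVC (sigmaF_ne_zero D z₀ _ hjne)
    rw [← coe_jSub, order_sigmaF_coe D z₀ _ hjS,
      ptOrd_jSub hΘ JOrderFinal.jInj _ z₀ c hc]
    have := JOrderMain.ellOrder_pos z₀
    simp only [ENat.toNat_natCast]
    exact_mod_cast this
  obtain ⟨x, hx⟩ := ValUniq.exists_eq_comap_of_sub_mem_nonunits (K := Lc) (F := FFc L Lc)
    (E := LaurentSeries ℂ) (jFc L Lc) (sigma D z₀) hcard (sigma_injective D z₀ hdist)
    (fun i j a => (sigmaF_const D z₀ _ a).trans (sigmaF_const D z₀ _ a).symm)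
    (fun i j => sigmaF_jF D z₀ _ _)
    laurentVC (fun i a => by
      show sigmaF D z₀ (Quotient.out i) _ ∈ _
      rw [sigmaF_const]; exact C_mem_laurentVC _)
    v.toValuationSubring v.algebraMap_mem' c hV hO
  refine ⟨Quotient.out x, ?_⟩
  have hP := isPointPlace_pointPlaceD D z₀ c hc (Quotient.out x)
  apply Place.ext
  ext f
  by_cases hf : f = 0
  · subst hf
    simp only [zero_mem]
  · obtain ⟨u, s, hu, hs, hfus⟩ := Fermat.Agent.X0.PointPlaces.pp_exists_div (R := Rsubc L Lc) f hf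
    have huF : (u : FFc L Lc) ≠ 0 := fun h => hu (Subtype.ext h)
    have hsF : (s : FFc L Lc) ≠ 0 := fun h => hs (Subtype.ext h)
    have hm : (0 : ℤ) < pointMultD D z₀ c hc (Quotient.out x) := by
      exact_mod_cast pointMultD_pos D z₀ c hc (Quotient.out x)
    have h1 := PointPlacesPos.ord_div hP hu hs
    rw [hx, ValuationSubring.mem_comap, FF.ffp_mem_iff_ord_nonneg]
    show 0 ≤ _ ↔ sigmaF D z₀ (Quotient.out x) f ∈ laurentVC
    rw [mem_laurentVC_of_ne_zero (sigmaF_ne_zero D z₀ _ hf), hfus, map_div₀]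
    have h2 := isOrderFun_orderC.map_div (sigmaF_ne_zero D z₀ (Quotient.out x) huF)
      (sigmaF_ne_zero D z₀ (Quotient.out x) hsF)
    rw [h2, order_sigmaF_coe D z₀ _ hu, order_sigmaF_coe D z₀ _ hs, ← h1]
    constructor
    · intro h
      exact mul_nonneg hm.le h
    · intro h
      exact nonneg_of_mul_nonneg_right h hm

end Fermat.Agent.DS.G.X0.PointSurjT
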