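/-
Programme DS (S48), chapter G-X0 (helper17): GENERAL COEFFICIENT FIELD twin of `X0/Integrality.lean`
(the `Kbar` twin is `DS/G/X0/Integrality.lean` by helper16; this file is the same for any `(Lc, ι)`)
(Program C, C-F2e (2), INTEGRALITY).

For an abstract level `L : LevelData`, a coefficient field `Lc` with an injective `ι : Lc →+* ℂ`
and an arbitrary interface pair `(D : RealizeDataL L Lc ι) (C : CuspDataL L Lc ι D)`:
the coefficients of `∏_x (X - C.T (rep x)⁻¹ u)`, `x ∈ SL(2,ℤ)/L.Gam`, `u ∈ R = Lc[generators]`,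
are polynomials in `j(q_w^w)` with coefficients in `Lc` (`w = L.w`).

The analytic lemmas of the original file (`IntgQN`, `intg_qn_*`, `intg_qn_bounded`, ...) only
depend on the width and are imported as they are; the ring of pairs, `intg_core` and the section
`Concrete` are redone for `(Lc, ι)`.  Same theorem names as in the original file.
-/
import Mathlib
import Fermat.Agent.DS.G.Level
import Fermat.Agent.DS.G.X0.Realize
import Fermat.Agent.X0.Integrality

set_option autoImplicit false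
set_option linter.unusedSectionVars false

open ModularCurve UpperHalfPlane ModularForm
open scoped Topology Manifold MatrixGroups

noncomputable section

namespace Fermat.Agent.DS.G.X0.IntegralityLc

open Fermat.Agent.X0 Fermat.Agent.X0.Analytic Fermat.Agent.X0.JQExp Polynomial
open Fermat.Agent.DS.G.Level Fermat.Agent.DS.G.X0.Realize

variable {Lc : Type} [Field Lc] [Algebra ℚ Lc] (ι : Lc →+* ℂ)

/-! ### The ring of pairs (function, expansion over `Lc`) -/

/-- Pairs of a holomorphic function and a Laurent series over `Lc` which is its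
`q_N`-expansion. -/
def intgPairs (N : ℕ) [NeZero N] : Subring ((ℍ → ℂ) × LaurentSeries Lc) where
  carrier := {a | a.1 ∈ HolH ∧ IntgQN N a.1 (toCι ι a.2)}
  mul_mem' := by
    rintro a b ⟨ha1, ha2⟩ ⟨hb1, hb2⟩
    refine ⟨HolH.mul_mem ha1 hb1, ?_⟩
    show IntgQN N (a.1 * b.1) (toCι ι (a.2 * b.2))
    rw [map_mul]
    exact intg_qn_mul N ha2 hb2
  one_mem' := by
    refine ⟨HolH.one_mem, ?_⟩
    show IntgQN N (1 : ℍ → ℂ) (toCι ι 1)
    have := intg_qn_const N 1
    rw [map_one] at this ⊢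
    exact this
  add_mem' := by
    rintro a b ⟨ha1, ha2⟩ ⟨hb1, hb2⟩
    refine ⟨HolH.add_mem ha1 hb1, ?_⟩
    show IntgQN N (a.1 + b.1) (toCι ι (a.2 + b.2))
    rw [map_add]
    exact intg_qn_add N ha2 hb2
  zero_mem' := by
    refine ⟨HolH.zero_mem, ?_⟩
    show IntgQN N (0 : ℍ → ℂ) (toCι ι 0)
    have := intg_qn_const N 0
    rw [map_zero] at this ⊢
    exact this
  neg_mem' := by
    rintro a ⟨ha1, ha2⟩
    refine ⟨HolH.neg_mem ha1, ?_⟩
    show IntgQN N (-a.1) (toCι ι (-a.2))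
    have := intg_qn_mul N (intg_qn_const N (-1)) ha2
    have hfun : (fun _ : ℍ => (-1 : ℂ)) * a.1 = -a.1 := by
      funext z
      simp
    have e : HahnSeries.C (-1 : ℂ) * toCι ι a.2 = toCι ι (-a.2) := by
      rw [map_neg, map_neg, map_one, neg_mul, one_mul]
    rw [hfun, e] at this
    exact this

/-- The formal `j` over `Lc`. -/
def jqc (Lc : Type) [Field Lc] [Algebra ℚ Lc] : LaurentSeries Lc :=
  ModularCurve.coeffEmb Lc ModularCurve.jq

theorem toCι_jqc : toCι ι (jqc Lc) = jqModC ℂ := by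
  rw [jqc, toCι_coeffEmb]
  have h1 : coeffEmb ℂ jq = jqModC ℂ := by
    rw [← jqModC_rat]
    exact map_jqModC (algebraMap ℚ ℂ)
  exact h1

theorem intg_toC_jN (N : ℕ) [NeZero N] :
    toCι ι (qExpand Lc N (jqc Lc)) = qExpand ℂ N (jqModC ℂ) := by
  rw [toCι, coeffMap_qExpand]
  congr 1
  exact toCι_jqc ι

/-- **Integrality, abstract form.** A finite family of holomorphic functions `g x` on `ℍ`,
permuted by `SL(2,ℤ)`, with `q_N`-expansions `T x` over `Lc`: the coefficients of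
`∏ (X - T x)` are polynomials over `Lc` in `j(q_N^N)`, and these polynomials evaluated at `j`
are the coefficients of `∏ (X - g x z)`. -/
theorem intg_core (hι : Function.Injective ι) (N : ℕ) [NeZero N] {κ : Type*} [Fintype κ]
    (g : κ → ℍ → ℂ)
    (T : κ → LaurentSeries Lc) (hhol : ∀ x, g x ∈ HolH)
    (hexp : ∀ x, IntgQN N (g x) (toCι ι (T x)))
    (hperm : ∀ δ : SL(2, ℤ), ∃ σ : Equiv.Perm κ, ∀ x z, g x (δ • z) = g (σ x) z) (k : ℕ) :
    ∃ p : Lc[X], (∏ x, (X - C (T x))).coeff k = aeval (qExpand Lc N (jqc Lc)) p ∧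
      ∀ z, (p.map ι).eval (jFun z) = (∏ x, (X - C (g x z))).coeff k := by
  classical
  -- the polynomial over the ring of pairs
  let a : κ → intgPairs ι N := fun x => ⟨(g x, T x), hhol x, hexp x⟩
  let Q : (intgPairs ι N)[X] := ∏ x, (X - C (a x))
  let ck : (ℍ → ℂ) × LaurentSeries Lc := (Q.coeff k : intgPairs ι N)
  have hck : ck.1 ∈ HolH ∧ IntgQN N ck.1 (toCι ι ck.2) := (Q.coeff k).2
  -- second projection
  have hsnd : ck.2 = (∏ x, (X - C (T x))).coeff k := by
    let φ : intgPairs ι N →+* LaurentSeries Lc :=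
      (RingHom.snd (ℍ → ℂ) (LaurentSeries Lc)).comp (intgPairs ι N).subtype
    have : (Q.map φ) = ∏ x, (X - C (T x)) := by
      simp only [Q, Polynomial.map_prod, Polynomial.map_sub, Polynomial.map_X, Polynomial.map_C]
      rfl
    rw [← this, Polynomial.coeff_map]
    rfl
  -- first projection, pointwise
  have hfst : ∀ z, ck.1 z = (∏ x, (X - C (g x z))).coeff k := by
    intro z
    let φ : intgPairs ι N →+* ℂ :=
      (Pi.evalRingHom (fun _ : ℍ => ℂ) z).comp
        ((RingHom.fst (ℍ → ℂ) (LaurentSeries Lc)).comp (intgPairs ι N).subtype)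
    have : (Q.map φ) = ∏ x, (X - C (g x z)) := by
      simp only [Q, Polynomial.map_prod, Polynomial.map_sub, Polynomial.map_X, Polynomial.map_C]
      rfl
    rw [← this, Polynomial.coeff_map]
    rfl
  -- invariance
  have hinv : ∀ (δ : SL(2, ℤ)) (z : ℍ), ck.1 (δ • z) = ck.1 z := by
    intro δ z
    obtain ⟨σ, hσ⟩ := hperm δ
    rw [hfst, hfst]
    congr 1
    rw [← Equiv.prod_comp σ (fun x => (X - C (g x z) : ℂ[X]))]
    refine Finset.prod_congr rfl fun x _ => ?_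
    rw [hσ]
  -- pole of finite order
  obtain ⟨M, hM⟩ := intg_qn_bounded N hck.2
  obtain ⟨P, -, hP⟩ := exists_polynomial_jFun (mem_HolH.mp hck.1) hinv M hM
  -- the expansion of `P(j)`
  have hPexp : IntgQN N ck.1 (aeval (qExpand ℂ N (jqModC ℂ)) P) := by
    have := intg_qn_eval_jFun N P
    have hfun : (fun z => P.eval (jFun z)) = ck.1 := funext fun z => (hP z).symm
    rwa [hfun] at this
  have heq : aeval (qExpand ℂ N (jqModC ℂ)) P = toCι ι ck.2 := intg_qn_unique N hPexp hck.2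
  -- rationality
  have hN : 0 < N := Nat.pos_of_ne_zero (NeZero.ne N)
  have hU0 : PowerSeries.constantCoeff (pexp N (jNum.map (Int.castRingHom ℂ))) = 1 := by
    rw [← PowerSeries.coeff_zero_eq_constantCoeff_apply, pexp, PowerSeries.coeff_mk,
      if_pos (dvd_zero N), Nat.zero_div, PowerSeries.coeff_map,
      PowerSeries.coeff_zero_eq_constantCoeff_apply, constantCoeff_jNum]
    simp
  have hU : ∀ n, PowerSeries.coeff n (pexp N (jNum.map (Int.castRingHom ℂ))) ∈ ι.range := by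
    intro n
    rw [pexp, PowerSeries.coeff_mk]
    split_ifs
    · rw [PowerSeries.coeff_map]
      exact ⟨((PowerSeries.coeff (n / N) jNum : ℤ) : Lc), by simp⟩
    · exact ι.range.zero_mem
  have hcoef : ∀ i, P.coeff i ∈ ι.range := by
    refine lor_coeff_mem_of_aeval_mem ι.range N hN _ hU0 hU P fun n => ?_
    rw [← intg_jN_eq, heq, toCι_coeff]
    exact ⟨_, rfl⟩
  obtain ⟨p, hp'⟩ : P ∈ Polynomial.lifts ι := by
    rw [Polynomial.lifts_iff_coeff_lifts]
    exact hcoef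
  have hp : p.map ι = P := hp'
  refine ⟨p, ?_, fun z => ?_⟩
  · rw [← hsnd]
    apply toCι_injective ι hι
    rw [← heq, toCι, lor_coeffMap_aeval, hp]
    have := intg_toC_jN ι N
    rw [toCι] at this
    rw [this]
  · rw [hp, ← hP, hfst]

/-! ### The concrete statement for an interface pair `(D, C)` -/

section Concrete

variable {ι}
variable (hι : Function.Injective ι) (L : LevelData) (D : RealizeDataL L Lc ι)
  (C : CuspDataL L Lc ι D)

/-- `C.T γ u` is the `q_w`-expansion of `Θ u ∘ γ`. -/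
theorem intg_T_spec (γ : SL(2, ℤ)) (u : Rsubc L Lc) :
    IntgQN L.w (compSL (D.Θ u) γ) (toCι ι (C.T γ (u : FFc L Lc))) := by
  obtain ⟨m, P, hP, hT⟩ := C.spec γ u
  rw [hT, toCι, lor_coeffMap_laurentOf]
  exact intg_qn_of_isQExp L.w hP

include hι in
/-- `C.T γ u` is determined by the `q_w`-expansion of `Θ u ∘ γ`. -/
theorem intg_T_eq_of_qn (γ : SL(2, ℤ)) (u : Rsubc L Lc) (E : LaurentSeries Lc)
    (h : IntgQN L.w (compSL (D.Θ u) γ) (toCι ι E)) : C.T γ (u : FFc L Lc) = E :=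
  toCι_injective ι hι (intg_qn_unique L.w (intg_T_spec L D C γ u) h)

include hι in
theorem intg_T_algebraMap (γ : SL(2, ℤ)) (c : Lc) :
    C.T γ (algebraMap Lc (FFc L Lc) c) = algebraMap Lc (LaurentSeries Lc) c := by
  have h1 : ((algebraMap Lc (Rsubc L Lc) c : Rsubc L Lc) : FFc L Lc)
      = algebraMap Lc (FFc L Lc) c := rfl
  rw [← h1]
  apply intg_T_eq_of_qn hι
  rw [D.algebraMap_eq, toCι_algebraMap]
  exact intg_qn_const L.w (ι c)

theorem intg_compSL_jFun (γ : SL(2, ℤ)) : compSL jFun γ = jFun := by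
  funext z
  show jFun (γ • z) = jFun z
  rw [jFun_smul]

include hι in
theorem intg_T_jF (γ : SL(2, ℤ)) : C.T γ (jFc L Lc) = qExpand Lc L.w (jqc Lc) := by
  rw [← coe_jR]
  apply intg_T_eq_of_qn hι
  rw [D.j_eq, intg_compSL_jFun, intg_toC_jN]
  exact intg_qn_jFun L.w

include hι in
/-- `C.T γ` on polynomials in `j` over `Lc`. -/
theorem intg_T_aeval_jF (γ : SL(2, ℤ)) (p : Lc[X]) :
    C.T γ (aeval (jFc L Lc) p) = aeval (qExpand Lc L.w (jqc Lc)) p := by
  rw [aeval_def, aeval_def, Polynomial.hom_eval₂, intg_T_jF hι]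
  congr 1
  refine RingHom.ext fun c => ?_
  exact intg_T_algebraMap hι L D C γ c

/-- The permutation of the cosets induced by `δ ∈ SL(2,ℤ)`. -/
theorem intg_perm (rep : SL(2, ℤ) ⧸ L.Gam → SL(2, ℤ))
    (hrep : ∀ x, (rep x : SL(2, ℤ) ⧸ L.Gam) = x) (u : Rsubc L Lc)
    (δ : SL(2, ℤ)) :
    ∃ σ : Equiv.Perm (SL(2, ℤ) ⧸ L.Gam), ∀ x z,
      compSL (D.Θ u) (rep x)⁻¹ (δ • z) = compSL (D.Θ u) (rep (σ x))⁻¹ z := by
  refine ⟨MulAction.toPerm δ⁻¹, fun x z => ?_⟩
  set a := rep x with ha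
  set b := rep ((MulAction.toPerm δ⁻¹ : Equiv.Perm _) x) with hb
  have hcoset : ((b : SL(2, ℤ)) : SL(2, ℤ) ⧸ L.Gam)
      = ((δ⁻¹ * a : SL(2, ℤ)) : SL(2, ℤ) ⧸ L.Gam) := by
    rw [hb, hrep, MulAction.toPerm_apply]
    conv_lhs => rw [← hrep x]
    rfl
  have hmem : b⁻¹ * (δ⁻¹ * a) ∈ L.Gam := QuotientGroup.eq.mp hcoset
  have hmem' : (b⁻¹ * (δ⁻¹ * a))⁻¹ ∈ L.Gam := inv_mem hmem
  have hinv := D.invariant u _ hmem'
  show D.Θ u (a⁻¹ • δ • z) = D.Θ u (b⁻¹ • z)
  have h1 : a⁻¹ • δ • z = (b⁻¹ * (δ⁻¹ * a))⁻¹ • (b⁻¹ • z) := by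
    rw [← mul_smul, ← mul_smul]
    congr 1
    group
  rw [h1]
  exact congrFun hinv (b⁻¹ • z)

include hι in
/-- **INTEGRALITY** (C-F2e (2)). For `u ∈ R = Lc[generators]` the coefficients of
`∏_x (X - T_{(rep x)⁻¹} u)`, `x ∈ SL(2,ℤ)/L.Gam`, are of the form `T_1 (p(j))`, `p ∈ Lc[X]`;
analytically `p(j(z))` is the corresponding coefficient of `∏_x (X - (Θ u)((rep x)⁻¹ z))`. -/
theorem integrality [Fintype (SL(2, ℤ) ⧸ L.Gam)]
    (rep : SL(2, ℤ) ⧸ L.Gam → SL(2, ℤ))
    (hrep : ∀ x, (rep x : SL(2, ℤ) ⧸ L.Gam) = x) (u : Rsubc L Lc) (k : ℕ) :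
    ∃ p : Lc[X],
      (∏ x, (X - Polynomial.C (C.T (rep x)⁻¹ (u : FFc L Lc)))).coeff k
        = C.T 1 (aeval (jFc L Lc) p) ∧
      ∀ z, (p.map ι).eval (jFun z)
        = (∏ x, (X - Polynomial.C (compSL (D.Θ u) (rep x)⁻¹ z))).coeff k := by
  obtain ⟨p, hp1, hp2⟩ := intg_core ι hι L.w (fun x => compSL (D.Θ u) (rep x)⁻¹)
    (fun x => C.T (rep x)⁻¹ (u : FFc L Lc)) (fun x => compSL_mem_HolH (D.mem_HolH u) _)
    (fun x => intg_T_spec L D C _ u) (intg_perm L D rep hrep u) k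
  exact ⟨p, by rw [hp1, intg_T_aeval_jF hι], hp2⟩

include hι in
/-- **Analytic norm formula.** If the product of the `T_{(rep x)⁻¹} u` is `T_1 (p(j))` then
`p(j(z))` is the product of the conjugates `(Θ u)((rep x)⁻¹ z)`. -/
theorem integrality_prod_of_eq [Fintype (SL(2, ℤ) ⧸ L.Gam)]
    (rep : SL(2, ℤ) ⧸ L.Gam → SL(2, ℤ)) (u : Rsubc L Lc) (p : Lc[X])
    (hp : ∏ x, C.T (rep x)⁻¹ (u : FFc L Lc) = C.T 1 (aeval (jFc L Lc) p)) (z : ℍ) :
    (p.map ι).eval (jFun z) = ∏ x, compSL (D.Θ u) (rep x)⁻¹ z := by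
  classical
  let a : SL(2, ℤ) ⧸ L.Gam → intgPairs ι L.w := fun x =>
    ⟨(compSL (D.Θ u) (rep x)⁻¹, C.T (rep x)⁻¹ (u : FFc L Lc)),
      compSL_mem_HolH (D.mem_HolH u) _, intg_T_spec L D C _ u⟩
  have hprod : ((∏ x, a x : intgPairs ι L.w) : (ℍ → ℂ) × LaurentSeries Lc)
      = (∏ x, compSL (D.Θ u) (rep x)⁻¹, ∏ x, C.T (rep x)⁻¹ (u : FFc L Lc)) := by
    show (intgPairs ι L.w).subtype (∏ x, a x) = _
    rw [map_prod]
    ext1
    · rw [Prod.fst_prod]
      rfl
    · rw [Prod.snd_prod]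
      rfl
  have h1 : IntgQN L.w (∏ x, compSL (D.Θ u) (rep x)⁻¹)
      (toCι ι (∏ x, C.T (rep x)⁻¹ (u : FFc L Lc))) := by
    have := (∏ x, a x : intgPairs ι L.w).2.2
    rw [hprod] at this
    exact this
  have h2 : toCι ι (∏ x, C.T (rep x)⁻¹ (u : FFc L Lc))
      = aeval (qExpand ℂ L.w (jqModC ℂ)) (p.map ι) := by
    rw [hp, intg_T_aeval_jF hι, toCι, lor_coeffMap_aeval]
    have := intg_toC_jN ι L.w
    rw [toCι] at this
    rw [this]
  rw [h2] at h1
  have h3 := intg_qn_unique_right L.w (intg_qn_eval_jFun L.w (p.map ι)) h1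
  have := congrFun h3 z
  rw [Finset.prod_apply] at this
  exact this

include hι in
/-- The shape consumed by the abstract degree lemma (ABS-DEG, HYP2). -/
theorem integrality_mem_range [Fintype (SL(2, ℤ) ⧸ L.Gam)]
    (rep : SL(2, ℤ) ⧸ L.Gam → SL(2, ℤ))
    (hrep : ∀ x, (rep x : SL(2, ℤ) ⧸ L.Gam) = x) (u : Rsubc L Lc) (k : ℕ) :
    (∏ x, (X - Polynomial.C (C.T (rep x)⁻¹ (u : FFc L Lc)))).coeff k
      ∈ Set.range (C.T 1 ∘ algebraMap (Kjc L Lc) (FFc L Lc)) := by
  obtain ⟨p, hp, -⟩ := integrality hι L D C rep hrep u k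
  have hmem : aeval (jFc L Lc) p ∈ Kjc L Lc := by
    rw [Kjc, ← IntermediateField.mem_toSubalgebra]
    have hj : jFc L Lc ∈ (IntermediateField.adjoin Lc {jFc L Lc}).toSubalgebra :=
      IntermediateField.subset_adjoin Lc {jFc L Lc} (Set.mem_singleton _)
    have hle : Algebra.adjoin Lc {jFc L Lc}
        ≤ (IntermediateField.adjoin Lc {jFc L Lc}).toSubalgebra :=
      Algebra.adjoin_le (Set.singleton_subset_iff.mpr hj)
    exact hle (Polynomial.aeval_mem_adjoin_singleton Lc (jFc L Lc))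
  exact ⟨⟨_, hmem⟩, hp.symm⟩

end Concrete

end Fermat.Agent.DS.G.X0.IntegralityLc
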