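/-
Programme DS (S48), chapter G-X0 (helper17): GENERAL COEFFICIENT FIELD twin of `X0/Degree.lean`
(Program C, piece C-F2e (3)-(5)): the degree `[F : Lc(j)] = [SL(2,ℤ) : L.Gam]`, the classification
of the embeddings, and the norm formulas, for an abstract level `L : LevelData`, a coefficient field
`Lc` with an injective `ι : Lc →+* ℂ`, and an ARBITRARY interface pair
`(D : RealizeDataL L Lc ι) (C : CuspDataL L Lc ι D)` with `hC : C.Distinct`.

This instantiates the abstract lemma `AbsDegree.main` with `X = SL(2,ℤ) ⧸ L.Gam`,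
`T x = C.T (rep x)⁻¹`, using
* `DS/G/X0/IntegralityLc` for HYP2,
* the hypothesis `hC : C.Distinct` for HYP3 (supplied by `DS/G/X0/CuspExpand.distinct_of`),
* `DS/G/X0/FracR` for `Frac R = F`,
* the transcendence of the formal `j` over `Lc` (proved here) for `FF.IsGen`.

Same theorem names as in the original file (the statements about `ψ(N)` are dropped; `Γ₀(N)`
becomes `L.Gam`).  At `Lc = ℚbar` this is the twin of helper16; at `Lc = ℂ`, `ι = id` it is the
input of G-DIM.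
-/
import Mathlib
import Fermat.Agent.DS.G.Level
import Fermat.Agent.DS.G.X0.FracR
import Fermat.Agent.DS.G.X0.IntegralityLc
import Fermat.Agent.X0.AbsDegree
import Fermat.Agent.X0.FFDefs
import Fermat.Prelude.Def_ModularCurve_X0ModL

set_option autoImplicit false
set_option linter.unusedSectionVars false
set_option linter.style.haveILetI false

open ModularCurve UpperHalfPlane
open scoped MatrixGroups IntermediateField

noncomputable section

namespace Fermat.Agent.DS.G.X0.DegreeLc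

open Fermat.Agent.X0 Fermat.Agent.DS.G.Level Fermat.Agent.DS.G.X0.Realize
  Fermat.Agent.DS.G.X0.IntegralityLc
open scoped Polynomial

/-! ### Transcendence of the formal `j` over `Lc` -/

section Transcendence

variable (Lc : Type) [Field Lc] [Algebra ℚ Lc]

/-- The formal `j` over `Lc` is the base change of the integral `q`-expansion. -/
theorem jqc_eq_jqModC : jqc Lc = jqModC Lc := by
  rw [jqc, ← jqModC_rat, coeffEmb, coeffMap_jqModC]

theorem coeff_jqc_pow_self (n : ℕ) : (jqc Lc ^ n).coeff (-(n : ℤ)) = 1 := by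
  rw [jqc_eq_jqModC]; exact coeff_jqModC_pow_self Lc n

theorem coeff_jqc_pow_of_lt {n : ℕ} {m : ℤ} (hm : m < -(n : ℤ)) : (jqc Lc ^ n).coeff m = 0 := by
  rw [jqc_eq_jqModC]; exact coeff_jqModC_pow_of_lt Lc hm

/-- The coefficient of `q^{-n}` of `p(j)` is the coefficient of `X^n` of `p`, `n = deg p`. -/
theorem coeff_aeval_jqc (p : Lc[X]) :
    (Polynomial.aeval (jqc Lc) p).coeff (-(p.natDegree : ℤ)) = p.leadingCoeff := by
  set n := p.natDegree with hn
  rw [Polynomial.aeval_def, Polynomial.eval₂_eq_sum_range, HahnSeries.coeff_sum,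
    Finset.sum_eq_single n]
  · rw [algebraMap_laurentSeries_eq_single, HahnSeries.coeff_single_zero_mul,
      coeff_jqc_pow_self, mul_one, Polynomial.leadingCoeff]
  · intro i hi hin
    have hilt : i < n := lt_of_le_of_ne (Nat.lt_succ_iff.mp (Finset.mem_range.mp hi)) hin
    rw [algebraMap_laurentSeries_eq_single, HahnSeries.coeff_single_zero_mul,
      coeff_jqc_pow_of_lt, mul_zero]
    omega
  · intro hn'
    exact absurd (Finset.self_mem_range_succ n) hn'

theorem aeval_jqc_eq_zero {p : Lc[X]} (hp : Polynomial.aeval (jqc Lc) p = 0) : p = 0 := by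
  have h := coeff_aeval_jqc Lc p
  rw [hp, HahnSeries.coeff_zero] at h
  exact Polynomial.leadingCoeff_eq_zero.mp h.symm

/-- The formal `j` is transcendental over `Lc`. -/
theorem transcendental_jqc : Transcendental Lc (jqc Lc) :=
  transcendental_iff.mpr fun _ hp => aeval_jqc_eq_zero Lc hp

variable (L : LevelData)

/-- The underlying Laurent series of `jFc L Lc` is the formal `j`. -/
theorem coe_jFc' : ((jFc L Lc : FFc L Lc) : LaurentSeries Lc) = jqc Lc := rfl

/-- `jFc L Lc` is transcendental over `Lc`. -/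
theorem transcendental_jFc : Transcendental Lc (jFc L Lc) := by
  intro halg
  apply transcendental_jqc Lc
  have := halg.algHom (IntermediateField.val (ModularCurve.laurentBaseChange Lc L.F₀))
  rw [← coe_jFc' Lc L]
  exact this

/-- `jFc L Lc - c` is nonzero for every constant `c`. -/
theorem jFc_sub_algebraMap_ne_zero (c : Lc) : jFc L Lc - algebraMap Lc (FFc L Lc) c ≠ 0 := by
  intro h
  apply transcendental_jFc Lc L
  rw [sub_eq_zero] at h
  rw [h]
  exact isAlgebraic_algebraMap c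

end Transcendence

variable {Lc : Type} [Field Lc] [Algebra ℚ Lc] {ι : Lc →+* ℂ} (hι : Function.Injective ι)
  (L : LevelData) (D : RealizeDataL L Lc ι) (C : CuspDataL L Lc ι D)

/-! ### All cusp expansion maps agree on `Lc(j)` -/

/-- The subfield of `F` on which two ring homs agree, as an intermediate field when they agree
on constants. -/
def eqLocusIF {E : Type*} [Field E] (f g : FFc L Lc →+* E)
    (h : ∀ c : Lc, f (algebraMap Lc (FFc L Lc) c) = g (algebraMap Lc (FFc L Lc) c)) :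
    IntermediateField Lc (FFc L Lc) :=
  { RingHom.eqLocusField f g with
    algebraMap_mem' := fun c => h c }

theorem mem_eqLocusIF {E : Type*} [Field E] (f g : FFc L Lc →+* E)
    (h : ∀ c : Lc, f (algebraMap Lc (FFc L Lc) c) = g (algebraMap Lc (FFc L Lc) c))
    (a : FFc L Lc) : a ∈ eqLocusIF L f g h ↔ f a = g a := Iff.rfl

include hι in
/-- Two cusp expansion maps agree on `Lc(j)`. -/
theorem T_eq_on_Kj (γ γ' : SL(2, ℤ)) (a : Kjc L Lc) :
    C.T γ (a : FFc L Lc) = C.T γ' (a : FFc L Lc) := by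
  have hc : ∀ c : Lc, C.T γ (algebraMap Lc (FFc L Lc) c) = C.T γ' (algebraMap Lc (FFc L Lc) c) :=
    fun c => by rw [intg_T_algebraMap hι, intg_T_algebraMap hι]
  have hle : Kjc L Lc ≤ eqLocusIF L (C.T γ) (C.T γ') hc := by
    rw [Kjc, IntermediateField.adjoin_le_iff]
    intro x hx
    rw [Set.mem_singleton_iff] at hx
    subst hx
    show C.T γ (jFc L Lc) = C.T γ' (jFc L Lc)
    rw [intg_T_jF hι, intg_T_jF hι]
  exact hle a.2

/-! ### The hypotheses of `AbsDegree.main` -/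

section Rep

variable (hC : C.Distinct) (rep : SL(2, ℤ) ⧸ L.Gam → SL(2, ℤ))
  (hrep : ∀ x, (rep x : SL(2, ℤ) ⧸ L.Gam) = x)

/-- The family of embeddings `x ↦ C.T (rep x)⁻¹`. -/
def Tx (x : SL(2, ℤ) ⧸ L.Gam) : FFc L Lc →+* LaurentSeries Lc :=
  C.T (rep x)⁻¹

theorem Tx_apply (x : SL(2, ℤ) ⧸ L.Gam) (f : FFc L Lc) :
    Tx L D C rep x f = C.T (rep x)⁻¹ f := rfl

include hC hrep in
/-- **HYP3**: the embeddings `C.T (rep x)⁻¹` are pairwise distinct. -/
theorem Tx_injective : Function.Injective (Tx L D C rep) := by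
  intro x y h
  have hmem := hC (rep x)⁻¹ (rep y)⁻¹ h
  rw [inv_inv] at hmem
  have := QuotientGroup.eq.mpr hmem
  rw [hrep, hrep] at this
  exact this.symm

include hC hrep in
/-- consumer form of **HYP3**. -/
theorem T_rep_inv_injective :
    Function.Injective (fun x : SL(2, ℤ) ⧸ L.Gam => C.T (rep x)⁻¹) :=
  Tx_injective L D C hC rep hrep

include hι in
/-- **HYP1**. -/
theorem Tx_agree (x x₀ : SL(2, ℤ) ⧸ L.Gam) (a : Kjc L Lc) :
    Tx L D C rep x (a : FFc L Lc) = Tx L D C rep x₀ (a : FFc L Lc) :=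
  T_eq_on_Kj hι L D C _ _ a

include hι hrep in
/-- **HYP2**. -/
theorem Tx_coeff [Fintype (SL(2, ℤ) ⧸ L.Gam)]
    (x₀ : SL(2, ℤ) ⧸ L.Gam) (u : Rsubc L Lc) (k : ℕ) :
    ∃ a : Kjc L Lc, Tx L D C rep x₀ (a : FFc L Lc)
      = (∏ x, (Polynomial.X - Polynomial.C (Tx L D C rep x (u : FFc L Lc)))).coeff k := by
  obtain ⟨a, ha⟩ := integrality_mem_range hι L D C rep hrep u k
  refine ⟨a, ?_⟩
  rw [Tx_apply, T_eq_on_Kj hι L D C (rep x₀)⁻¹ 1 a]
  exact ha

include hι hC hrep in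
/-- `AbsDegree.main` instantiated (degree, norm, trace). -/
theorem main_inst [Fintype (SL(2, ℤ) ⧸ L.Gam)]
    (x₀ : SL(2, ℤ) ⧸ L.Gam) :
    FiniteDimensional (Kjc L Lc) (FFc L Lc) ∧
      Module.finrank (Kjc L Lc) (FFc L Lc) = Fintype.card (SL(2, ℤ) ⧸ L.Gam) ∧
      (∀ f : FFc L Lc,
        Tx L D C rep x₀ (algebraMap (Kjc L Lc) (FFc L Lc) (Algebra.norm (Kjc L Lc) f))
          = ∏ x, Tx L D C rep x f) ∧
      (∀ f : FFc L Lc,
        Tx L D C rep x₀ (algebraMap (Kjc L Lc) (FFc L Lc)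
          (Algebra.trace (Kjc L Lc) (FFc L Lc) f)) = ∑ x, Tx L D C rep x f) := by
  haveI : CharZero Lc := algebraRat.charZero Lc
  have h := AbsDegree.main.{0, 0, 0, 0, 0} (K := Lc) (F := FFc L Lc) (L := LaurentSeries Lc)
    (R := Rsubc L Lc) (Kj := Kjc L Lc) (T := Tx L D C rep) (x₀ := x₀)
    (fun x a => Tx_agree hι L D C rep x x₀ a)
    (fun u k => Tx_coeff hι L D C rep hrep x₀ u k)
    (Tx_injective L D C hC rep hrep)
  exact ⟨h.1, h.2.1, h.2.2.1, h.2.2.2.1⟩

include hι hC hrep in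
/-- `AbsDegree.main` instantiated (classification of embeddings). -/
theorem main_classify [Fintype (SL(2, ℤ) ⧸ L.Gam)]
    (x₀ : SL(2, ℤ) ⧸ L.Gam)
    {E : Type*} [Field E] (φ : LaurentSeries Lc →+* E) (τ : FFc L Lc →+* E)
    (hτ : ∀ a : Kjc L Lc, τ (a : FFc L Lc) = φ (Tx L D C rep x₀ (a : FFc L Lc))) :
    ∃ x, ∀ f : FFc L Lc, τ f = φ (Tx L D C rep x f) :=
  haveI : CharZero Lc := algebraRat.charZero Lc
  (AbsDegree.main (K := Lc) (F := FFc L Lc) (L := LaurentSeries Lc) (R := Rsubc L Lc)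
    (Kj := Kjc L Lc) (T := Tx L D C rep) (x₀ := x₀)
    (fun x a => Tx_agree hι L D C rep x x₀ a)
    (fun u k => Tx_coeff hι L D C rep hrep x₀ u k)
    (Tx_injective L D C hC rep hrep)).2.2.2.2 φ τ hτ

end Rep

/-! ### Exports -/

/-- The canonical section `Quotient.out`. -/
def rep (x : SL(2, ℤ) ⧸ L.Gam) : SL(2, ℤ) := Quotient.out x

theorem rep_spec (x : SL(2, ℤ) ⧸ L.Gam) :
    (rep L x : SL(2, ℤ) ⧸ L.Gam) = x :=
  QuotientGroup.out_eq' x

section Exports

variable (hC : C.Distinct)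

include hι D C hC in
/-- **C-F2e (3)**: `F` is finite over `Lc(j)`. -/
theorem finiteDimensional : FiniteDimensional (Kjc L Lc) (FFc L Lc) := by
  haveI : Fintype (SL(2, ℤ) ⧸ L.Gam) := Fintype.ofFinite _
  exact (main_inst hι L D C hC (rep L) (rep_spec L) (1 : SL(2, ℤ))).1

include hι D C hC in
/-- **C-F2e (3)**: `[F : Lc(j)] = #(SL(2,ℤ) ⧸ L.Gam)`. -/
theorem card_eq_finrank :
    Nat.card (SL(2, ℤ) ⧸ L.Gam) = Module.finrank (Kjc L Lc) (FFc L Lc) := by
  haveI : Fintype (SL(2, ℤ) ⧸ L.Gam) := Fintype.ofFinite _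
  rw [(main_inst hι L D C hC (rep L) (rep_spec L) (1 : SL(2, ℤ))).2.1, Nat.card_eq_fintype_card]

include hι D C hC in
/-- **C-F2e (3)**: `[F : Lc(j)] = [SL(2,ℤ) : L.Gam]`. -/
theorem finrank_Kj : Module.finrank (Kjc L Lc) (FFc L Lc) = L.Gam.index := by
  rw [← card_eq_finrank hι L D C hC, Subgroup.index]

include hι D C hC in
/-- the same with the field written as `Lc⟮j⟯`. -/
theorem finiteDimensional_adjoin : FiniteDimensional Lc⟮jFc L Lc⟯ (FFc L Lc) :=
  finiteDimensional hι L D C hC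

include hι D C hC in
theorem finrank_adjoin : Module.finrank Lc⟮jFc L Lc⟯ (FFc L Lc) = L.Gam.index :=
  finrank_Kj hι L D C hC

include hι D C hC in
theorem card_eq_finrank_adjoin :
    Nat.card (SL(2, ℤ) ⧸ L.Gam) = Module.finrank Lc⟮jFc L Lc⟯ (FFc L Lc) :=
  card_eq_finrank hι L D C hC

include hι D C hC in
/-- `j` is a transcendental generator of `F / Lc`. -/
theorem isGen_jF : FF.IsGen Lc (jFc L Lc) :=
  ⟨transcendental_jFc Lc L, finiteDimensional_adjoin hι L D C hC⟩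

include hι D C hC in
/-- `F / Lc(j)` is separable (characteristic zero). -/
theorem isSeparable_adjoin : Algebra.IsSeparable Lc⟮jFc L Lc⟯ (FFc L Lc) := by
  haveI := finiteDimensional_adjoin hι L D C hC
  haveI : CharZero Lc := algebraRat.charZero Lc
  haveI : CharZero Lc⟮jFc L Lc⟯ :=
    charZero_of_injective_algebraMap (algebraMap Lc Lc⟮jFc L Lc⟯).injective
  infer_instance

include hι hC in
/-- DISTINCT in analytic form: if all `Θ u ∘ γ = Θ u ∘ γ'` then `γ' γ⁻¹ ∈ L.Gam`. -/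
theorem mem_Gam_of_compSL_eq (γ γ' : SL(2, ℤ))
    (h : ∀ u : Rsubc L Lc, compSL (D.Θ u) γ = compSL (D.Θ u) γ') :
    γ' * γ⁻¹ ∈ L.Gam := by
  apply hC γ γ'
  apply IsLocalization.ringHom_ext (nonZeroDivisors (Rsubc L Lc))
  refine RingHom.ext fun u => ?_
  show C.T γ (u : FFc L Lc) = C.T γ' (u : FFc L Lc)
  apply intg_T_eq_of_qn hι
  rw [h]
  exact intg_T_spec L D C γ' _

end Exports

section Rep2

variable (hC : C.Distinct) (rep : SL(2, ℤ) ⧸ L.Gam → SL(2, ℤ))
  (hrep : ∀ x, (rep x : SL(2, ℤ) ⧸ L.Gam) = x)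

include hι hC hrep in
/-- **C-F2e (5)**, formal norm formula: `T_1 (N_{F/Lc(j)} f) = ∏_x T_{(rep x)⁻¹} f`. -/
theorem norm_formula [Fintype (SL(2, ℤ) ⧸ L.Gam)] (f : FFc L Lc) :
    C.T 1 (algebraMap (Kjc L Lc) (FFc L Lc) (Algebra.norm (Kjc L Lc) f))
      = ∏ x, C.T (rep x)⁻¹ f := by
  exact (T_eq_on_Kj hι L D C 1 _ (Algebra.norm (Kjc L Lc) f)).trans
    ((main_inst hι L D C hC rep hrep (1 : SL(2, ℤ))).2.2.1 f)

include hι hC hrep in
/-- formal trace formula. -/
theorem trace_formula [Fintype (SL(2, ℤ) ⧸ L.Gam)] (f : FFc L Lc) :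
    C.T 1 (algebraMap (Kjc L Lc) (FFc L Lc) (Algebra.trace (Kjc L Lc) (FFc L Lc) f))
      = ∑ x, C.T (rep x)⁻¹ f := by
  exact (T_eq_on_Kj hι L D C 1 _ (Algebra.trace (Kjc L Lc) (FFc L Lc) f)).trans
    ((main_inst hι L D C hC rep hrep (1 : SL(2, ℤ))).2.2.2 f)

include hι hC hrep in
/-- **C-F2e (4)**, classification of the embeddings of `F` over `Lc(j)`: every ring hom
`τ : F → E` which agrees with `φ ∘ T_1` on `Lc(j)` is `φ ∘ T_{(rep x)⁻¹}` for some `x`. -/
theorem exists_eq_T {E : Type*} [Field E] (φ : LaurentSeries Lc →+* E) (τ : FFc L Lc →+* E)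
    (hτ : ∀ a : Kjc L Lc, τ (a : FFc L Lc) = φ (C.T 1 (a : FFc L Lc))) :
    ∃ x : SL(2, ℤ) ⧸ L.Gam, ∀ f : FFc L Lc, τ f = φ (C.T (rep x)⁻¹ f) := by
  haveI : Fintype (SL(2, ℤ) ⧸ L.Gam) := Fintype.ofFinite _
  refine main_classify hι L D C hC rep hrep (1 : SL(2, ℤ)) φ τ fun a => ?_
  rw [hτ a, Tx_apply, T_eq_on_Kj hι L D C 1 (rep ((1 : SL(2, ℤ)) :
    SL(2, ℤ) ⧸ L.Gam))⁻¹ a]

include hι hC hrep in
/-- **C-F2e (5)**, analytic norm formula: for `u ∈ R` the norm of `u` is a POLYNOMIAL `p(j)`,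
`p ∈ Lc[X]`, and `p(j(z)) = ∏_x (Θ u)((rep x)⁻¹ z)`. -/
theorem norm_formula_analytic [Fintype (SL(2, ℤ) ⧸ L.Gam)] (u : Rsubc L Lc) :
    ∃ p : Lc[X],
      algebraMap (Kjc L Lc) (FFc L Lc) (Algebra.norm (Kjc L Lc) (u : FFc L Lc))
        = Polynomial.aeval (jFc L Lc) p ∧
      ∀ z, (p.map ι).eval (jFun z) = ∏ x, compSL (D.Θ u) (rep x)⁻¹ z := by
  obtain ⟨p, hp, -⟩ := integrality hι L D C rep hrep u 0
  set n := Fintype.card (SL(2, ℤ) ⧸ L.Gam) with hn
  have h0 : (∏ x, (Polynomial.X - Polynomial.C (C.T (rep x)⁻¹ (u : FFc L Lc)))).coeff 0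
      = (-1) ^ n * ∏ x, C.T (rep x)⁻¹ (u : FFc L Lc) := by
    rw [Polynomial.coeff_zero_eq_eval_zero, Polynomial.eval_prod]
    simp only [Polynomial.eval_sub, Polynomial.eval_X, Polynomial.eval_C, zero_sub]
    rw [Finset.prod_neg, Finset.card_univ]
  have hprod : ∏ x, C.T (rep x)⁻¹ (u : FFc L Lc)
      = C.T 1 (Polynomial.aeval (jFc L Lc) (Polynomial.C ((-1 : Lc) ^ n) * p)) := by
    rw [map_mul, map_mul, Polynomial.aeval_C, ← hp, h0, map_pow, map_neg, map_one, map_pow, map_neg,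
      map_one, ← mul_assoc, ← mul_pow]
    norm_num
  refine ⟨Polynomial.C ((-1 : Lc) ^ n) * p, ?_, fun z => ?_⟩
  · apply (C.T 1).injective
    rw [norm_formula hι L D C hC rep hrep, hprod]
  · exact integrality_prod_of_eq hι L D C rep u _ hprod z

include hι hC hrep in
/-- variant of the analytic norm formula recording `p ≠ 0` for `u ≠ 0`. -/
theorem norm_formula_analytic_ne_zero [Fintype (SL(2, ℤ) ⧸ L.Gam)]
    (u : Rsubc L Lc) (hu : u ≠ 0) :
    ∃ p : Lc[X], p ≠ 0 ∧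
      algebraMap (Kjc L Lc) (FFc L Lc) (Algebra.norm (Kjc L Lc) (u : FFc L Lc))
        = Polynomial.aeval (jFc L Lc) p ∧
      ∀ z, (p.map ι).eval (jFun z) = ∏ x, compSL (D.Θ u) (rep x)⁻¹ z := by
  obtain ⟨p, hp, hpz⟩ := norm_formula_analytic hι L D C hC rep hrep u
  refine ⟨p, ?_, hp, hpz⟩
  rintro rfl
  haveI := finiteDimensional hι L D C hC
  rw [map_zero] at hp
  have h0 : Algebra.norm (Kjc L Lc) (u : FFc L Lc) = 0 := by
    apply (algebraMap (Kjc L Lc) (FFc L Lc)).injective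
    rw [hp, map_zero]
  rw [Algebra.norm_eq_zero_iff] at h0
  exact hu (Subtype.ext h0)

end Rep2

/-! ### Non-vanishing at points with transcendental `j`-value -/

section NonVanishing

variable (hC : C.Distinct)

include hι hC in
/-- If `j(z₀)` is not a root of any nonzero polynomial over `ι Lc` then no nonzero element of `R`
vanishes at any `SL(2,ℤ)`-translate of `z₀`. -/
theorem compSL_Θ_ne_zero_of_transcendental (s : Rsubc L Lc) (hs : s ≠ 0) (z₀ : ℍ)
    (hz : ∀ p : Lc[X], p ≠ 0 → (p.map ι).eval (jFun z₀) ≠ 0) (γ : SL(2, ℤ)) :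
    compSL (D.Θ s) γ z₀ ≠ 0 := by
  classical
  haveI : Fintype (SL(2, ℤ) ⧸ L.Gam) := Fintype.ofFinite _
  -- a section passing through `γ⁻¹`
  let x₁ : SL(2, ℤ) ⧸ L.Gam := ((γ⁻¹ : SL(2, ℤ)) : _)
  let r : SL(2, ℤ) ⧸ L.Gam → SL(2, ℤ) :=
    Function.update (rep L) x₁ γ⁻¹
  have hr : ∀ x, (r x : SL(2, ℤ) ⧸ L.Gam) = x := by
    intro x
    by_cases hx : x = x₁
    · subst hx
      simp only [r, Function.update_self]
      rfl
    · simp only [r, Function.update_of_ne hx]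
      exact rep_spec L x
  obtain ⟨p, hp0, -, hpz⟩ := norm_formula_analytic_ne_zero hι L D C hC r hr s hs
  intro h0
  apply hz p hp0
  have hprod : ∏ x, compSL (D.Θ s) (r x)⁻¹ z₀ = 0 := by
    refine Finset.prod_eq_zero (Finset.mem_univ x₁) ?_
    have : r x₁ = γ⁻¹ := by simp only [r, Function.update_self]
    rw [this, inv_inv]
    exact h0
  rw [hpz, hprod]

include hι hC in
/-- algebraically closed coefficient field: if `j(z₀) ∉ ι(Lc)` then no nonzero element of `R`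
vanishes at any `SL(2,ℤ)`-translate of `z₀`. -/
theorem compSL_Θ_ne_zero_of_not_mem_range [IsAlgClosed Lc] (s : Rsubc L Lc) (hs : s ≠ 0) (z₀ : ℍ)
    (hz : jFun z₀ ∉ Set.range ι) (γ : SL(2, ℤ)) : compSL (D.Θ s) γ z₀ ≠ 0 := by
  refine compSL_Θ_ne_zero_of_transcendental hι L D C hC s hs z₀ (fun p hp0 h0 => hz ?_) γ
  have hroot : (p.map ι).IsRoot (jFun z₀) := h0
  exact (IsAlgClosed.splits p).mem_range_of_isRoot hp0 hroot

include hι hC in
/-- **(LOW) (iii)**: if `j(z₀)` is transcendental over `ι Lc` then `Θ s` does not vanish at `z₀`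
for `s ≠ 0`. -/
theorem Θ_ne_zero_of_transcendental (s : Rsubc L Lc) (hs : s ≠ 0) (z₀ : ℍ)
    (hz : ∀ p : Lc[X], p ≠ 0 → (p.map ι).eval (jFun z₀) ≠ 0) : D.Θ s z₀ ≠ 0 := by
  have h := compSL_Θ_ne_zero_of_transcendental hι L D C hC s hs z₀ hz 1
  have h1 : compSL (D.Θ s) 1 z₀ = D.Θ s z₀ := by
    show D.Θ s ((1 : SL(2, ℤ)) • z₀) = D.Θ s z₀
    rw [one_smul]
  rwa [h1] at h

end NonVanishing

end Fermat.Agent.DS.G.X0.DegreeLc
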