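/-
Programme DS (S48), chapter G-X0 (helper29): generic twin of `X0/CuspSurj` (C-P1c, cusp half).

For an abstract level `L : LevelData`, a coefficient field `Lc` with an injective `ι : Lc →+* ℂ`, and
an interface pair `(D : RealizeDataL L Lc ι) (C : CuspDataL L Lc ι D)` with `hC : C.Distinct`:
every place of `F = FFc L Lc` over `j = ∞` is one of the cusp places `cuspPlace (good C) g`.

Input: the abstract surjectivity lemma `ValUniq.exists_eq_comap_of_notMem` applied to the
`[SL(2,ℤ) : L.Gam]` embeddings `C.T (rep x)⁻¹ : F →+* Lc((q_w))`, pairwise distinct by `hC`; the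
degree `[F : Lc(j)] = #(SL(2,ℤ) ⧸ L.Gam)` and separability are `DS/G/X0/DegreeLc` (helper17).

Same theorem names as the original.  `placeInputs` discharges the structure
`DS/G/PUR/HorizUnram20.PlaceInputs` at `Lc = ℚbar` (see `DS/G/PUR/PlaceInputsOf`).
-/
import Fermat.Agent.DS.G.X0.CuspPlaces
import Fermat.Agent.DS.G.X0.CuspGood
import Fermat.Agent.DS.G.X0.DegreeLc
import Fermat.Agent.X0.ValUniq

set_option autoImplicit false
set_option linter.unusedSectionVars false
set_option linter.style.haveILetI false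

open AlgebraicCurve IntermediateField
open scoped MatrixGroups

noncomputable section

namespace Fermat.Agent.DS.G.X0.CuspSurj

open Fermat.Agent.X0 Fermat.Agent.DS.G.Level Fermat.Agent.DS.G.X0.CuspPlaces

/-! ### The valuation subring of `Lc((q))` -/

section Laurent

variable (Lc : Type) [Field Lc]

theorem algebraMap_laurent (c : Lc) :
    (RingHom.id (LaurentSeries Lc)) (algebraMap Lc (LaurentSeries Lc) c) =
      HahnSeries.C c := by
  rw [RingHom.id_apply, ModularCurve.algebraMap_laurentSeries_eq_single]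
  rfl

/-- The order function of `Lc((q))`. -/
theorem isOrderFun_order :
    FF.IsOrderFun Lc (fun f : LaurentSeries Lc => f.order) :=
  LaurentPlace.isOrderFun_embOrd (RingHom.id (LaurentSeries Lc)) (algebraMap_laurent Lc)

/-- The valuation subring `{f | f = 0 ∨ 0 ≤ order f}` of `Lc((q))`. -/
def laurentV : ValuationSubring (LaurentSeries Lc) := (isOrderFun_order Lc).valuationSubring

variable {Lc}

theorem mem_laurentV {f : LaurentSeries Lc} : f ∈ laurentV Lc ↔ f = 0 ∨ 0 ≤ f.order :=
  Iff.rfl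

theorem mem_laurentV_of_ne_zero {f : LaurentSeries Lc} (hf : f ≠ 0) :
    f ∈ laurentV Lc ↔ 0 ≤ f.order :=
  (isOrderFun_order Lc).mem_valuationSubring_of_ne_zero hf

theorem C_mem_laurentV (c : Lc) : HahnSeries.C c ∈ laurentV Lc := by
  by_cases hc : c = 0
  · left; simp [hc]
  · right
    show 0 ≤ (HahnSeries.C c : LaurentSeries Lc).order
    rw [HahnSeries.order_C]

end Laurent

/-! ### Surjectivity -/

variable {L : LevelData} {Lc : Type} [Field Lc] [Algebra ℚ Lc] {ι : Lc →+* ℂ}
  (hι : Function.Injective ι) {D : RealizeDataL L Lc ι} (C : CuspDataL L Lc ι D)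

/-- The embedding attached to a coset `x`, via a representative. -/
def sigma (x : SL(2, ℤ) ⧸ L.Gam) : FFc L Lc →+* LaurentSeries Lc :=
  C.T (Quotient.out x)⁻¹

theorem sigma_injective (hC : C.Distinct) : Function.Injective (sigma C) := by
  intro x y hxy
  have h := hC _ _ hxy
  rw [inv_inv] at h
  have h2 : (QuotientGroup.mk (Quotient.out y) : SL(2, ℤ) ⧸ L.Gam)
      = QuotientGroup.mk (Quotient.out x) := QuotientGroup.eq.mpr h
  have hx : (QuotientGroup.mk (Quotient.out x) : SL(2, ℤ) ⧸ L.Gam) = x := Quotient.out_eq' x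
  have hy : (QuotientGroup.mk (Quotient.out y) : SL(2, ℤ) ⧸ L.Gam) = y := Quotient.out_eq' y
  rw [hx, hy] at h2
  exact h2.symm

include hι in
/-- **Surjectivity at the cusps.** Every place `v` of `F` with `ord_v j < 0` is a cusp place. -/
theorem exists_cuspPlace_eq (hC : C.Distinct)
    (v : Place Lc (FFc L Lc)) (hv : v.ord (jFc L Lc) < 0) :
    ∃ g : SL(2, ℤ), cuspPlace (Fermat.Agent.DS.G.X0.CuspGood.good C) g = v := by
  have hG := Fermat.Agent.DS.G.X0.CuspGood.good C
  haveI : FiniteDimensional Lc⟮jFc L Lc⟯ (FFc L Lc) :=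
    DegreeLc.finiteDimensional_adjoin hι L D C hC
  haveI : Algebra.IsSeparable Lc⟮jFc L Lc⟯ (FFc L Lc) := DegreeLc.isSeparable_adjoin hι L D C hC
  have hcard := DegreeLc.card_eq_finrank_adjoin hι L D C hC
  have hN : (0 : ℤ) < L.w := by exact_mod_cast Nat.pos_of_ne_zero (NeZero.ne L.w)
  have hO : jFc L Lc ∉ v.toValuationSubring := by
    rw [FF.ffp_mem_iff_ord_nonneg]
    omega
  have hV : ∀ x : SL(2, ℤ) ⧸ L.Gam, sigma C x (jFc L Lc) ∉ laurentV Lc := by
    intro x
    have hne : sigma C x (jFc L Lc) ≠ 0 := LaurentPlace.emb_ne_zero _ hG.jF_ne_zero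
    rw [mem_laurentV_of_ne_zero hne, sigma, hG.order_jF]
    omega
  obtain ⟨x, hx⟩ := ValUniq.exists_eq_comap_of_notMem (K := Lc) (F := FFc L Lc)
    (E := LaurentSeries Lc) (jFc L Lc) (sigma C) hcard (sigma_injective C hC)
    (fun i j a => by rw [sigma, sigma, hG.map_const, hG.map_const])
    (fun i j => by rw [sigma, sigma, hG.map_jF, hG.map_jF])
    (laurentV Lc) (fun i a => by rw [sigma, hG.map_const]; exact C_mem_laurentV a)
    v.toValuationSubring v.algebraMap_mem' hV hO
  refine ⟨Quotient.out x, ?_⟩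
  apply Place.ext
  ext f
  by_cases hf : f = 0
  · subst hf
    simp only [zero_mem]
  · rw [mem_cuspPlace_iff hG _ hf, hx, ValuationSubring.mem_comap,
      mem_laurentV_of_ne_zero (LaurentPlace.emb_ne_zero _ hf)]
    rfl

include hι in
/-- Coset form: `cuspPlaceX` is onto the places over `∞`. -/
theorem exists_cuspPlaceX_eq (hC : C.Distinct)
    (v : Place Lc (FFc L Lc)) (hv : v.ord (jFc L Lc) < 0) :
    ∃ x : SL(2, ℤ) ⧸ L.Gam, cuspPlaceX (Fermat.Agent.DS.G.X0.CuspGood.good C) x = v := by
  obtain ⟨g, hg⟩ := exists_cuspPlace_eq hι C hC v hv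
  exact ⟨QuotientGroup.mk g, by rw [CuspPlaces.cuspPlaceX_mk, hg]⟩

end Fermat.Agent.DS.G.X0.CuspSurj
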