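/-
DS/G (generic twins), chapter G-X0 (helper53): the surjectivity statements with ALL inputs
discharged, for an abstract level `L : LevelData`, a coefficient field `Lc`, an INJECTIVE
`ι : Lc →+* ℂ`, and an arbitrary interface pair `(D : RealizeDataL L Lc ι) (C : CuspDataL L Lc ι D)`
with `hC : C.Distinct`:

* `exists_pointPlaceD_eq` : every place over `j = c` is a point place
  (`PointSurjT.exists_pointPlaceD_eq` + `DegreeLc`),
* `surjP : HasCanDiv.SurjP D`, `surjC : S24G.SurjC (CuspGood.good C)` (helper29's `CuspSurj`),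
* `unramified`, `hasCanonicalDivisor_FF`, `diffHyp_FF` (helper46's `HasCanDiv` twin, closed),
* `degree_canonical_add_orbits` : DIM-3 (helper46's `S24G.degree_canonical_add_orbits_L'`) with no
  hypothesis left besides `hι`, `hC`.

Twin of the assembly part of `Fermat/Agent/S24.lean`.
-/
import Fermat.Agent.DS.G.X0.PointSurjT
import Fermat.Agent.DS.G.X0.CuspSurj
import Fermat.Agent.DS.G.X0.DegreeLc
import Fermat.Agent.DS.G.X0.FracR
import Fermat.Agent.DS.G.X0.HasCanDiv
import Fermat.Agent.DS.G.Dim.S24G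

set_option autoImplicit false
set_option linter.unusedSectionVars false

open AlgebraicCurve IntermediateField UpperHalfPlane MulAction Subgroup ModularGroup
  KaehlerDifferential
open scoped MatrixGroups

noncomputable section

namespace Fermat.Agent.DS.G.X0.SurjInst

open Fermat.Agent.X0 Fermat.Agent.X0.FF Fermat.Agent.DS.G.Level
open Fermat.Agent.DS.G.X0.PointPlaces Fermat.Agent.DS.G.X0.PointPlacesD
open Fermat.Agent.DS.G.X0.HasCanDiv Fermat.Agent.DS.G.Dim.S24G

variable {Lc : Type} [Field Lc] [Algebra ℚ Lc] {ι : Lc →+* ℂ} (hι : Function.Injective ι)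
  (L : LevelData) (D : RealizeDataL L Lc ι) (C : CuspDataL L Lc ι D) (hC : C.Distinct)

include hι C hC in
/-- **Surjectivity at finite points**, all inputs discharged. -/
theorem exists_pointPlaceD_eq (z₀ : ℍ) (c : Lc) (hc : jFun z₀ = ι c)
    (v : Place Lc (FFc L Lc)) (hv : 0 < v.ord (jFc L Lc - algebraMap Lc (FFc L Lc) c)) :
    ∃ g : SL(2, ℤ), pointPlaceD D z₀ c hc g = v := by
  haveI : CharZero Lc := algebraRat.charZero Lc
  haveI : FiniteDimensional Lc⟮jFc L Lc⟯ (FFc L Lc) :=
    DegreeLc.finiteDimensional_adjoin hι L D C hC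
  exact PointSurjT.exists_pointPlaceD_eq D z₀ (DegreeLc.card_eq_finrank_adjoin hι L D C hC)
    (DegreeLc.mem_Gam_of_compSL_eq hι L D C hC) c hc v hv

include hι C hC in
/-- The hypothesis `SurjP` of the `HasCanDiv` / `S24G` twins. -/
theorem surjP : SurjP D :=
  fun z₀ c hc v hv => exists_pointPlaceD_eq hι L D C hC z₀ c hc v hv

include hι hC in
/-- The hypothesis `SurjC` of the `S24G` twin. -/
theorem surjC : SurjC (Fermat.Agent.DS.G.X0.CuspGood.good C) :=
  fun v hv => CuspSurj.exists_cuspPlace_eq hι C hC v hv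

include hι C hC in
/-- `j` is unramified over every `c ∉ {0, 1728}`. -/
theorem unramified (c : Lc) (hc : c ≠ 0 ∧ c ≠ 1728) (v : Place Lc (FFc L Lc))
    (hv : 0 < v.ord (jFc L Lc - algebraMap Lc (FFc L Lc) c)) :
    v.ord (jFc L Lc - algebraMap Lc (FFc L Lc) c) = 1 :=
  unramified_of_surj hι D (surjP hι L D C hC) c hc v hv

section AlgClosed

variable [IsAlgClosed Lc]

include hι C hC in
/-- The real `HasCanonicalDivisor` for `FFc L Lc` over `Lc`. -/
theorem hasCanonicalDivisor_FF : HasCanonicalDivisor (K := Lc) (F := FFc L Lc) := by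
  haveI : CharZero Lc := algebraRat.charZero Lc
  exact HasCanDiv.hasCanonicalDivisor_FF hι D (DegreeLc.isGen_jF hι L D C hC)
    (surjP hι L D C hC)

include hι C hC in
/-- `DiffHyp` for `FFc L Lc` over `Lc`. -/
theorem diffHyp_FF : Fermat.Agent.RR.Duality.DiffHyp Lc (FFc L Lc) := by
  haveI : CharZero Lc := algebraRat.charZero Lc
  exact HasCanDiv.diffHyp_FF hι D (DegreeLc.isGen_jF hι L D C hC) (surjP hι L D C hC)

include hι D C hC in
/-- The genus hypothesis bundle for `FFc L Lc`. -/
theorem genusHyp_FF : GenusHyp Lc (jFc L Lc) := by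
  haveI : CharZero Lc := algebraRat.charZero Lc
  exact HasCanDiv.genusHyp_FF (DegreeLc.isGen_jF hι L D C hC)

include hι hC in
/-- **DIM-3 (Riemann–Hurwitz for `j : X_L → ℙ¹`, orbit form)**, all inputs discharged. -/
theorem degree_canonical_add_orbits
    {ω : Ω[FFc L Lc⁄Lc]} (hω : ω ≠ 0) (W : Divisor Lc (FFc L Lc))
    (hW : ∀ v, W v = v.ordDifferential ω) :
    Divisor.degree W
        + Nat.card (orbitRel.Quotient (zpowers (S * T : SL(2, ℤ))) (SL(2, ℤ) ⧸ L.Gam))
        + Nat.card (orbitRel.Quotient (zpowers (S : SL(2, ℤ))) (SL(2, ℤ) ⧸ L.Gam))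
        + Nat.card (orbitRel.Quotient (zpowers (T : SL(2, ℤ))) (SL(2, ℤ) ⧸ L.Gam))
      = (Nat.card (SL(2, ℤ) ⧸ L.Gam) : ℤ) :=
  degree_canonical_add_orbits_L' hι D C (genusHyp_FF hι L D C hC)
    (DegreeLc.card_eq_finrank_adjoin hι L D C hC) (surjP hι L D C hC) (surjC hι L D C hC) hω W hW

end AlgClosed

end Fermat.Agent.DS.G.X0.SurjInst
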