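/-
DS/G (generic twins), chapter G-X0 (helper53): twin of `X0/SurjPoint` (helper5's C-P1c, SURJ at
finite points) at an abstract level `L : LevelData`, coefficient field `Lc`, embedding `ι : Lc →+* ℂ`.

Every place `v` of `F = FFc L Lc` with `0 < v.ord (j - c)`, `j(z₀) = ι c`, is the point place
`pointPlace g z₀` for some `g ∈ SL(2, ℤ)`.  Method as in the original: the valued overfield at `z₀`
is `MerH = FractionRing HolH` with the valuation subring `valAt z₀` (imported from the original,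
level-free); the `[SL(2,ℤ) : L.Gam]` embeddings are the `Frac`-lifts of `u ↦ Θ u ∘ g⁻¹`; then
`ValUniq.exists_eq_comap_of_sub_mem_nonunits`.

Same names as in the original; `Γ₀(N) ↦ L.Gam`, `ℚbar ↦ Lc` (`[CharZero Lc]`), `ι ↦ ι`;
`IsFractionRing (Rsubc L Lc) (FFc L Lc)` is an instance ARGUMENT (convention of helper26's twins).
-/
import Fermat.Agent.X0.PointPlaces
import Fermat.Agent.X0.SurjPoint
import Fermat.Agent.DS.G.Level
import Fermat.Agent.DS.G.X0.PointPlaces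
import Fermat.Agent.X0.ValUniq
import Fermat.Agent.X0.OrdVal

set_option autoImplicit false
set_option linter.unusedSectionVars false

open UpperHalfPlane hiding I
open Complex Filter Function Module
open scoped Manifold MatrixGroups Topology

namespace Fermat.Agent.DS.G.X0.SurjPoint

open Fermat.Agent.X0 Fermat.Agent.X0.JOrderMain AlgebraicCurve Fermat.Agent.DS.G.Level
open Fermat.Agent.X0.PointPlaces (OrdFunPlace pp_coe_ne_zero pp_exists_div compSL_inv_cancel)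
open Fermat.Agent.DS.G.X0.PointPlaces
open Fermat.Agent.X0.SurjPoint (isOrd_ordH MerH valAt ordH_zero)

noncomputable section

/-! ### The embeddings `F → MerH` -/

variable {L : LevelData} {Lc : Type} [Field Lc] [Algebra ℚ Lc] [CharZero Lc] {ι : Lc →+* ℂ}
  [IsFractionRing (Rsubc L Lc) (FFc L Lc)] {Θ : Rsubc L Lc →+* (ℍ → ℂ)}

/-- `u ↦ Θ u ∘ g⁻¹` as a ring hom `R → HolH`. -/
def embR (hΘ : IsRealize ι Θ) (g : SL(2, ℤ)) : Rsubc L Lc →+* HolH :=
  (compSLHom g⁻¹).comp (Θ.codRestrict HolH hΘ.hol)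

theorem coe_embR (hΘ : IsRealize ι Θ) (g : SL(2, ℤ)) (u : Rsubc L Lc) :
    ((embR hΘ g u : HolH) : ℍ → ℂ) = compSL (Θ u) g⁻¹ := rfl

theorem ordH_embR (hΘ : IsRealize ι Θ) (g : SL(2, ℤ)) (z₀ : ℍ) (u : Rsubc L Lc) :
    ordH ((embR hΘ g u : HolH) : ℍ → ℂ) z₀ = ptOrd Θ g z₀ u := rfl

theorem embR_injective (hΘ : IsRealize ι Θ) (g : SL(2, ℤ)) : Function.Injective (embR hΘ g) := by
  rw [injective_iff_map_eq_zero]
  intro u hu
  have h0 : compSL (Θ u) g⁻¹ = 0 := by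
    rw [← coe_embR hΘ g u, hu]
    rfl
  have h1 : Θ u = 0 := by
    rw [← compSL_inv_cancel (Θ u) g, h0]
    rfl
  exact hΘ.inj (by rw [h1, map_zero])

theorem embR_ne_zero (hΘ : IsRealize ι Θ) (g : SL(2, ℤ)) {u : Rsubc L Lc} (hu : u ≠ 0) :
    embR hΘ g u ≠ 0 := fun h => hu (embR_injective hΘ g (by rw [h, map_zero]))

/-- The embedding `F → MerH`, `u / s ↦ (Θ u ∘ g⁻¹) / (Θ s ∘ g⁻¹)`. -/
def emb (hΘ : IsRealize ι Θ) (g : SL(2, ℤ)) : FFc L Lc →+* MerH :=
  IsFractionRing.lift (A := Rsubc L Lc) (K := FFc L Lc)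
    (g := (algebraMap HolH MerH).comp (embR hΘ g))
    ((IsFractionRing.injective HolH MerH).comp (embR_injective hΘ g))

theorem emb_coe (hΘ : IsRealize ι Θ) (g : SL(2, ℤ)) (u : Rsubc L Lc) :
    emb hΘ g (u : FFc L Lc) = algebraMap HolH MerH (embR hΘ g u) :=
  IsFractionRing.lift_algebraMap _ u

theorem emb_div (hΘ : IsRealize ι Θ) (g : SL(2, ℤ)) (u s : Rsubc L Lc) :
    emb hΘ g ((u : FFc L Lc) / (s : FFc L Lc)) =
      algebraMap HolH MerH (embR hΘ g u) / algebraMap HolH MerH (embR hΘ g s) := by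
  rw [map_div₀, emb_coe, emb_coe]

theorem emb_div_mem_iff (hΘ : IsRealize ι Θ) (g : SL(2, ℤ)) (z₀ : ℍ) (u s : Rsubc L Lc) (hs : s ≠ 0) :
    emb hΘ g ((u : FFc L Lc) / (s : FFc L Lc)) ∈ valAt z₀ ↔ ptOrd Θ g z₀ s ≤ ptOrd Θ g z₀ u := by
  rw [emb_div]
  exact (isOrd_ordH z₀).div_mem_valuationSubring_iff _ _ (embR_ne_zero hΘ g hs)

theorem emb_algebraMap (hΘ : IsRealize ι Θ) (g : SL(2, ℤ)) (a : Lc) :
    emb hΘ g (algebraMap Lc (FFc L Lc) a) =
      algebraMap HolH MerH ⟨fun _ => ι a, mdifferentiable_const⟩ := by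
  change emb hΘ g ((algebraMap Lc (Rsubc L Lc) a : Rsubc L Lc) : FFc L Lc) = _
  rw [emb_coe]
  congr 1
  apply Subtype.ext
  rw [coe_embR, hΘ.map_algebraMap]
  rfl

theorem emb_jF (hΘ : IsRealize ι Θ) (g : SL(2, ℤ)) :
    emb hΘ g (jFc L Lc) = algebraMap HolH MerH ⟨jFun, jFun_mdifferentiable⟩ := by
  change emb hΘ g ((jR L Lc : Rsubc L Lc) : FFc L Lc) = _
  rw [emb_coe]
  congr 1
  apply Subtype.ext
  rw [coe_embR]
  change compSL (Θ (jR L Lc)) g⁻¹ = jFun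
  rw [hΘ.map_jF]
  funext z
  exact jFun_smul g⁻¹ z

/-! ### Surjectivity -/

open IntermediateField in
/-- **SURJ at finite points, valuation-subring form.** -/
theorem exists_comap_eq (hΘ : IsRealize ι Θ) (hinj : JInj)
    [FiniteDimensional (Kjc L Lc) (FFc L Lc)]
    (hdeg : Nat.card (SL(2, ℤ) ⧸ L.Gam) = finrank (Kjc L Lc) (FFc L Lc))
    (hdist : ∀ γ γ' : SL(2, ℤ), (∀ u : Rsubc L Lc, compSL (Θ u) γ = compSL (Θ u) γ') →
      γ' * γ⁻¹ ∈ L.Gam)
    (z₀ : ℍ) (c : Lc) (hc : jFun z₀ = ι c)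
    (v : Place Lc (FFc L Lc)) (hv : 0 < v.ord (jFc L Lc - algebraMap Lc (FFc L Lc) c)) :
    ∃ g : SL(2, ℤ), v.toValuationSubring = (valAt z₀).comap (emb hΘ g) := by
  have : FiniteDimensional Lc⟮jFc L Lc⟯ (FFc L Lc) := ‹FiniteDimensional (Kjc L Lc) (FFc L Lc)›
  have : CharZero Lc⟮jFc L Lc⟯ :=
    charZero_of_injective_algebraMap (algebraMap Lc Lc⟮jFc L Lc⟯).injective
  have : Algebra.IsIntegral Lc⟮jFc L Lc⟯ (FFc L Lc) := Algebra.IsIntegral.of_finite _ _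
  have : Algebra.IsSeparable Lc⟮jFc L Lc⟯ (FFc L Lc) := Algebra.IsSeparable.of_integral _ _
  have hdeg' : Nat.card (SL(2, ℤ) ⧸ L.Gam) = finrank Lc⟮jFc L Lc⟯ (FFc L Lc) :=
    hdeg
  have : Finite (SL(2, ℤ) ⧸ L.Gam) := by
    apply Nat.finite_of_card_ne_zero
    rw [hdeg']
    exact (Module.finrank_pos).ne'
  let σ : SL(2, ℤ) ⧸ L.Gam → FFc L Lc →+* MerH := fun x => emb hΘ x.out
  have hσinj : Function.Injective σ := by
    intro x y hxy
    have h1 : ∀ u : Rsubc L Lc, compSL (Θ u) (x.out)⁻¹ = compSL (Θ u) (y.out)⁻¹ := by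
      intro u
      have h2 : emb hΘ x.out (u : FFc L Lc) = emb hΘ y.out (u : FFc L Lc) :=
        congrArg (fun f : FFc L Lc →+* MerH => f (u : FFc L Lc)) hxy
      rw [emb_coe, emb_coe] at h2
      have h3 := IsFractionRing.injective HolH MerH h2
      rw [← coe_embR hΘ, ← coe_embR hΘ, h3]
    have h4 := hdist _ _ h1
    rw [inv_inv] at h4
    have h5 : ((y.out : SL(2, ℤ)) : SL(2, ℤ) ⧸ L.Gam) = (x.out : SL(2, ℤ)) :=
      QuotientGroup.eq.mpr h4
    rw [QuotientGroup.out_eq', QuotientGroup.out_eq'] at h5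
    exact h5.symm
  obtain ⟨x, hx⟩ := ValUniq.exists_eq_comap_of_sub_mem_nonunits (K := Lc) (jFc L Lc) σ hdeg' hσinj
    (fun i j a => by simp only [σ]; rw [emb_algebraMap, emb_algebraMap])
    (fun i j => by simp only [σ]; rw [emb_jF, emb_jF])
    (valAt z₀)
    (fun i a => by
      simp only [σ]
      rw [emb_algebraMap]
      exact (isOrd_ordH z₀).algebraMap_mem_valuationSubring _)
    v.toValuationSubring v.algebraMap_mem' c
    (fun i => by
      simp only [σ]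
      rw [← coe_jSub, emb_coe]
      refine ((isOrd_ordH z₀).algebraMap_mem_nonunits_iff _).mpr ?_
      show 0 < ordH ((embR hΘ i.out (jSub L Lc c) : HolH) : ℍ → ℂ) z₀
      rw [ordH_embR, ptOrd_jSub hΘ hinj _ z₀ c hc]
      exact_mod_cast ellOrder_pos z₀)
    (by
      rw [ValuationSubring.mem_nonunits_iff_or]
      right
      rw [FF.ffp_mem_iff_ord_nonneg, v.ord_inv]
      omega)
  exact ⟨x.out, hx⟩

/-- **SURJ at finite points**: every place over `j = c = j(z₀)` is a point place. -/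
theorem exists_pointPlace_eq (hFF5 : OrdFunPlace Lc (FFc L Lc)) (hΘ : IsRealize ι Θ) (hinj : JInj)
    (z₀ : ℍ) (c : Lc) (hc : jFun z₀ = ι c)
    [FiniteDimensional (Kjc L Lc) (FFc L Lc)]
    (hdeg : Nat.card (SL(2, ℤ) ⧸ L.Gam) = finrank (Kjc L Lc) (FFc L Lc))
    (hdist : ∀ γ γ' : SL(2, ℤ), (∀ u : Rsubc L Lc, compSL (Θ u) γ = compSL (Θ u) γ') →
      γ' * γ⁻¹ ∈ L.Gam)
    (v : Place Lc (FFc L Lc)) (hv : 0 < v.ord (jFc L Lc - algebraMap Lc (FFc L Lc) c)) :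
    ∃ g : SL(2, ℤ), pointPlace hFF5 hΘ hinj z₀ c hc g = v := by
  obtain ⟨g, hg⟩ := exists_comap_eq hΘ hinj hdeg hdist z₀ c hc v hv
  obtain ⟨v', m, hm, hv'⟩ := exists_isPointPlace hFF5 hΘ hinj g z₀ c hc
  have hvv' : v = v' := by
    apply Place.ext
    ext f
    rcases eq_or_ne f 0 with rfl | hf
    · simp
    obtain ⟨u, s, hu, hs, rfl⟩ := pp_exists_div (R := Rsubc L Lc) f hf
    have huF := pp_coe_ne_zero (F := FFc L Lc) hu
    have hsF := pp_coe_ne_zero (F := FFc L Lc) hs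
    rw [hg, ValuationSubring.mem_comap, emb_div_mem_iff hΘ g z₀ u s hs,
      FF.ffp_mem_iff_ord_nonneg, div_eq_mul_inv, v'.ord_mul huF (inv_ne_zero hsF), v'.ord_inv]
    have h1 := hv' u hu
    have h2 := hv' s hs
    have hu' := ptOrd_ne_top hΘ g z₀ hu
    have hs' := ptOrd_ne_top hΘ g z₀ hs
    rw [← ENat.natCast_toNat hu', ← ENat.natCast_toNat hs', Nat.cast_le]
    have hmZ : (0 : ℤ) < m := by exact_mod_cast hm
    constructor
    · intro h
      have h3 : ((ptOrd Θ g z₀ s).toNat : ℤ) ≤ ((ptOrd Θ g z₀ u).toNat : ℤ) := by exact_mod_cast h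
      rw [h1, h2] at h3
      have := le_of_mul_le_mul_left h3 hmZ
      omega
    · intro h
      have h3 : (m : ℤ) * v'.ord (s : FFc L Lc) ≤ m * v'.ord (u : FFc L Lc) :=
        mul_le_mul_of_nonneg_left (by omega) hmZ.le
      rw [← h1, ← h2] at h3
      exact_mod_cast h3
  subst hvv'
  exact ⟨g, pointPlace_eq_of_isPointPlace hFF5 hΘ hinj z₀ c hc ⟨hm, hv'⟩⟩

end

end Fermat.Agent.DS.G.X0.SurjPoint
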